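import Fermat.Agent.Corollaries.ChebK.NatForms
import Fermat.Agent.Corollaries.Cheb.NatMean

/-!
# Natural density and Dirichlet density

A set of places of a number field which has a natural density has a Dirichlet density, and the two
are equal. The proof is a summation by parts which compares with the set of all prime numbers.
-/

set_option autoImplicit false

open NumberField Filter Topology IsDedekindDomain
open Fermat.Agent.FrobDensity

namespace Fermat.Agent.Cor.ChebK

/-! ### Summation by parts -/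

/-- the weights `m ^ (-s) - (m + 1) ^ (-s)`, `m ≥ 1` -/
noncomputable def wt (s : ℝ) (m : ℕ) : ℝ :=
  if 1 ≤ m then (m : ℝ) ^ (-s) - ((m + 1 : ℕ) : ℝ) ^ (-s) else 0

theorem wt_nonneg {s : ℝ} (hs : 0 < s) (m : ℕ) : 0 ≤ wt s m := by
  unfold wt
  split_ifs with h
  · rw [sub_nonneg]
    refine Real.rpow_le_rpow_of_nonpos (by exact_mod_cast h) (by push_cast; linarith) (by linarith)
  · exact le_rfl

theorem hasSum_wt_ge {s : ℝ} (hs : 0 < s) {n : ℕ} (hn : 1 ≤ n) :
    HasSum (fun m : ℕ => if n ≤ m then wt s m else 0) ((n : ℝ) ^ (-s)) := by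
  rw [hasSum_iff_tendsto_nat_of_nonneg (fun m => by
    split_ifs
    · exact wt_nonneg hs m
    · exact le_rfl)]
  have h1 : ∀ M : ℕ, ∑ m ∈ Finset.range (n + M), (if n ≤ m then wt s m else 0) =
      (n : ℝ) ^ (-s) - ((n + M : ℕ) : ℝ) ^ (-s) := by
    intro M
    induction M with
    | zero =>
      rw [add_zero, sub_self]
      exact Finset.sum_eq_zero fun m hm => if_neg (by rw [Finset.mem_range] at hm; omega)
    | succ M ih =>
      rw [← add_assoc, Finset.sum_range_succ, ih, if_pos (Nat.le_add_right n M), wt,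
        if_pos (by omega)]
      ring
  have h2 : Tendsto (fun M : ℕ => ((M : ℕ) : ℝ) ^ (-s)) atTop (𝓝 0) :=
    (tendsto_rpow_neg_atTop hs).comp tendsto_natCast_atTop_atTop
  have h3 : Tendsto (fun M : ℕ => (n : ℝ) ^ (-s) - ((n + M : ℕ) : ℝ) ^ (-s)) atTop
      (𝓝 ((n : ℝ) ^ (-s))) := by
    have h4 := h2.comp (tendsto_add_atTop_nat n)
    have h5 := h4.const_sub ((n : ℝ) ^ (-s))
    rw [sub_zero] at h5
    refine h5.congr fun M => ?_
    rw [Function.comp_apply, add_comm M n]
  rw [← tendsto_add_atTop_iff_nat n]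
  refine h3.congr fun M => ?_
  rw [← h1 M, add_comm M n]

theorem hasSum_wt {s : ℝ} (hs : 0 < s) : HasSum (wt s) 1 := by
  have h := hasSum_wt_ge hs le_rfl
  rw [Nat.cast_one, Real.one_rpow] at h
  have h1 : (fun m : ℕ => if 1 ≤ m then wt s m else 0) = wt s := by
    funext m
    split_ifs with h2
    · rfl
    · rw [wt, if_neg h2]
  rwa [h1] at h

/-- the terms of the double series -/
noncomputable def dbl (a : ℕ → ℝ) (s : ℝ) (q : Nat.Primes × ℕ) : ℝ :=
  a q.1 * (if ((q.1 : Nat.Primes) : ℕ) ≤ q.2 then wt s q.2 else 0)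

theorem hasSum_dbl (a : ℕ → ℝ) {s : ℝ} (hs : 0 < s) (p : Nat.Primes) :
    HasSum (fun m => dbl a s (p, m)) (a p * ((p : ℕ) : ℝ) ^ (-s)) :=
  (hasSum_wt_ge hs p.2.one_lt.le).mul_left _

theorem abs_dbl (a : ℕ → ℝ) {s : ℝ} (hs : 0 < s) (q : Nat.Primes × ℕ) :
    |dbl a s q| = dbl (fun n => |a n|) s q := by
  unfold dbl
  rw [abs_mul]
  congr 1
  split_ifs
  · exact abs_of_nonneg (wt_nonneg hs _)
  · exact abs_zero

theorem summable_dbl {a : ℕ → ℝ} {C : ℝ} (ha : ∀ n, |a n| ≤ C) {s : ℝ} (hs : 1 < s) :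
    Summable (dbl a s) := by
  have hs0 : 0 < s := by linarith
  refine Summable.of_abs ?_
  simp_rw [abs_dbl a hs0]
  refine (summable_prod_of_nonneg fun q => ?_).mpr ⟨fun p => (hasSum_dbl _ hs0 p).summable, ?_⟩
  · rw [← abs_dbl a hs0]
    exact abs_nonneg _
  · simp_rw [fun p => (hasSum_dbl (fun n => |a n|) hs0 p).tsum_eq]
    exact summable_PS (C := C) (fun n => by rw [abs_abs]; exact ha n) hs

theorem hasSum_dbl_fiber (a : ℕ → ℝ) (s : ℝ) (m : ℕ) :
    HasSum (fun p : Nat.Primes => dbl a s (p, m)) (wt s m * ∑ p ∈ primesTo m, a p) := by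
  classical
  have hinj : Set.InjOn (fun p : Nat.Primes => (p : ℕ)) ((fun p : Nat.Primes => (p : ℕ)) ⁻¹'
      (primesTo m : Set ℕ)) := Subtype.val_injective.injOn
  have h1 : wt s m * ∑ p ∈ primesTo m, a p =
      ∑ p ∈ (primesTo m).preimage (fun p : Nat.Primes => (p : ℕ)) hinj, dbl a s (p, m) := by
    have h2 := Finset.sum_preimage (fun p : Nat.Primes => (p : ℕ)) (primesTo m) hinj
      (fun n => a n * (if n ≤ m then wt s m else 0)) (fun n hn h => absurd
        ⟨⟨n, (mem_primesTo.mp hn).2⟩, rfl⟩ h)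
    rw [Finset.mul_sum]
    refine Eq.trans (Finset.sum_congr rfl fun p hp => ?_) h2.symm
    rw [if_pos (mem_primesTo.mp hp).1, mul_comm]
  rw [h1]
  refine hasSum_sum_of_ne_finset_zero fun p hp => ?_
  rw [Finset.mem_preimage, mem_primesTo, not_and] at hp
  have h2 : ¬ ((p : ℕ) ≤ m) := fun h => hp h p.2
  simp only [dbl, if_neg h2, mul_zero]

theorem hasSum_dbl_all {a : ℕ → ℝ} {C : ℝ} (ha : ∀ n, |a n| ≤ C) {s : ℝ} (hs : 1 < s) :
    HasSum (dbl a s) (PS a s) := by
  have hF := (summable_dbl ha hs).hasSum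
  have h4 := hF.prod_fiberwise (hasSum_dbl a (by linarith : 0 < s))
  rwa [← h4.tsum_eq] at hF

/-- **Summation by parts**: `∑ a_p p ^ (-s) = ∑_m (m ^ (-s) - (m + 1) ^ (-s)) ∑_{p ≤ m} a_p`. -/
theorem hasSum_parts {a : ℕ → ℝ} {C : ℝ} (ha : ∀ n, |a n| ≤ C) {s : ℝ} (hs : 1 < s) :
    HasSum (fun m : ℕ => wt s m * ∑ p ∈ primesTo m, a p) (PS a s) := by
  have h3 := (Equiv.prodComm ℕ Nat.Primes).hasSum_iff.mpr (hasSum_dbl_all ha hs)
  exact h3.prod_fiberwise fun m => hasSum_dbl_fiber a s m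

/-! ### Abelian theorem -/

theorem exists_abs_sum_le {b : ℕ → ℝ} (hb : Cheb.HasMean b 0) {ε : ℝ} (hε : 0 < ε) :
    ∃ c : ℝ, 0 ≤ c ∧ ∀ m : ℕ, |∑ p ∈ primesTo m, b p| ≤ ε * (∑ _p ∈ primesTo m, (1 : ℝ)) + c := by
  have h1 : ∀ᶠ m : ℕ in atTop, |(∑ p ∈ primesTo m, b p) * Real.log m / m| < ε / 2 := by
    have h2 := (tendsto_order.mp (continuous_abs.continuousAt.tendsto.comp hb)).2 (ε / 2)
      (by rw [abs_zero]; positivity)
    exact h2
  have h2 : ∀ᶠ m : ℕ in atTop, 1 / 2 < (∑ _p ∈ primesTo m, (1 : ℝ)) * Real.log m / m :=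
    (tendsto_order.mp Cheb.hasMean_one).1 (1 / 2) (by norm_num)
  obtain ⟨N, hN⟩ := eventually_atTop.mp ((h1.and h2).and (eventually_gt_atTop 1))
  refine ⟨∑ m ∈ Finset.range N, |∑ p ∈ primesTo m, b p|,
    Finset.sum_nonneg fun m _ => abs_nonneg _, fun m => ?_⟩
  have h3 : 0 ≤ ε * (∑ _p ∈ primesTo m, (1 : ℝ)) :=
    mul_nonneg hε.le (Finset.sum_nonneg fun _ _ => zero_le_one)
  rcases lt_or_ge m N with h | h
  · have h4 := Finset.single_le_sum (f := fun m => |∑ p ∈ primesTo m, b p|)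
      (fun m _ => abs_nonneg _) (Finset.mem_range.mpr h)
    linarith
  · obtain ⟨⟨h4, h5⟩, h6⟩ := hN m h
    have hm : (0 : ℝ) < m := by exact_mod_cast zero_lt_one.trans h6
    have hl : 0 < Real.log (m : ℝ) := Real.log_pos (by exact_mod_cast h6)
    have h7 : 0 ≤ ∑ m ∈ Finset.range N, |∑ p ∈ primesTo m, b p| :=
      Finset.sum_nonneg fun m _ => abs_nonneg _
    have h8 : |∑ p ∈ primesTo m, b p| * (Real.log m / m) <
        ε * (∑ _p ∈ primesTo m, (1 : ℝ)) * (Real.log m / m) := by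
      rw [mul_div_assoc, abs_mul, abs_of_pos (div_pos hl hm)] at h4
      rw [mul_div_assoc] at h5
      have h9 := mul_lt_mul_of_pos_left h5 hε
      linarith
    have h9 := lt_of_mul_lt_mul_right h8 (div_pos hl hm).le
    linarith

/-- **Abelian theorem**: a mean value over the primes (natural density) is a mean value with the
weights `p ^ (-s)`, `s → 1`. -/
theorem tendsto_PS_of_hasMean {a : ℕ → ℝ} {C δ : ℝ} (ha : ∀ n, |a n| ≤ C)
    (h : Cheb.HasMean a δ) :
    Tendsto (fun s : ℝ => PS a s / Real.log (1 / (s - 1))) (𝓝[>] 1) (𝓝 δ) := by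
  have hb : Cheb.HasMean (fun n => a n + -δ) 0 := by
    have h1 := h.add (Cheb.hasMean_const (-δ))
    rwa [add_neg_cancel] at h1
  have hbC : ∀ n, |a n + -δ| ≤ C + |δ| := fun n =>
    (abs_add_le _ _).trans (by rw [abs_neg]; linarith [ha n])
  have h1C : ∀ n : ℕ, |(fun _ : ℕ => (1 : ℝ)) n| ≤ 1 := fun n => by rw [abs_one]
  have h0 : Tendsto (fun s : ℝ => PS (fun n => a n + -δ) s / Real.log (1 / (s - 1)))
      (𝓝[>] 1) (𝓝 0) := by
    rw [tendsto_order]
    have key : ∀ ε : ℝ, 0 < ε → ∀ᶠ s in 𝓝[>] (1 : ℝ),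
        |PS (fun n => a n + -δ) s / Real.log (1 / (s - 1))| < ε := by
      intro ε hε
      obtain ⟨c, hc, hle⟩ := exists_abs_sum_le hb (ε := ε / 3) (by positivity)
      have h2 : ∀ᶠ s in 𝓝[>] (1 : ℝ), PS (fun _ => 1) s / Real.log (1 / (s - 1)) < 2 :=
        (tendsto_order.mp tendsto_PS_one).2 2 (by norm_num)
      have h3 : ∀ᶠ s in 𝓝[>] (1 : ℝ), c / Real.log (1 / (s - 1)) < ε / 3 :=
        (tendsto_order.mp (tendsto_log_atTop.const_div_atTop c)).2 (ε / 3) (by positivity)
      filter_upwards [h2, h3, self_mem_nhdsWithin, tendsto_log_atTop.eventually_gt_atTop 0]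
        with s h4 h5 hs hl
      have hs1 : 1 < s := hs
      have h6 := hasSum_parts hbC hs1
      have h7 : HasSum (fun m : ℕ => ε / 3 * (wt s m * ∑ _p ∈ primesTo m, (1 : ℝ)) + c * wt s m)
          (ε / 3 * PS (fun _ => 1) s + c * 1) :=
        ((hasSum_parts h1C hs1).mul_left (ε / 3)).add
          ((hasSum_wt (by linarith : 0 < s)).mul_left c)
      have h8 := tsum_of_norm_bounded h7 (f := fun m : ℕ => wt s m *
        ∑ p ∈ primesTo m, (a p + -δ)) fun m => by
          have hw := wt_nonneg (by linarith : 0 < s) m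
          rw [norm_mul, Real.norm_eq_abs, Real.norm_eq_abs, abs_of_nonneg hw]
          have h9 := mul_le_mul_of_nonneg_left (hle m) hw
          linarith
      rw [h6.tsum_eq, Real.norm_eq_abs, mul_one] at h8
      rw [abs_div, abs_of_pos hl]
      calc |PS (fun n => a n + -δ) s| / Real.log (1 / (s - 1))
          ≤ (ε / 3 * PS (fun _ => 1) s + c) / Real.log (1 / (s - 1)) := by gcongr
        _ = ε / 3 * (PS (fun _ => 1) s / Real.log (1 / (s - 1))) +
            c / Real.log (1 / (s - 1)) := by ring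
        _ < ε / 3 * 2 + ε / 3 := by gcongr
        _ = ε := by ring
    constructor
    · intro y hy
      filter_upwards [key (-y) (by linarith)] with s h1
      linarith [(abs_lt.mp h1).1]
    · intro y hy
      filter_upwards [key y hy] with s h1
      exact (abs_lt.mp h1).2
  have h2 : Tendsto (fun s : ℝ => PS (fun n => a n + -δ) s / Real.log (1 / (s - 1)) +
      δ * (PS (fun _ => 1) s / Real.log (1 / (s - 1)))) (𝓝[>] 1) (𝓝 δ) := by
    have h3 := h0.add (tendsto_PS_one.const_mul δ)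
    rwa [zero_add, mul_one] at h3
  refine h2.congr' ?_
  filter_upwards [self_mem_nhdsWithin] with s hs
  have hs1 : (1 : ℝ) < s := hs
  have h3 : PS (fun n => a n + -δ) s = PS a s + (-δ) * PS (fun _ => 1) s := by
    rw [← PS_const_mul]
    unfold PS
    rw [← (summable_PS ha hs1).tsum_add (summable_PS (a := fun _ => -δ * 1) (C := |δ|)
      (fun n => by rw [mul_one, abs_neg]) hs1)]
    exact tsum_congr fun p => by ring
  rw [h3]
  ring

/-! ### Sets of places -/

variable {K : Type*} [Field K] [NumberField K] {P : Set (HeightOneSpectrum (𝓞 K))} {δ : ℝ}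

/-- **A set of places with a natural density has a Dirichlet density, the same.** -/
theorem HasNatDensity.hasDensity (h : HasNatDensity P δ) : HasDensity P δ := by
  rw [hasDensity_iff_PS]
  exact tendsto_PS_of_hasMean (abs_cntP_le P) (hasNatDensity_iff_degOneQ.mp h)

/-- The two densities of a set of places agree, if both exist. -/
theorem HasNatDensity.eq_of_hasDensity {ε : ℝ} (h : HasNatDensity P δ) (h' : HasDensity P ε) :
    δ = ε :=
  h.hasDensity.unique h'

end Fermat.Agent.Cor.ChebK
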