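import Fermat.Agent.Corollaries.ChebK.DegOne

/-!
# The theorem of Bauer over a number field

`K` a number field, `L / K` a finite Galois extension, `M / K` a finite extension.

* `nonempty_algHom_of_density`: if, outside a set of places of density `0`, every place of `K` with
  a place of degree one in `M` splits completely in `L`, then `L` embeds in `M` over `K`.
* `bauer`: `L` embeds in `M` over `K` if and only if almost all places of `K` with a place of degree
  one in `M` split completely in `L`.
* `nonempty_algEquiv_iff`: two Galois extensions of `K` are isomorphic over `K` if and only if almost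
  the same places split completely in them.
-/

set_option autoImplicit false
set_option linter.unusedSectionVars false

namespace Fermat.Agent.Cor.ChebK

open NumberField IsDedekindDomain Fermat.Agent.Frob Fermat.Agent.FrobDensity
open Fermat.Agent.LT.Tower.Fr Filter Topology

open scoped Classical Pointwise

section Tower

variable {K L N : Type*} [Field K] [NumberField K] [Field L] [NumberField L]
  [Field N] [NumberField N] [Algebra K L] [Algebra K N] [Algebra L N] [IsScalarTower K L N]
  [IsGalois K L] [IsGalois K N]

/-- The restriction of a Frobenius element is a Frobenius element. -/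
theorem isArithFrobAt_restrictNormal {σ : N ≃ₐ[K] N} {w : HeightOneSpectrum (𝓞 N)}
    (hF : IsArithFrobAt (𝓞 K) σ w.asIdeal) :
    IsArithFrobAt (𝓞 K) (σ.restrictNormal L) (w.under (𝓞 L)).asIdeal := by
  intro x
  have h1 := hF (algebraMap (𝓞 L) (𝓞 N) x)
  have h2 : σ • algebraMap (𝓞 L) (𝓞 N) x = algebraMap (𝓞 L) (𝓞 N) (σ.restrictNormal L • x) :=
    RingOfIntegers.ext (σ.restrictNormal_commutes L x).symm
  change σ • algebraMap (𝓞 L) (𝓞 N) x - _ ∈ _ at h1
  rw [card_under, h2] at h1
  rw [card_under, under_under K L w]
  change algebraMap (𝓞 L) (𝓞 N) _ ∈ w.asIdeal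
  rw [map_sub, map_pow]
  exact h1

variable {M : Type*} [Field M] [NumberField M] [Algebra K M] [Algebra M N] [IsScalarTower K M N]

/-- The group theoretic form of Bauer's theorem. -/
theorem mem_fixSet_of_density {Q : Set (HeightOneSpectrum (𝓞 K))} (hQ : HasDensity Q 0)
    (h : ∀ v, v ∉ Q → HasDegOne M v → SplitsCompletely L v) {σ : N ≃ₐ[K] N}
    (hσ : σ ∈ fixSet K M N) : σ ∈ fixSet K L N := by
  obtain ⟨v, hv, hvQ⟩ :=
    ((chebotarev_class σ).infinite_diff (class_density_pos σ) hQ).nonempty
  obtain ⟨w, rfl, hF⟩ := hv.2.exists_eq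
  have h1 : HasDegOne M (w.under (𝓞 K)) := hasDegOne_iff.mpr ⟨w, rfl, σ, hσ, hF⟩
  have h2 := splitsCompletely_iff.mp (h _ hvQ h1)
  have h3 := isArithFrobAt_restrictNormal (L := L) hF
  have h4 : IsArithFrobAt (𝓞 K) (1 : L ≃ₐ[K] L) (w.under (𝓞 L)).asIdeal := by
    rw [isArithFrobAt_one_iff, under_under K L w]
    exact h2.2 _ (under_under K L w)
  have h5 : σ.restrictNormal L = 1 :=
    isArithFrobAt_unique (h2.1 _ (under_under K L w)) h3 h4
  intro x
  rw [← σ.restrictNormal_commutes L x, h5]
  rfl

omit [NumberField K] [NumberField L] [NumberField N] [NumberField M] [IsGalois K L] in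
/-- Galois theory: if `Gal(N/M) ≤ Gal(N/L)`, then `L` embeds in `M`. -/
theorem nonempty_algHom_of_fixSet [FiniteDimensional K N]
    (h : ∀ σ ∈ fixSet K M N, σ ∈ fixSet K L N) : Nonempty (L →ₐ[K] M) := by
  have : IsGalois M N := IsGalois.tower_top_of_isGalois K M N
  have : FiniteDimensional M N := FiniteDimensional.right K M N
  let f : M →ₐ[K] N := IsScalarTower.toAlgHom K M N
  let g : L →ₐ[K] N := IsScalarTower.toAlgHom K L N
  have h1 : ∀ x : L, g x ∈ f.fieldRange := by
    intro x
    have h2 : algebraMap L N x ∈ Set.range (algebraMap M N) := by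
      rw [IsGalois.mem_range_algebraMap_iff_fixed]
      intro τ
      exact h (τ.restrictScalars K) (fun y => τ.commutes y) x
    obtain ⟨y, hy⟩ := h2
    exact ⟨y, hy⟩
  exact ⟨(AlgEquiv.ofInjectiveField f).symm.toAlgHom.comp
    (g.codRestrict f.fieldRange.toSubalgebra h1)⟩

end Tower

variable {K L M : Type*} [Field K] [NumberField K] [Field L] [NumberField L]
  [Field M] [NumberField M] [Algebra K L] [Algebra K M] [IsGalois K L]

/-- **Bauer's theorem, with an exceptional set of density `0`.** -/
theorem nonempty_algHom_of_density {Q : Set (HeightOneSpectrum (𝓞 K))} (hQ : HasDensity Q 0)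
    (h : ∀ v, v ∉ Q → HasDegOne M v → SplitsCompletely L v) : Nonempty (L →ₐ[K] M) := by
  obtain ⟨N, hN, hG, ⟨i⟩, ⟨j⟩⟩ := exists_galois K L M
  have : NumberField N := NumberField.of_module_finite K N
  let _ : Algebra L N := i.toRingHom.toAlgebra
  let _ : Algebra M N := j.toRingHom.toAlgebra
  have : IsScalarTower K L N := IsScalarTower.of_algebraMap_eq fun x => (i.commutes x).symm
  have : IsScalarTower K M N := IsScalarTower.of_algebraMap_eq fun x => (j.commutes x).symm
  exact nonempty_algHom_of_fixSet (K := K) (L := L) (M := M) (N := N) fun σ hσ =>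
    mem_fixSet_of_density hQ h hσ

theorem splitsCompletely_of_algHom (f : L →ₐ[K] M) {v : HeightOneSpectrum (𝓞 K)} (hv : Unr L v)
    (h : HasDegOne M v) : SplitsCompletely L v := by
  let _ : Algebra L M := f.toRingHom.toAlgebra
  have : IsScalarTower K L M := IsScalarTower.of_algebraMap_eq fun x => (f.commutes x).symm
  obtain ⟨u, rfl, hu⟩ := h
  refine (splitsCompletely_iff_exists hv).mpr ⟨u.under (𝓞 L), under_under K L u, ?_⟩
  refine le_antisymm ((absNorm_le (K := L) u).trans hu.le) ?_
  have h1 := absNorm_le (K := K) (u.under (𝓞 L))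
  rwa [under_under K L u] at h1

/-- **The theorem of Bauer.** -/
theorem bauer : Nonempty (L →ₐ[K] M) ↔
    {v : HeightOneSpectrum (𝓞 K) | HasDegOne M v ∧ ¬ SplitsCompletely L v}.Finite := by
  constructor
  · rintro ⟨f⟩
    refine (finite_not_unr K L).subset ?_
    rintro v ⟨h1, h2⟩ h3
    exact h2 (splitsCompletely_of_algHom f h3 h1)
  · intro h
    refine nonempty_algHom_of_density (hasDensity_of_finite h) fun v hv h1 => ?_
    by_contra h2
    exact hv ⟨h1, h2⟩

theorem SplitsCompletely.hasDegOne {L : Type*} [Field L] [NumberField L] [Algebra K L]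
    {v : HeightOneSpectrum (𝓞 K)} (h : SplitsCompletely L v) : HasDegOne L v := by
  obtain ⟨w, hw⟩ := exists_above (L := L) v
  exact ⟨w, hw, (splitsCompletely_iff.mp h).2 w hw⟩

/-- **Galois extensions are determined by the places which split completely**, up to a set of
density `0`. -/
theorem nonempty_algEquiv_of_density {L' : Type*} [Field L'] [NumberField L'] [Algebra K L']
    [IsGalois K L'] (h : HasDensity (symmDiff {v : HeightOneSpectrum (𝓞 K) | SplitsCompletely L v}
      {v : HeightOneSpectrum (𝓞 K) | SplitsCompletely L' v}) 0) : Nonempty (L ≃ₐ[K] L') := by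
  obtain ⟨f⟩ : Nonempty (L →ₐ[K] L') := by
    refine nonempty_algHom_of_density (h.union_zero (hasDensity_of_finite (finite_not_unr K L')))
      fun v hv h1 => ?_
    rw [Set.mem_union, not_or, Set.mem_symmDiff] at hv
    by_contra h2
    have h3 : Unr L' v := by
      by_contra h4
      exact hv.2 h4
    exact hv.1 (Or.inr ⟨splitsCompletely_of_algHom (AlgHom.id K L') h3 h1, h2⟩)
  obtain ⟨g⟩ : Nonempty (L' →ₐ[K] L) := by
    refine nonempty_algHom_of_density (h.union_zero (hasDensity_of_finite (finite_not_unr K L)))
      fun v hv h1 => ?_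
    rw [Set.mem_union, not_or, Set.mem_symmDiff] at hv
    by_contra h2
    have h3 : Unr L v := by
      by_contra h4
      exact hv.2 h4
    exact hv.1 (Or.inl ⟨splitsCompletely_of_algHom (AlgHom.id K L) h3 h1, h2⟩)
  have h1 : Module.finrank K L = Module.finrank K L' :=
    le_antisymm (LinearMap.finrank_le_finrank_of_injective (f := f.toLinearMap) f.injective)
      (LinearMap.finrank_le_finrank_of_injective (f := g.toLinearMap) g.injective)
  have h2 : Function.Surjective f :=
    (LinearMap.injective_iff_surjective_of_finrank_eq_finrank (f := f.toLinearMap) h1).mp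
      f.injective
  exact ⟨AlgEquiv.ofBijective f ⟨f.injective, h2⟩⟩

/-- Two Galois extensions of `K` are isomorphic if and only if almost the same places of `K` split
completely in them. -/
theorem nonempty_algEquiv_iff {L' : Type*} [Field L'] [NumberField L'] [Algebra K L']
    [IsGalois K L'] : Nonempty (L ≃ₐ[K] L') ↔
      (symmDiff {v : HeightOneSpectrum (𝓞 K) | SplitsCompletely L v}
        {v : HeightOneSpectrum (𝓞 K) | SplitsCompletely L' v}).Finite := by
  constructor
  · rintro ⟨f⟩
    refine ((finite_not_unr K L).union (finite_not_unr K L')).subset ?_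
    intro v hv
    rw [Set.mem_symmDiff] at hv
    rcases hv with ⟨h1, h2⟩ | ⟨h1, h2⟩
    · right
      exact fun h3 => h2 (splitsCompletely_of_algHom f.symm.toAlgHom h3
        (SplitsCompletely.hasDegOne h1))
    · left
      exact fun h3 => h2 (splitsCompletely_of_algHom f.toAlgHom h3
        (SplitsCompletely.hasDegOne h1))
  · intro h
    exact nonempty_algEquiv_of_density (hasDensity_of_finite h)

end Fermat.Agent.Cor.ChebK
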