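import Fermat.Agent.Classic.Level.EmbPlaces

/-!
# Places of degree one, embeddings in `ℚ̄` and Frobenius elements

`L / K` a Galois extension of number fields, `C` a conjugation stable subset of `Gal(L/K)`, `p` a
prime which is good for `K` and `L` (all but finitely many), `A` a place of `ℚ̄` above `p`, `σ` a
Frobenius element at `A`.

`natCard_eq`: the number of embeddings `i : L → ℚ̄` with `σ ∘ i = i ∘ τ` for some `τ ∈ C` is
`[L : K]` times the number of places `v` of `K` of norm `p` which have a Frobenius in `C`.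
-/

set_option autoImplicit false
set_option linter.unusedSectionVars false

namespace Fermat.Agent.Cor.ChebK

open NumberField IsDedekindDomain Fermat.Agent.Frob Fermat.Agent.FrobDensity
open Fermat.Agent.LT.Tower.Fr

variable {K L : Type*} [Field K] [NumberField K] [Field L] [NumberField L] [Algebra K L]

section Ext

/-- Two embeddings of `L` which agree on `K` differ by an element of the Galois group. -/
theorem exists_comp_eq [IsGalois K L] (i i' : L →+* AlgebraicClosure ℚ)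
    (h : i'.comp (algebraMap K L) = i.comp (algebraMap K L)) :
    ∃ τ : L ≃ₐ[K] L, i' = i.comp (τ : L →+* L) := by
  let _ : Algebra L (AlgebraicClosure ℚ) := i.toAlgebra
  let _ : Algebra K (AlgebraicClosure ℚ) := (i.comp (algebraMap K L)).toAlgebra
  have hst : IsScalarTower K L (AlgebraicClosure ℚ) := IsScalarTower.of_algebraMap_eq' rfl
  let φ : L →ₐ[K] AlgebraicClosure ℚ := { i' with commutes' := fun x => RingHom.congr_fun h x }
  refine ⟨Normal.algHomEquivAut K (AlgebraicClosure ℚ) L φ, ?_⟩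
  ext x
  exact (AlgHom.congr_fun
    ((Normal.algHomEquivAut K (AlgebraicClosure ℚ) L).symm_apply_apply φ) x).symm

omit [NumberField K] [NumberField L] in
/-- Elements of the Galois group are determined by one embedding. -/
theorem comp_injective (i : L →+* AlgebraicClosure ℚ) {ρ ρ' : L ≃ₐ[K] L}
    (h : i.comp (ρ : L →+* L) = i.comp (ρ' : L →+* L)) : ρ = ρ' := by
  ext x
  exact i.injective (RingHom.congr_fun h x)

end Ext

variable [IsGalois K L]

/-- The place `v` of `K` has a Frobenius element in `C`. -/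
def HasFrobIn (C : Set (L ≃ₐ[K] L)) (v : HeightOneSpectrum (𝓞 K)) : Prop :=
  ∃ w : HeightOneSpectrum (𝓞 L), w.under (𝓞 K) = v ∧ ∃ τ ∈ C, IsArithFrobAt (𝓞 K) τ w.asIdeal

variable {A : ValuationSubring (AlgebraicClosure ℚ)} {p : ℕ} {σ : GQ}
  {i : L →+* AlgebraicClosure ℚ} {w : HeightOneSpectrum (𝓞 L)} {τ : L ≃ₐ[K] L}

omit [IsGalois K L] in
lemma card_under (w : HeightOneSpectrum (𝓞 L)) :
    Nat.card (𝓞 K ⧸ w.asIdeal.under (𝓞 K)) = Ideal.absNorm (w.under (𝓞 K)).asIdeal := by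
  rw [← natCard_quot]
  rfl

omit [IsGalois K L] in
lemma redτ_comp (x : 𝓞 L) : redτ A (i.comp (τ : L →+* L)) x = redτ A i (τ • x) := rfl

theorem isArithFrobAt_of_comp (hσ : A.IsFrobeniusAt σ p) (hw : Over i A w)
    (hN : Ideal.absNorm (w.under (𝓞 K)).asIdeal = p)
    (h : (gh σ).comp i = i.comp (τ : L →+* L)) : IsArithFrobAt (𝓞 K) τ w.asIdeal := by
  intro x
  rw [card_under, hN, hw.mem_iff, map_sub, map_pow, sub_eq_zero, ← redτ_frob hσ, h]
  rfl

theorem comp_eq_of_isArithFrobAt (hL : Good L p) (hA : A.LiesOverPrime p)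
    (hσ : A.IsFrobeniusAt σ p) (hw : Over i A w)
    (hN : Ideal.absNorm (w.under (𝓞 K)).asIdeal = p) (h : IsArithFrobAt (𝓞 K) τ w.asIdeal) :
    (gh σ).comp i = i.comp (τ : L →+* L) := by
  apply hL A hA
  ext x
  have h1 := h x
  rw [card_under, hN, hw.mem_iff, map_sub, map_pow, sub_eq_zero] at h1
  rw [redτ_frob hσ, ← h1]
  rfl

/-- **Embeddings and places of degree one.** -/
theorem natCard_eq (hp : p.Prime) (hK : Good K p) (hL : Good L p) (hA : A.LiesOverPrime p)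
    (hσ : A.IsFrobeniusAt σ p) {C : Set (L ≃ₐ[K] L)}
    (hC : ∀ g c : L ≃ₐ[K] L, c ∈ C → g * c * g⁻¹ ∈ C) :
    Nat.card {i : L →+* AlgebraicClosure ℚ // ∃ τ ∈ C, (gh σ).comp i = i.comp (τ : L →+* L)} =
      Nat.card {v : HeightOneSpectrum (𝓞 K) // Ideal.absNorm v.asIdeal = p ∧ HasFrobIn C v} *
        Nat.card (L ≃ₐ[K] L) := by
  have key : ∀ v : {v : HeightOneSpectrum (𝓞 K) // Ideal.absNorm v.asIdeal = p ∧ HasFrobIn C v},
      ∃ i : L →+* AlgebraicClosure ℚ, Over (i.comp (algebraMap K L)) A v.1 ∧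
        ∃ τ ∈ C, (gh σ).comp i = i.comp (τ : L →+* L) := by
    rintro ⟨v, hv, w, rfl, τ, hτ, hF⟩
    have hpv : (p : 𝓞 K) ∈ (w.under (𝓞 K)).asIdeal := by
      rw [← hv]
      exact Ideal.absNorm_mem _
    have hpw : (p : 𝓞 L) ∈ w.asIdeal := by
      have h1 : algebraMap (𝓞 K) (𝓞 L) (p : 𝓞 K) ∈ w.asIdeal := hpv
      rwa [map_natCast] at h1
    obtain ⟨i, hi⟩ := exists_redτ hp hA hpw
    have hi' : Over i A w := hi
    exact ⟨i, hi'.under, τ, hτ, comp_eq_of_isArithFrobAt hL hA hσ hi' hv hF⟩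
  choose i₀ hi₀ τ₀ hτ₀ hi₀' using key
  rw [← Nat.card_prod]
  symm
  refine Nat.card_congr (Equiv.ofBijective (fun q => ⟨(i₀ q.1).comp (q.2 : L →+* L),
    q.2⁻¹ * τ₀ q.1 * (q.2⁻¹)⁻¹, hC _ _ (hτ₀ q.1), ?_⟩) ⟨?_, ?_⟩)
  · rw [← RingHom.comp_assoc, hi₀']
    ext x
    change i₀ q.1 (τ₀ q.1 (q.2 x)) = i₀ q.1 (q.2 ((q.2⁻¹ * τ₀ q.1 * (q.2⁻¹)⁻¹) x))
    rw [inv_inv, AlgEquiv.mul_apply, AlgEquiv.mul_apply, ← AlgEquiv.mul_apply q.2,
      mul_inv_cancel, AlgEquiv.one_apply]
  · rintro ⟨v, ρ⟩ ⟨v', ρ'⟩ h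
    have h1 : (i₀ v).comp (ρ : L →+* L) = (i₀ v').comp (ρ' : L →+* L) := congrArg Subtype.val h
    have h2 : (i₀ v).comp (algebraMap K L) = (i₀ v').comp (algebraMap K L) := by
      ext x
      have h3 := RingHom.congr_fun h1 (algebraMap K L x)
      change i₀ v (ρ (algebraMap K L x)) = i₀ v' (ρ' (algebraMap K L x)) at h3
      rwa [ρ.commutes, ρ'.commutes] at h3
    have h4 : v = v' := by
      have h5 := hi₀ v
      rw [h2] at h5
      exact Subtype.ext (h5.unique (hi₀ v'))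
    subst h4
    rw [comp_injective _ h1]
  · rintro ⟨i, τ, hτ, hi⟩
    obtain ⟨w, hw⟩ := exists_over_of_liesOver i hp hA
    have hj : (gh (σ ^ 1)).comp (i.comp (algebraMap K L)) = i.comp (algebraMap K L) := by
      rw [pow_one, ← RingHom.comp_assoc, hi]
      ext x
      change i (τ (algebraMap K L x)) = i (algebraMap K L x)
      rw [τ.commutes]
    obtain ⟨f, -, hf⟩ := exists_absNorm_eq_pow hp (hw.under.natCast_mem_iff.mpr hA : (p : 𝓞 K) ∈
      (w.under (𝓞 K)).asIdeal)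
    have hf1 : f = 1 := Nat.dvd_one.mp ((hw.under.frob_pow_comp_iff hp hK hA hσ hf 1).mp hj)
    rw [hf1, pow_one] at hf
    let v : {v : HeightOneSpectrum (𝓞 K) // Ideal.absNorm v.asIdeal = p ∧ HasFrobIn C v} :=
      ⟨w.under (𝓞 K), hf, w, rfl, τ, hτ, isArithFrobAt_of_comp hσ hw hf hi⟩
    have huniq := Classic.Emb.natCard_over (v := w.under (𝓞 K)) hp hK hA hσ
      (hw.under.natCast_mem_iff.mpr hA) (f := 1) (by rw [pow_one]; exact hf)
    have hsub := (Nat.card_eq_one_iff_unique.mp huniq).1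
    have h6 : i.comp (algebraMap K L) = (i₀ v).comp (algebraMap K L) :=
      congrArg Subtype.val (hsub.allEq
        (⟨i.comp (algebraMap K L), hw.under⟩ : {τ : K →+* AlgebraicClosure ℚ // Over τ A _})
        ⟨(i₀ v).comp (algebraMap K L), hi₀ v⟩)
    obtain ⟨ρ, hρ⟩ := exists_comp_eq (i₀ v) i h6
    exact ⟨(v, ρ), Subtype.ext hρ.symm⟩

end Fermat.Agent.Cor.ChebK
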