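import Fermat.Agent.Corollaries.ChebK.Split
import Fermat.Agent.Corollaries.ZetaK.Jordan

/-!
# Places of degree one

`M / K` an extension of number fields, contained in the Galois extension `N / K`.

* `hasDegOne_iff`: a place `v` of `K` has a place of relative degree one in `M` if and only if some
  element of `Gal(N/M)` is a Frobenius element of a place of `N` above `v`.
* `hasDensity_hasDegOne`: these `v` have the density of the union of the conjugates of `Gal(N/M)`.
* `hasDensity_not_hasDegOne`: if `M ≠ K`, then the `v` without a place of degree one in `M` have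
  density at least `1 / [M : K]` (Jordan, Serre).
-/

set_option autoImplicit false
set_option linter.unusedSectionVars false

namespace Fermat.Agent.Cor.ChebK

open NumberField IsDedekindDomain Fermat.Agent.Frob Fermat.Agent.FrobDensity
open Fermat.Agent.LT.Tower.Fr Filter Topology

open scoped Classical Pointwise

/-! ### Density of the complement -/

section Density

variable {K : Type*} [Field K] [NumberField K] {P Q : Set (HeightOneSpectrum (𝓞 K))} {δ : ℝ}

theorem HasDensity.compl (hP : HasDensity P δ) : HasDensity Pᶜ (1 - δ) := by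
  have h := (hasDensity_univ K).sub hP
  refine h.congr' ?_
  filter_upwards [self_mem_nhdsWithin] with s hs
  have h1 := DS_union (disjoint_compl_right (a := P)) hs
  rw [Set.union_compl_self] at h1
  rw [h1, ← sub_div, add_sub_cancel_left]

theorem DS_nonneg (P : Set (HeightOneSpectrum (𝓞 K))) (s : ℝ) : 0 ≤ DS P s := by
  rw [DS_eq]
  exact tsum_nonneg fun v => tm_nonneg P s v

theorem HasDensity.subset_zero (hQ : HasDensity Q 0) (h : P ⊆ Q) : HasDensity P 0 := by
  refine squeeze_zero' ?_ ?_ hQ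
  · filter_upwards [tendsto_log_atTop.eventually_gt_atTop 0] with s hs
    exact div_nonneg (DS_nonneg P s) hs.le
  · filter_upwards [self_mem_nhdsWithin, tendsto_log_atTop.eventually_gt_atTop 0] with s h1 h2
    exact div_le_div_of_nonneg_right (DS_mono h h1) h2.le

theorem HasDensity.union_zero (hP : HasDensity P 0) (hQ : HasDensity Q 0) :
    HasDensity (P ∪ Q) 0 := by
  have h := HasDensity.union Set.disjoint_sdiff_right hP (hQ.subset_zero Set.sdiff_subset)
  rw [Set.union_sdiff_self, add_zero] at h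
  exact h

end Density

/-! ### Conjugate places -/

section Conj

variable {K L : Type*} [Field K] [NumberField K] [Field L] [NumberField L] [Algebra K L]
  [IsGalois K L]

theorem exists_smul_place (w : HeightOneSpectrum (𝓞 L)) (g : L ≃ₐ[K] L) :
    ∃ w' : HeightOneSpectrum (𝓞 L), w'.asIdeal = g • w.asIdeal ∧
      w'.under (𝓞 K) = w.under (𝓞 K) := by
  have h3 : (g • w.asIdeal).IsPrime := inferInstance
  have h4 : (g • w.asIdeal : Ideal (𝓞 L)).under (𝓞 K) = w.asIdeal.under (𝓞 K) :=
    Ideal.under_smul (𝓞 K) w.asIdeal g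
  have h5 : (g • w.asIdeal : Ideal (𝓞 L)) ≠ ⊥ := by
    intro h0
    rw [h0] at h4
    apply (w.under (𝓞 K)).ne_bot
    change w.asIdeal.under (𝓞 K) = ⊥
    rw [← h4]
    exact Ideal.under_bot _ _
  exact ⟨⟨g • w.asIdeal, h3, h5⟩, rfl, HeightOneSpectrum.ext h4⟩

theorem hasFrobIn_conj_iff {C : Set (L ≃ₐ[K] L)} {v : HeightOneSpectrum (𝓞 K)} :
    HasFrobIn {σ : L ≃ₐ[K] L | ∃ g : L ≃ₐ[K] L, g * σ * g⁻¹ ∈ C} v ↔ HasFrobIn C v := by
  constructor
  · rintro ⟨w, hw, σ, ⟨g, hg⟩, hF⟩
    obtain ⟨w', h1, h2⟩ := exists_smul_place w g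
    refine ⟨w', h2.trans hw, _, hg, ?_⟩
    rw [h1]
    exact hF.conj g
  · rintro ⟨w, hw, σ, hσ, hF⟩
    refine ⟨w, hw, σ, ⟨1, ?_⟩, hF⟩
    rwa [one_mul, inv_one, mul_one]

end Conj

/-! ### Towers -/

section Tower

variable {K M N : Type*} [Field K] [NumberField K] [Field M] [NumberField M]
  [Field N] [NumberField N] [Algebra K M] [Algebra K N] [Algebra M N] [IsScalarTower K M N]

variable (M) in
/-- There is a place of `M` of degree one above `v`. -/
def HasDegOne (v : HeightOneSpectrum (𝓞 K)) : Prop :=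
  ∃ u : HeightOneSpectrum (𝓞 M), u.under (𝓞 K) = v ∧
    Ideal.absNorm u.asIdeal = Ideal.absNorm v.asIdeal

variable (K M) in
theorem under_under (w : HeightOneSpectrum (𝓞 N)) :
    (w.under (𝓞 M)).under (𝓞 K) = w.under (𝓞 K) :=
  HeightOneSpectrum.ext (Ideal.under_under w.asIdeal)

variable (K M N) in
/-- the elements of `Gal(N/K)` which fix `M` -/
def fixSet : Set (N ≃ₐ[K] N) := {σ | ∀ x : M, σ (algebraMap M N x) = algebraMap M N x}

/-- **Places of degree one and Frobenius elements.** -/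
theorem hasDegOne_iff [IsGalois K N] {v : HeightOneSpectrum (𝓞 K)} :
    HasDegOne M v ↔ HasFrobIn (fixSet K M N) v := by
  constructor
  · rintro ⟨u, rfl, hu⟩
    obtain ⟨w, rfl⟩ := exists_above (L := N) u
    have : IsGalois M N := IsGalois.tower_top_of_isGalois K M N
    obtain ⟨τ, hτ⟩ := exists_isArithFrobAt (K := M) w
    refine ⟨w, (under_under K M w).symm, τ.restrictScalars K, fun x => τ.commutes x, fun x => ?_⟩
    have h1 := hτ x
    rw [card_under, hu, under_under K M w] at h1
    rw [card_under]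
    exact h1
  · rintro ⟨w, rfl, σ, hσ, hF⟩
    refine ⟨w.under (𝓞 M), under_under K M w, ?_⟩
    rw [← under_under K M w]
    refine absNorm_eq_of_forall _ fun x => ?_
    have h1 := hF (algebraMap (𝓞 M) (𝓞 N) x)
    have h2 : σ • algebraMap (𝓞 M) (𝓞 N) x = algebraMap (𝓞 M) (𝓞 N) x :=
      RingOfIntegers.ext (hσ x)
    change σ • algebraMap (𝓞 M) (𝓞 N) x - _ ∈ _ at h1
    rw [card_under, h2] at h1
    rw [under_under K M w]
    change algebraMap (𝓞 M) (𝓞 N) _ ∈ w.asIdeal
    rw [map_sub, map_pow]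
    exact h1

/-- **The density of the places with a place of degree one.** -/
theorem hasDensity_hasDegOne (K M N : Type*) [Field K] [NumberField K] [Field M] [NumberField M]
    [Field N] [NumberField N] [Algebra K M] [Algebra K N] [Algebra M N] [IsScalarTower K M N]
    [IsGalois K N] :
    HasDensity {v : HeightOneSpectrum (𝓞 K) | HasDegOne M v}
      ((Nat.card {σ : N ≃ₐ[K] N // ∃ g : N ≃ₐ[K] N, g * σ * g⁻¹ ∈ fixSet K M N} : ℝ) /
        Nat.card (N ≃ₐ[K] N)) := by
  have h := chebotarev_hasFrobIn (K := K) (L := N)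
    (C := {σ : N ≃ₐ[K] N | ∃ g : N ≃ₐ[K] N, g * σ * g⁻¹ ∈ fixSet K M N}) (by
      rintro g c ⟨g', hg'⟩
      refine ⟨g' * g⁻¹, ?_⟩
      have h1 : g' * g⁻¹ * (g * c * g⁻¹) * (g' * g⁻¹)⁻¹ = g' * c * g'⁻¹ := by group
      rwa [h1])
  have h1 : {v : HeightOneSpectrum (𝓞 K) | HasDegOne M v} = {v | HasFrobIn
      {σ : N ≃ₐ[K] N | ∃ g : N ≃ₐ[K] N, g * σ * g⁻¹ ∈ fixSet K M N} v} :=
    Set.ext fun v => hasDegOne_iff.trans hasFrobIn_conj_iff.symm
  rw [h1]
  exact h

/-! ### Jordan's theorem -/

variable (K M N) in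
/-- `Gal(N/M)` as a subgroup of `Gal(N/K)` -/
def fixSub : Subgroup (N ≃ₐ[K] N) where
  carrier := fixSet K M N
  one_mem' := fun _ => rfl
  mul_mem' := fun {a b} ha hb x => by
    rw [AlgEquiv.mul_apply, hb x, ha x]
  inv_mem' := fun {a} ha x => by
    have h := congrArg (a⁻¹ : N ≃ₐ[K] N) (ha x)
    rw [← AlgEquiv.mul_apply, inv_mul_cancel, AlgEquiv.one_apply] at h
    exact h.symm

variable (K M N) in
/-- `Gal(N/M)` -/
def fixEquiv : (N ≃ₐ[M] N) ≃ fixSub K M N where
  toFun τ := ⟨τ.restrictScalars K, fun x => τ.commutes x⟩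
  invFun σ := { (σ : N ≃ₐ[K] N) with commutes' := σ.2 }
  left_inv _ := AlgEquiv.ext fun _ => rfl
  right_inv _ := Subtype.ext (AlgEquiv.ext fun _ => rfl)

theorem index_fixSub [IsGalois K N] : (fixSub K M N).index = Module.finrank K M := by
  have : IsGalois M N := IsGalois.tower_top_of_isGalois K M N
  have h1 := (fixSub K M N).card_mul_index
  rw [← Nat.card_congr (fixEquiv K M N), IsGalois.card_aut_eq_finrank,
    IsGalois.card_aut_eq_finrank, ← Module.finrank_mul_finrank K M N, mul_comm] at h1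
  exact Nat.eq_of_mul_eq_mul_right Module.finrank_pos h1

/-- **Jordan's theorem** for number fields: most elements of the Galois group have no conjugate
in `Gal(N/M)`. -/
theorem card_le_not_conj [IsGalois K N] (h : 2 ≤ Module.finrank K M) :
    Nat.card (N ≃ₐ[K] N) ≤ Module.finrank K M *
      Nat.card {σ : N ≃ₐ[K] N // ¬ ∃ g : N ≃ₐ[K] N, g * σ * g⁻¹ ∈ fixSet K M N} := by
  have h1 : Nat.card ((N ≃ₐ[K] N) ⧸ fixSub K M N) = Module.finrank K M := index_fixSub
  have h2 := Frob.card_le_fixedPointFree (G := N ≃ₐ[K] N) (X := (N ≃ₐ[K] N) ⧸ fixSub K M N)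
    (h1.symm ▸ h)
  rw [h1] at h2
  refine h2.trans (Nat.mul_le_mul_left _ (le_of_eq ?_))
  refine Nat.card_congr (Equiv.subtypeEquivRight fun σ => ?_)
  rw [not_exists]
  constructor
  · intro h3 g hg
    refine h3 ((g⁻¹ : N ≃ₐ[K] N) : (N ≃ₐ[K] N) ⧸ fixSub K M N) ?_
    change ((σ * g⁻¹ : N ≃ₐ[K] N) : (N ≃ₐ[K] N) ⧸ fixSub K M N) = _
    rw [eq_comm, QuotientGroup.eq, inv_inv, ← mul_assoc]
    exact hg
  · intro h3 x
    obtain ⟨a, rfl⟩ := QuotientGroup.mk_surjective x
    intro h4
    refine h3 a⁻¹ ?_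
    have h5 : ((σ * a : N ≃ₐ[K] N) : (N ≃ₐ[K] N) ⧸ fixSub K M N) = a := h4
    rw [eq_comm, QuotientGroup.eq, ← mul_assoc] at h5
    rw [inv_inv]
    exact h5

/-- The density of the places without a place of degree one, in the Galois closure. -/
theorem hasDensity_not_hasDegOne_aux (K M N : Type*) [Field K] [NumberField K] [Field M]
    [NumberField M] [Field N] [NumberField N] [Algebra K M] [Algebra K N] [Algebra M N]
    [IsScalarTower K M N] [IsGalois K N] :
    HasDensity {v : HeightOneSpectrum (𝓞 K) | ¬ HasDegOne M v}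
      ((Nat.card {σ : N ≃ₐ[K] N // ¬ ∃ g : N ≃ₐ[K] N, g * σ * g⁻¹ ∈ fixSet K M N} : ℝ) /
        Nat.card (N ≃ₐ[K] N)) := by
  have h := (hasDensity_hasDegOne K M N).compl
  have hN0 : (Nat.card (N ≃ₐ[K] N) : ℝ) ≠ 0 := by
    have : 0 < Nat.card (N ≃ₐ[K] N) := Nat.card_pos
    exact_mod_cast this.ne'
  have h1 : (Nat.card {σ : N ≃ₐ[K] N // ∃ g : N ≃ₐ[K] N, g * σ * g⁻¹ ∈ fixSet K M N} : ℝ) +
      Nat.card {σ : N ≃ₐ[K] N // ¬ ∃ g : N ≃ₐ[K] N, g * σ * g⁻¹ ∈ fixSet K M N} =
      Nat.card (N ≃ₐ[K] N) := by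
    rw [← Nat.cast_add, ← Nat.card_sum]
    exact congrArg _ (Nat.card_congr (Equiv.sumCompl _))
  have h2 : 1 - (Nat.card {σ : N ≃ₐ[K] N // ∃ g : N ≃ₐ[K] N, g * σ * g⁻¹ ∈ fixSet K M N} : ℝ) /
      Nat.card (N ≃ₐ[K] N) =
      (Nat.card {σ : N ≃ₐ[K] N // ¬ ∃ g : N ≃ₐ[K] N, g * σ * g⁻¹ ∈ fixSet K M N} : ℝ) /
        Nat.card (N ≃ₐ[K] N) := by
    rw [eq_div_iff hN0, sub_mul, div_mul_cancel₀ _ hN0, ← h1]
    ring
  rw [h2] at h
  exact h

end Tower

/-! ### Galois closures -/

/-- Two extensions are contained in a finite Galois extension. -/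
theorem exists_galois (K L M : Type*) [Field K] [NumberField K] [Field L] [NumberField L]
    [Field M] [NumberField M] [Algebra K L] [Algebra K M] :
    ∃ N : IntermediateField K (AlgebraicClosure K), FiniteDimensional K N ∧ IsGalois K N ∧
      Nonempty (L →ₐ[K] N) ∧ Nonempty (M →ₐ[K] N) := by
  let i : L →ₐ[K] AlgebraicClosure K := IsAlgClosed.lift
  let j : M →ₐ[K] AlgebraicClosure K := IsAlgClosed.lift
  have hi : FiniteDimensional K i.fieldRange :=
    LinearEquiv.finiteDimensional (AlgEquiv.ofInjectiveField i).toLinearEquiv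
  have hj : FiniteDimensional K j.fieldRange :=
    LinearEquiv.finiteDimensional (AlgEquiv.ofInjectiveField j).toLinearEquiv
  let E : IntermediateField K (AlgebraicClosure K) := i.fieldRange ⊔ j.fieldRange
  have hE : FiniteDimensional K E := IntermediateField.finiteDimensional_sup _ _
  let N : IntermediateField K (AlgebraicClosure K) :=
    IntermediateField.normalClosure K E (AlgebraicClosure K)
  have hN : FiniteDimensional K N := normalClosure.is_finiteDimensional K E _
  have hn : Normal K N := normalClosure.normal K E _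
  have hle : E ≤ N := E.le_normalClosure
  refine ⟨N, hN, ⟨⟩, ⟨?_⟩, ⟨?_⟩⟩
  · exact (IntermediateField.inclusion (le_sup_left.trans hle)).comp
      (AlgEquiv.ofInjectiveField i).toAlgHom
  · exact (IntermediateField.inclusion (le_sup_right.trans hle)).comp
      (AlgEquiv.ofInjectiveField j).toAlgHom

/-- **Places without a place of degree one**: if `M ≠ K`, they have a density `≥ 1 / [M : K]`. -/
theorem hasDensity_not_hasDegOne (K M : Type*) [Field K] [NumberField K] [Field M]
    [NumberField M] [Algebra K M] (h : 2 ≤ Module.finrank K M) :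
    ∃ δ : ℝ, 1 / (Module.finrank K M : ℝ) ≤ δ ∧
      HasDensity {v : HeightOneSpectrum (𝓞 K) | ¬ HasDegOne M v} δ := by
  obtain ⟨N, hN, hG, -, ⟨j⟩⟩ := exists_galois K M M
  have : NumberField N := NumberField.of_module_finite K N
  let _ : Algebra M N := j.toRingHom.toAlgebra
  have : IsScalarTower K M N := IsScalarTower.of_algebraMap_eq fun x => (j.commutes x).symm
  refine ⟨_, ?_, hasDensity_not_hasDegOne_aux K M N⟩
  have h1 := card_le_not_conj (K := K) (M := M) (N := N) h
  have h2 : (0 : ℝ) < Nat.card (N ≃ₐ[K] N) := by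
    have : 0 < Nat.card (N ≃ₐ[K] N) := Nat.card_pos
    exact_mod_cast this
  have h3 : (0 : ℝ) < Module.finrank K M := by
    have : 0 < Module.finrank K M := Module.finrank_pos
    exact_mod_cast this
  rw [div_le_div_iff₀ h3 h2, one_mul, mul_comm]
  exact_mod_cast h1

/-- If all places outside a set of density `0` have a place of degree one in `M`, then `M = K`. -/
theorem finrank_eq_one_of_hasDegOne {K M : Type*} [Field K] [NumberField K] [Field M]
    [NumberField M] [Algebra K M]
    (h : HasDensity {v : HeightOneSpectrum (𝓞 K) | ¬ HasDegOne M v} 0) :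
    Module.finrank K M = 1 := by
  have h0 : 0 < Module.finrank K M := Module.finrank_pos
  by_contra h1
  obtain ⟨δ, h2, h3⟩ := hasDensity_not_hasDegOne K M (by omega)
  rw [← h.unique h3] at h2
  have : (0 : ℝ) < 1 / (Module.finrank K M : ℝ) := by positivity
  linarith

end Fermat.Agent.Cor.ChebK
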