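import Mathlib

/-!
# Degrees of the irreducible factors of a polynomial over a finite field

`k` a finite field with `q` elements, `κ` an extension of `k` in which `F ∈ k[X]` has `deg F`
different roots. The sum of the degrees dividing `n` of the irreducible factors of `F` is the number
of roots `x ∈ κ` of `F` with `x ^ q ^ n = x`.
-/

set_option autoImplicit false

open Polynomial

namespace Fermat.Agent.Cor.ChebK.FacFin

variable {k κ : Type*} [Field k] [Finite k] [Field κ] (j : k →+* κ)

/-- a root `x` of the irreducible polynomial `g` satisfies `x ^ q ^ n = x` if and only if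
`deg g ∣ n` -/
theorem pow_eq_iff {g : k[X]} (hg : Irreducible g) {x : κ} (hx : (g.map j).IsRoot x) (n : ℕ) :
    x ^ Nat.card k ^ n = x ↔ g.natDegree ∣ n := by
  let _ : Algebra k κ := j.toAlgebra
  rw [hg.natDegree_dvd_iff_dvd_X_pow_card_pow_sub_X]
  have h1 : ∀ G : k[X], g ∣ G ↔ (G.map j).IsRoot x := by
    intro G
    constructor
    · rintro ⟨H, rfl⟩
      rw [Polynomial.map_mul]
      exact Polynomial.root_mul_right_of_isRoot _ hx
    · intro hG
      by_contra hnd
      have hcop : IsCoprime g G := (hg.coprime_iff_not_dvd).mpr hnd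
      obtain ⟨a, b, hab⟩ := hcop
      have h2 := congrArg (fun P : k[X] => (P.map j).eval x) hab
      simp only [Polynomial.map_add, Polynomial.map_mul, Polynomial.map_one, eval_add, eval_mul,
        eval_one] at h2
      rw [hx.eq_zero, hG.eq_zero, mul_zero, mul_zero, add_zero] at h2
      exact zero_ne_one h2
  rw [h1]
  simp only [Polynomial.map_sub, Polynomial.map_pow, map_X, IsRoot.def, eval_sub, eval_pow, eval_X,
    sub_eq_zero]

open Classical in
/-- the factors one by one -/
theorem countP_bind {s : Multiset k[X]} (hs : ∀ g ∈ s, Irreducible g)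
    (hr : ∀ g ∈ s, (g.map j).roots.card = g.natDegree) (n : ℕ) :
    (s.bind fun g => (g.map j).roots).countP (fun x => x ^ Nat.card k ^ n = x) =
      ((s.map natDegree).filter (· ∣ n)).sum := by
  induction s using Multiset.induction_on with
  | empty => simp
  | cons g s ih =>
    have h1 := ih (fun h hh => hs h (Multiset.mem_cons_of_mem hh))
      (fun h hh => hr h (Multiset.mem_cons_of_mem hh))
    have hg := hs g (Multiset.mem_cons_self g s)
    have hg' : g.map j ≠ 0 := by
      rw [Ne, Polynomial.map_eq_zero]
      exact hg.ne_zero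
    rw [Multiset.cons_bind, Multiset.countP_add, h1, Multiset.map_cons]
    by_cases hd : g.natDegree ∣ n
    · rw [Multiset.filter_cons_of_pos (p := (· ∣ n)) _ hd, Multiset.sum_cons]
      congr 1
      rw [← hr g (Multiset.mem_cons_self g s), Multiset.countP_eq_card]
      intro x hx
      exact (pow_eq_iff j hg ((mem_roots hg').mp hx) n).mpr hd
    · rw [Multiset.filter_cons_of_neg (p := (· ∣ n)) _ hd]
      have h2 : (g.map j).roots.countP (fun x => x ^ Nat.card k ^ n = x) = 0 := by
        rw [Multiset.countP_eq_zero]
        intro x hx h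
        exact hd ((pow_eq_iff j hg ((mem_roots hg').mp hx) n).mp h)
      rw [h2, zero_add]

open Classical in
/-- **Degrees of the irreducible factors and roots.** -/
theorem countP_roots {F : k[X]} (hF : F ≠ 0) (hs : (F.map j).roots.card = F.natDegree) (n : ℕ) :
    (F.map j).roots.countP (fun x => x ^ Nat.card k ^ n = x) =
      (((UniqueFactorizationMonoid.factors F).map natDegree).filter (· ∣ n)).sum := by
  have hfac := UniqueFactorizationMonoid.factors_prod hF
  have hirr : ∀ g ∈ UniqueFactorizationMonoid.factors F, Irreducible g := fun g hg =>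
    UniqueFactorizationMonoid.irreducible_of_factor g hg
  have h0 : (0 : κ[X]) ∉ (UniqueFactorizationMonoid.factors F).map fun g => g.map j := by
    intro h
    obtain ⟨g, hg, h1⟩ := Multiset.mem_map.mp h
    rw [Polynomial.map_eq_zero] at h1
    exact (hirr g hg).ne_zero h1
  have hroots : (F.map j).roots =
      (UniqueFactorizationMonoid.factors F).bind fun g => (g.map j).roots := by
    have h1 : (F.map j).roots = ((UniqueFactorizationMonoid.factors F).prod.map j).roots := by
      obtain ⟨u, hu⟩ := hfac
      obtain ⟨c, hc, hcu⟩ := Polynomial.isUnit_iff.mp u.isUnit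
      conv_lhs => rw [← hu, ← hcu, Polynomial.map_mul, map_C, mul_comm,
        roots_C_mul _ ((map_ne_zero j).mpr hc.ne_zero)]
    rw [h1, Polynomial.map_multiset_prod, roots_multiset_prod _ h0, Multiset.bind_map]
  have hspl : (F.map j).Splits :=
    splits_iff_card_roots.mpr (hs.trans (natDegree_map j).symm)
  rw [hroots]
  refine countP_bind j hirr (fun g hg => ?_) n
  have h1 : g.map j ∣ F.map j :=
    Polynomial.map_dvd j (UniqueFactorizationMonoid.dvd_of_mem_factors hg)
  have h2 : F.map j ≠ 0 := by rwa [Ne, Polynomial.map_eq_zero]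
  have h3 := splits_iff_card_roots.mp (hspl.of_dvd h2 h1)
  rw [h3, natDegree_map]

end Fermat.Agent.Cor.ChebK.FacFin
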