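import Fermat.Agent.Corollaries.ChebK.Sum

/-!
# Chebotarev's density theorem for Galois extensions of number fields

`L / K` a Galois extension of number fields, `C` a conjugation stable subset of `Gal(L/K)`.

* `chebotarev`: the set of the places `v` of `K` which are unramified in `L` and have a Frobenius
  element in `C` has Dirichlet density `|C| / |Gal(L/K)|`.
* `chebotarev_arithFrobAt`: the same in terms of `arithFrobAt`.
* `infinite_deg_one`: every conjugacy class is the Frobenius class of infinitely many unramified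
  places of `K` of prime absolute norm.
-/

set_option autoImplicit false
set_option linter.unusedSectionVars false

namespace Fermat.Agent.Cor.ChebK

open NumberField IsDedekindDomain Fermat.Agent.Frob Fermat.Agent.FrobDensity
open Fermat.Agent.LT.Tower.Fr Filter Topology

open scoped Classical Pointwise

/-! ### Dirichlet density -/

section Density

variable {K : Type*} [Field K] [NumberField K]
  {P Q : Set (HeightOneSpectrum (𝓞 K))} {δ ε : ℝ}

/-- Density does not see finite sets. -/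
theorem HasDensity.congr_finite (h : (symmDiff P Q).Finite) (hP : HasDensity P δ) :
    HasDensity Q δ := by
  refine hP.congr_cntP (T := (h.image fun v => Ideal.absNorm v.asIdeal).toFinset)
    fun p _ hpT => ?_
  unfold cntP
  refine Nat.card_congr (Equiv.subtypeEquivRight fun v => and_congr_right fun hv => ?_)
  have h1 : v ∉ symmDiff P Q := fun hmem => hpT ((h.image _).mem_toFinset.mpr ⟨v, hmem, hv⟩)
  rw [Set.mem_symmDiff] at h1
  tauto

theorem hasDensity_empty : HasDensity (∅ : Set (HeightOneSpectrum (𝓞 K))) 0 := by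
  unfold HasDensity DS
  simp

theorem hasDensity_of_finite (h : P.Finite) : HasDensity P 0 := by
  refine hasDensity_empty.congr_finite ?_
  rwa [← Set.bot_eq_empty, bot_symmDiff]

theorem DS_mono (h : P ⊆ Q) {s : ℝ} (hs : 1 < s) : DS P s ≤ DS Q s := by
  rw [DS_eq, DS_eq]
  refine (summable_tm P hs).tsum_le_tsum (fun v => ?_) (summable_tm Q hs)
  unfold tm
  by_cases hv : v ∈ P
  · rw [if_pos hv, if_pos (h hv)]
  · rw [if_neg hv]
    exact tm_nonneg Q s v

theorem HasDensity.mono (h : P ⊆ Q) (hP : HasDensity P δ) (hQ : HasDensity Q ε) : δ ≤ ε := by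
  refine le_of_tendsto_of_tendsto hP hQ ?_
  filter_upwards [self_mem_nhdsWithin, tendsto_log_atTop.eventually_gt_atTop 0] with s h1 h2
  exact div_le_div_of_nonneg_right (DS_mono h h1) h2.le

theorem HasDensity.unique (hP : HasDensity P δ) (hP' : HasDensity P ε) : δ = ε :=
  tendsto_nhds_unique hP hP'

theorem HasDensity.nonneg (hP : HasDensity P δ) : 0 ≤ δ :=
  hasDensity_empty.mono (Set.empty_subset P) hP

/-- A set of positive density is not contained in a set of density `0` up to finitely many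
elements. -/
theorem HasDensity.infinite_diff (hP : HasDensity P δ) (hδ : 0 < δ) (hQ : HasDensity Q 0) :
    (P \ Q).Infinite := by
  intro hfin
  have h1 : HasDensity (Q ∪ P \ Q) 0 := by
    refine hQ.congr_finite (hfin.subset ?_)
    intro v hv
    rw [Set.mem_symmDiff] at hv
    rcases hv with h | h
    · exact absurd (Or.inl h.1) h.2
    · exact h.1.resolve_left h.2
  have h2 : P ⊆ Q ∪ P \ Q := fun v hv => by
    by_cases h : v ∈ Q
    · exact Or.inl h
    · exact Or.inr ⟨hv, h⟩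
  exact absurd (hP.mono h2 h1) (not_le.mpr hδ)

theorem HasDensity.infinite (hP : HasDensity P δ) (hδ : 0 < δ) : P.Infinite := by
  have h := hP.infinite_diff hδ hasDensity_empty
  rwa [Set.sdiff_empty] at h

theorem DS_union (hd : Disjoint P Q) {s : ℝ} (hs : 1 < s) : DS (P ∪ Q) s = DS P s + DS Q s := by
  rw [DS_eq, DS_eq, DS_eq, ← (summable_tm P hs).tsum_add (summable_tm Q hs)]
  refine tsum_congr fun v => ?_
  unfold tm
  by_cases hv : v ∈ P
  · have hv' : v ∉ Q := Set.disjoint_left.mp hd hv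
    rw [if_pos (Set.mem_union_left Q hv), if_pos hv, if_neg hv', add_zero]
  · by_cases hv' : v ∈ Q
    · rw [if_pos (Set.mem_union_right P hv'), if_neg hv, if_pos hv', zero_add]
    · rw [if_neg (fun h => ((Set.mem_union v P Q).mp h).elim hv hv'), if_neg hv, if_neg hv',
        add_zero]

theorem HasDensity.union (hd : Disjoint P Q) (hP : HasDensity P δ) (hQ : HasDensity Q ε) :
    HasDensity (P ∪ Q) (δ + ε) := by
  refine (Tendsto.add hP hQ).congr' ?_
  filter_upwards [self_mem_nhdsWithin] with s hs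
  rw [DS_union hd hs, add_div]

/-- The places of prime norm in a set have the same density as the set. -/
theorem HasDensity.deg_one (hP : HasDensity P δ) :
    HasDensity {v | v ∈ P ∧ (Ideal.absNorm v.asIdeal).Prime} δ := by
  refine hP.congr_cntP (T := ∅) fun p hp _ => ?_
  unfold cntP
  refine Nat.card_congr (Equiv.subtypeEquivRight fun v => and_congr_right fun hv => ?_)
  rw [Set.mem_ofPred_eq, hv]
  exact (and_iff_left hp).symm

end Density

/-! ### Frobenius elements -/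

variable {K L : Type*} [Field K] [NumberField K] [Field L] [NumberField L] [Algebra K L]

variable (L) in
/-- `v` is unramified in `L` -/
def Unr (v : HeightOneSpectrum (𝓞 K)) : Prop :=
  ∀ w : HeightOneSpectrum (𝓞 L), w.under (𝓞 K) = v → Algebra.IsUnramifiedAt (𝓞 K) w.asIdeal

variable (K L) in
/-- Only finitely many places are ramified. -/
theorem finite_not_unr : {v : HeightOneSpectrum (𝓞 K) | ¬ Unr L v}.Finite := by
  have h0 : differentIdeal (𝓞 K) (𝓞 L) ≠ 0 := differentIdeal_ne_bot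
  refine ((Ideal.finite_factors h0).image (fun w => w.under (𝓞 K))).subset ?_
  intro v hv
  rw [Set.mem_ofPred_eq, Unr] at hv
  push Not at hv
  obtain ⟨w, hw, h⟩ := hv
  refine ⟨w, ?_, hw⟩
  by_contra h1
  exact h (not_dvd_differentIdeal_iff.mp h1)

/-- places above a given place -/
theorem exists_above (v : HeightOneSpectrum (𝓞 K)) :
    ∃ w : HeightOneSpectrum (𝓞 L), w.under (𝓞 K) = v := by
  obtain ⟨Q, hQ, hover⟩ :=
    Ideal.exists_maximal_ideal_liesOver_of_isIntegral (S := 𝓞 L) v.asIdeal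
  refine ⟨⟨Q, hQ.isPrime, Ideal.ne_bot_of_liesOver_of_ne_bot v.ne_bot Q⟩, ?_⟩
  exact HeightOneSpectrum.ext hover.over.symm

variable [IsGalois K L]

theorem exists_isArithFrobAt (w : HeightOneSpectrum (𝓞 L)) :
    ∃ τ : L ≃ₐ[K] L, IsArithFrobAt (𝓞 K) τ w.asIdeal :=
  IsArithFrobAt.exists_of_isInvariant (𝓞 K) (L ≃ₐ[K] L) w.asIdeal

/-- Uniqueness of the Frobenius element at an unramified place. -/
theorem isArithFrobAt_unique {w : HeightOneSpectrum (𝓞 L)}
    (hw : Algebra.IsUnramifiedAt (𝓞 K) w.asIdeal) {τ τ' : L ≃ₐ[K] L}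
    (h : IsArithFrobAt (𝓞 K) τ w.asIdeal) (h' : IsArithFrobAt (𝓞 K) τ' w.asIdeal) : τ = τ' := by
  have h1 := AlgHom.IsArithFrobAt.eq_of_isUnramifiedAt h h' (fun x hx =>
    mem_nonZeroDivisors_of_ne_zero fun h0 => hx (h0 ▸ zero_mem _))
  have h2 : ∀ x : 𝓞 L, τ (x : L) = τ' (x : L) := fun x =>
    congrArg (fun y : 𝓞 L => (y : L)) (AlgHom.congr_fun h1 x)
  have h3 : (τ : L →+* L) = (τ' : L →+* L) := by
    apply IsLocalization.ringHom_ext (nonZeroDivisors (𝓞 L))
    ext x
    exact h2 x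
  ext x
  exact RingHom.congr_fun h3 x

/-- Two places above the same place are conjugate. -/
theorem exists_smul_eq_of_under {w w' : HeightOneSpectrum (𝓞 L)}
    (h : w.under (𝓞 K) = w'.under (𝓞 K)) : ∃ g : L ≃ₐ[K] L, w'.asIdeal = g • w.asIdeal :=
  Algebra.IsInvariant.exists_smul_of_under_eq (𝓞 K) (𝓞 L) (L ≃ₐ[K] L) _ _
    (congrArg HeightOneSpectrum.asIdeal h)

/-- For an unramified place, one Frobenius element is in `C` if and only if all of them are. -/
theorem hasFrobIn_iff_forall {v : HeightOneSpectrum (𝓞 K)} (hv : Unr L v)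
    {C : Set (L ≃ₐ[K] L)} (hC : ∀ g c : L ≃ₐ[K] L, c ∈ C → g * c * g⁻¹ ∈ C) :
    HasFrobIn C v ↔ ∀ w : HeightOneSpectrum (𝓞 L), w.under (𝓞 K) = v →
      ∀ τ : L ≃ₐ[K] L, IsArithFrobAt (𝓞 K) τ w.asIdeal → τ ∈ C := by
  constructor
  · rintro ⟨w₀, hw₀, τ₀, hτ₀, h₀⟩ w hw τ hτ
    obtain ⟨g, hg⟩ := exists_smul_eq_of_under (hw₀.trans hw.symm)
    have h1 := h₀.conj g
    rw [← hg] at h1
    rw [isArithFrobAt_unique (hv w hw) hτ h1]
    exact hC g τ₀ hτ₀
  · intro h
    obtain ⟨w, hw⟩ := exists_above (L := L) v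
    obtain ⟨τ, hτ⟩ := exists_isArithFrobAt (K := K) w
    exact ⟨w, hw, τ, h w hw τ hτ, hτ⟩

/-! ### Chebotarev -/

theorem chebotarev_hasFrobIn {C : Set (L ≃ₐ[K] L)}
    (hC : ∀ g c : L ≃ₐ[K] L, c ∈ C → g * c * g⁻¹ ∈ C) :
    HasDensity {v : HeightOneSpectrum (𝓞 K) | HasFrobIn C v}
      ((Nat.card C : ℝ) / Nat.card (L ≃ₐ[K] L)) := by
  obtain ⟨D, hD, hK⟩ := exists_good K
  obtain ⟨D', hD', hL⟩ := exists_good L
  have hN0 : (Nat.card (L ≃ₐ[K] L) : ℝ) ≠ 0 := by
    have : 0 < Nat.card (L ≃ₐ[K] L) := Nat.card_pos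
    exact_mod_cast this.ne'
  have hcount : ∀ p : ℕ, p.Prime → p ∉ D.divisors ∪ D'.divisors →
      (cnt C (frob p) : ℝ) =
        Nat.card (L ≃ₐ[K] L) * cntP {v : HeightOneSpectrum (𝓞 K) | HasFrobIn C v} p := by
    intro p hp hpT
    rw [Finset.mem_union, not_or, Nat.mem_divisors, Nat.mem_divisors] at hpT
    have hp1 : Good K p := hK p hp fun h => hpT.1 ⟨h, hD⟩
    have hp2 : Good L p := hL p hp fun h => hpT.2 ⟨h, hD'⟩
    obtain ⟨A, hA, hσ⟩ := exists_frob_place hp
    have h1 := natCard_eq hp hp1 hp2 hA hσ hC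
    rw [cnt, h1, Nat.cast_mul, mul_comm]
    rfl
  rw [hasDensity_iff_PS]
  obtain ⟨B, hB⟩ := exists_PS_sub_le (a := fun p => (cnt C (frob p) : ℝ))
    (b := fun p => Nat.card (L ≃ₐ[K] L) *
      (cntP {v : HeightOneSpectrum (𝓞 K) | HasFrobIn C v} p : ℝ))
    (C := Nat.card (L →+* AlgebraicClosure ℚ) + Nat.card (L ≃ₐ[K] L) * Module.finrank ℚ K)
    (fun n => (abs_cnt_le C (frob n)).trans (by
      have h : (0 : ℝ) ≤ Nat.card (L ≃ₐ[K] L) * Module.finrank ℚ K := by positivity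
      linarith))
    (fun n => by
      rw [abs_mul, abs_of_nonneg (Nat.cast_nonneg _)]
      have h1 := mul_le_mul_of_nonneg_left
        (abs_cntP_le {v : HeightOneSpectrum (𝓞 K) | HasFrobIn C v} n)
        (Nat.cast_nonneg (Nat.card (L ≃ₐ[K] L)) : (0 : ℝ) ≤ _)
      have h2 : (0 : ℝ) ≤ Nat.card (L →+* AlgebraicClosure ℚ) := Nat.cast_nonneg _
      linarith)
    (T := D.divisors ∪ D'.divisors) hcount
  have h0 : Tendsto (fun s : ℝ => (PS (fun p => (cnt C (frob p) : ℝ)) s -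
      PS (fun p => Nat.card (L ≃ₐ[K] L) *
        (cntP {v : HeightOneSpectrum (𝓞 K) | HasFrobIn C v} p : ℝ)) s) /
          Real.log (1 / (s - 1))) (𝓝[>] 1) (𝓝 0) := by
    refine squeeze_zero_norm' (a := fun s => B / Real.log (1 / (s - 1))) ?_
      (tendsto_log_atTop.const_div_atTop B)
    filter_upwards [self_mem_nhdsWithin, tendsto_log_atTop.eventually_gt_atTop 0] with s h1 h2
    rw [norm_div, Real.norm_eq_abs, Real.norm_eq_abs, abs_of_pos h2]
    exact div_le_div_of_nonneg_right (hB s h1) h2.le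
  have h1 := (tendsto_PS_cnt C).sub h0
  rw [sub_zero] at h1
  refine (h1.div_const (Nat.card (L ≃ₐ[K] L) : ℝ)).congr fun s => ?_
  rw [← sub_div, sub_sub_cancel, PS_const_mul, mul_div_assoc, mul_div_cancel_left₀ _ hN0]

/-- **Chebotarev's density theorem** for a Galois extension `L / K` of number fields: the places of
`K` which are unramified in `L` and whose Frobenius class lies in the conjugation stable set `C`
have Dirichlet density `|C| / |Gal(L/K)|`. -/
theorem chebotarev {C : Set (L ≃ₐ[K] L)} (hC : ∀ g c : L ≃ₐ[K] L, c ∈ C → g * c * g⁻¹ ∈ C) :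
    HasDensity {v : HeightOneSpectrum (𝓞 K) | Unr L v ∧ HasFrobIn C v}
      ((Nat.card C : ℝ) / Nat.card (L ≃ₐ[K] L)) := by
  refine (chebotarev_hasFrobIn hC).congr_finite ((finite_not_unr K L).subset ?_)
  intro v hv
  rw [Set.mem_symmDiff] at hv
  rcases hv with h | h
  · exact fun hu => h.2 ⟨hu, h.1⟩
  · exact absurd h.1.2 h.2

/-- **Chebotarev's density theorem**, in terms of `arithFrobAt`. -/
theorem chebotarev_arithFrobAt {C : Set (L ≃ₐ[K] L)}
    (hC : ∀ g c : L ≃ₐ[K] L, c ∈ C → g * c * g⁻¹ ∈ C) :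
    HasDensity {v : HeightOneSpectrum (𝓞 K) | Unr L v ∧
      ∀ w : HeightOneSpectrum (𝓞 L), w.under (𝓞 K) = v →
        arithFrobAt (𝓞 K) (L ≃ₐ[K] L) w.asIdeal ∈ C}
      ((Nat.card C : ℝ) / Nat.card (L ≃ₐ[K] L)) := by
  have h : {v : HeightOneSpectrum (𝓞 K) | Unr L v ∧
      ∀ w : HeightOneSpectrum (𝓞 L), w.under (𝓞 K) = v →
        arithFrobAt (𝓞 K) (L ≃ₐ[K] L) w.asIdeal ∈ C} =
      {v : HeightOneSpectrum (𝓞 K) | Unr L v ∧ HasFrobIn C v} := by
    ext v
    refine and_congr_right fun hv => ?_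
    rw [hasFrobIn_iff_forall hv hC]
    constructor
    · intro h w hw τ hτ
      rw [isArithFrobAt_unique (hv w hw) hτ (IsArithFrobAt.arithFrobAt (𝓞 K) (L ≃ₐ[K] L) w.asIdeal)]
      exact h w hw
    · intro h w hw
      exact h w hw _ (IsArithFrobAt.arithFrobAt (𝓞 K) (L ≃ₐ[K] L) w.asIdeal)
  rw [h]
  exact chebotarev hC

variable (K) in
/-- All places together have density one. -/
theorem hasDensity_univ : HasDensity (Set.univ : Set (HeightOneSpectrum (𝓞 K))) 1 := by
  have h := chebotarev_hasFrobIn (K := K) (L := K) (C := Set.univ) fun _ _ _ => Set.mem_univ _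
  have h1 : {v : HeightOneSpectrum (𝓞 K) | HasFrobIn (Set.univ : Set (K ≃ₐ[K] K)) v} =
      Set.univ := by
    ext v
    refine ⟨fun _ => Set.mem_univ _, fun _ => ?_⟩
    obtain ⟨w, hw⟩ := exists_above (L := K) v
    obtain ⟨τ, hτ⟩ := exists_isArithFrobAt (K := K) w
    exact ⟨w, hw, τ, Set.mem_univ _, hτ⟩
  have h2 : (Nat.card (K ≃ₐ[K] K) : ℝ) ≠ 0 := by
    have : 0 < Nat.card (K ≃ₐ[K] K) := Nat.card_pos
    exact_mod_cast this.ne'
  rw [h1, Nat.card_univ, div_self h2] at h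
  exact h

/-- The density as the limit of the quotient by the sum over all places. -/
theorem HasDensity.tendsto_div {P : Set (HeightOneSpectrum (𝓞 K))} {δ : ℝ}
    (hP : HasDensity P δ) :
    Tendsto (fun s : ℝ => DS P s / DS (Set.univ : Set (HeightOneSpectrum (𝓞 K))) s)
      (𝓝[>] 1) (𝓝 δ) := by
  have h := Tendsto.div hP (hasDensity_univ K) one_ne_zero
  rw [div_one] at h
  refine h.congr' ?_
  filter_upwards [tendsto_log_atTop.eventually_gt_atTop 0] with s hs
  exact div_div_div_cancel_right₀ hs.ne' _ _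

/-- the conjugacy class of an element is stable under conjugation -/
theorem conj_mem_carrier (τ g c : L ≃ₐ[K] L) (hc : c ∈ {x : L ≃ₐ[K] L | IsConj τ x}) :
    g * c * g⁻¹ ∈ {x : L ≃ₐ[K] L | IsConj τ x} :=
  IsConj.trans hc (isConj_iff.mpr ⟨g, rfl⟩)

/-- The places with Frobenius class the class of `τ`. -/
theorem chebotarev_class (τ : L ≃ₐ[K] L) :
    HasDensity {v : HeightOneSpectrum (𝓞 K) | Unr L v ∧ HasFrobIn {x : L ≃ₐ[K] L | IsConj τ x} v}
      ((Nat.card {x : L ≃ₐ[K] L // IsConj τ x} : ℝ) / Nat.card (L ≃ₐ[K] L)) :=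
  chebotarev (conj_mem_carrier τ)

theorem class_density_pos (τ : L ≃ₐ[K] L) :
    0 < ((Nat.card {x : L ≃ₐ[K] L // IsConj τ x} : ℝ) / Nat.card (L ≃ₐ[K] L)) := by
  have h1 : 0 < Nat.card (L ≃ₐ[K] L) := Nat.card_pos
  have : Nonempty {x : L ≃ₐ[K] L // IsConj τ x} := ⟨⟨τ, IsConj.refl τ⟩⟩
  have h2 : 0 < Nat.card {x : L ≃ₐ[K] L // IsConj τ x} := Nat.card_pos
  positivity

/-- `τ` itself is a Frobenius element above every place whose Frobenius class is that of `τ`. -/
theorem HasFrobIn.exists_eq {τ : L ≃ₐ[K] L} {v : HeightOneSpectrum (𝓞 K)}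
    (h : HasFrobIn {x : L ≃ₐ[K] L | IsConj τ x} v) :
    ∃ w : HeightOneSpectrum (𝓞 L), w.under (𝓞 K) = v ∧ IsArithFrobAt (𝓞 K) τ w.asIdeal := by
  obtain ⟨w, hw, x, hx, hF⟩ := h
  obtain ⟨g, hg⟩ := isConj_iff.mp hx
  -- `x = g τ g⁻¹`, so `τ = g⁻¹ x g` is a Frobenius at `g⁻¹ w`
  have h1 := hF.conj g⁻¹
  have h2 : g⁻¹ * x * g⁻¹⁻¹ = τ := by
    rw [← hg]
    group
  rw [h2] at h1
  have h3 : (g⁻¹ • w.asIdeal).IsPrime := inferInstance
  have h4 : (g⁻¹ • w.asIdeal : Ideal (𝓞 L)).under (𝓞 K) = w.asIdeal.under (𝓞 K) :=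
    Ideal.under_smul (𝓞 K) w.asIdeal g⁻¹
  have h5 : (g⁻¹ • w.asIdeal : Ideal (𝓞 L)) ≠ ⊥ := by
    intro h0
    rw [h0] at h4
    apply (w.under (𝓞 K)).ne_bot
    change w.asIdeal.under (𝓞 K) = ⊥
    rw [← h4]
    exact Ideal.under_bot _ _
  exact ⟨⟨g⁻¹ • w.asIdeal, h3, h5⟩, (HeightOneSpectrum.ext h4).trans hw, h1⟩

/-- **Infinitely many places of degree one with given Frobenius class.** -/
theorem infinite_deg_one (τ : L ≃ₐ[K] L) :
    {v : HeightOneSpectrum (𝓞 K) | Unr L v ∧ (Ideal.absNorm v.asIdeal).Prime ∧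
      ∃ w : HeightOneSpectrum (𝓞 L), w.under (𝓞 K) = v ∧
        IsArithFrobAt (𝓞 K) τ w.asIdeal}.Infinite := by
  refine ((chebotarev_class τ).deg_one.infinite (class_density_pos τ)).mono ?_
  rintro v ⟨⟨h1, h2⟩, h3⟩
  exact ⟨h1, h3, h2.exists_eq⟩

end Fermat.Agent.Cor.ChebK
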