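import Fermat.Agent.Corollaries.ChebK.Count
import Fermat.Agent.Frob.Chebotarev

/-!
# The mean value of the number of embeddings moved by Frobenius through `C`

`tendsto_PS_cnt`: for `C ⊆ Gal(L/K)` let `cnt C σ` be the number of embeddings `i : L → ℚ̄` with
`σ ∘ i = i ∘ τ` for some `τ ∈ C`. Then `∑ₚ cnt C (Frobₚ) p⁻ˢ ∼ |C| log (1 / (s - 1))`.
-/

set_option autoImplicit false
set_option linter.unusedSectionVars false

namespace Fermat.Agent.Cor.ChebK

open NumberField IsDedekindDomain Fermat.Agent.Frob Fermat.Agent.FrobDensity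
open Fermat.Agent.LT.Tower.Fr Filter Topology

open scoped Classical

variable {K L : Type*} [Field K] [NumberField K] [Field L] [NumberField L] [Algebra K L]

/-- the number of embeddings on which `σ` acts through an element of `C` -/
noncomputable def cnt (C : Set (L ≃ₐ[K] L)) (σ : GQ) : ℕ :=
  Nat.card {i : L →+* AlgebraicClosure ℚ // ∃ τ ∈ C, (gh σ).comp i = i.comp (τ : L →+* L)}

variable (L) in
/-- a finite normal extension of `ℚ` which contains all conjugates of `L` -/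
noncomputable def ncl : IntermediateField ℚ (AlgebraicClosure ℚ) :=
  IntermediateField.normalClosure ℚ
    (IsAlgClosed.lift : L →ₐ[ℚ] AlgebraicClosure ℚ).fieldRange (AlgebraicClosure ℚ)

instance finite_fieldRange : FiniteDimensional ℚ
    (IsAlgClosed.lift : L →ₐ[ℚ] AlgebraicClosure ℚ).fieldRange :=
  (AlgEquiv.ofInjectiveField (IsAlgClosed.lift : L →ₐ[ℚ] AlgebraicClosure ℚ)).toLinearEquiv.finiteDimensional

instance finiteDimensional_ncl : FiniteDimensional ℚ (ncl L) :=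
  normalClosure.is_finiteDimensional ℚ _ _

instance normal_ncl : Normal ℚ (ncl L) := normalClosure.normal ℚ _ _

instance isGalois_ncl : IsGalois ℚ (ncl L) := ⟨⟩

theorem mem_ncl (i : L →+* AlgebraicClosure ℚ) (x : L) : i x ∈ ncl L := by
  let i₀ : L →ₐ[ℚ] AlgebraicClosure ℚ := IsAlgClosed.lift
  obtain ⟨g, hg⟩ := exists_extend (i₀ : L →+* AlgebraicClosure ℚ) i
  have h1 : i x = g (i₀ x) := (RingHom.congr_fun hg x).symm
  have h2 : i₀ x ∈ ncl L := IntermediateField.le_normalClosure i₀.fieldRange ⟨x, rfl⟩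
  have h3 := AlgEquiv.restrictNormal_commutes g (ncl L) ⟨i₀ x, h2⟩
  rw [h1]
  exact h3 ▸ (g.restrictNormal (ncl L) ⟨i₀ x, h2⟩).2

/-- restriction to the normal closure -/
noncomputable abbrev res : GQ →* (ncl L ≃ₐ[ℚ] ncl L) := AlgEquiv.restrictNormalHom (ncl L)

theorem comp_eq_of_res {σ σ' : GQ} (h : res (L := L) σ = res σ') (i : L →+* AlgebraicClosure ℚ) :
    (gh σ).comp i = (gh σ').comp i := by
  ext x
  exact (restrict_eq_iff (ncl L)).mp h _ (mem_ncl i x)

theorem res_surjective : Function.Surjective (res (L := L)) :=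
  AlgEquiv.restrictNormalHom_surjective (AlgebraicClosure ℚ)

/-- a lift of an automorphism of the normal closure -/
noncomputable def lft (g : ncl L ≃ₐ[ℚ] ncl L) : GQ := Function.surjInv res_surjective g

theorem res_lft (g : ncl L ≃ₐ[ℚ] ncl L) : res (lft g) = g := Function.surjInv_eq _ g

/-- the action of the Galois group of the normal closure on the embeddings -/
noncomputable def act (g : ncl L ≃ₐ[ℚ] ncl L) (i : L →+* AlgebraicClosure ℚ) :
    L →+* AlgebraicClosure ℚ := (gh (lft g)).comp i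

theorem act_res (σ : GQ) (i : L →+* AlgebraicClosure ℚ) : act (res σ) i = (gh σ).comp i :=
  comp_eq_of_res (res_lft _) i

theorem act_mul (g h : ncl L ≃ₐ[ℚ] ncl L) (i : L →+* AlgebraicClosure ℚ) :
    act (g * h) i = act g (act h i) := by
  have h1 : act (res (lft g * lft h)) i = (gh (lft g * lft h)).comp i := act_res _ _
  rw [map_mul, res_lft, res_lft] at h1
  exact h1

theorem act_inv_act (g : ncl L ≃ₐ[ℚ] ncl L) (i : L →+* AlgebraicClosure ℚ) :
    act g⁻¹ (act g i) = i := by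
  rw [← act_mul, inv_mul_cancel]
  have h1 : act (res (1 : GQ)) i = (gh (1 : GQ)).comp i := act_res _ _
  rw [map_one] at h1
  exact h1

theorem exists_act (i j : L →+* AlgebraicClosure ℚ) : ∃ g : ncl L ≃ₐ[ℚ] ncl L, act g i = j := by
  obtain ⟨g, hg⟩ := exists_extend i j
  exact ⟨res g, (act_res g i).trans hg⟩

instance finite_emb : Finite (L →+* AlgebraicClosure ℚ) := finite_embeddings

/-- all fibres of the action have the same number of elements -/
theorem card_fiber_act (i j : L →+* AlgebraicClosure ℚ) :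
    Nat.card (L →+* AlgebraicClosure ℚ) * Nat.card {g : ncl L ≃ₐ[ℚ] ncl L // act g i = j} =
      Nat.card (ncl L ≃ₐ[ℚ] ncl L) := by
  have : Fintype (L →+* AlgebraicClosure ℚ) := Fintype.ofFinite _
  have h1 : ∀ j' : L →+* AlgebraicClosure ℚ,
      Nat.card {g : ncl L ≃ₐ[ℚ] ncl L // act g i = j'} =
        Nat.card {g : ncl L ≃ₐ[ℚ] ncl L // act g i = j} := by
    intro j'
    obtain ⟨h, hh⟩ := exists_act j' j
    refine Nat.card_congr ((Equiv.mulLeft h).subtypeEquiv fun g => ?_)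
    rw [Equiv.coe_mulLeft, act_mul]
    constructor
    · intro h2
      rw [h2, hh]
    · intro h2
      rw [← hh] at h2
      have h3 := congrArg (act h⁻¹) h2
      rwa [act_inv_act, act_inv_act] at h3
  rw [← Nat.card_congr (Equiv.sigmaFiberEquiv fun g : ncl L ≃ₐ[ℚ] ncl L => act g i),
    Nat.card_sigma, Finset.sum_congr rfl fun j' _ => h1 j', Finset.sum_const, smul_eq_mul,
    Finset.card_univ, Nat.card_eq_fintype_card]

/-- the counting function on the Galois group of the normal closure -/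
noncomputable def cntG (C : Set (L ≃ₐ[K] L)) (g : ncl L ≃ₐ[ℚ] ncl L) : ℕ :=
  Nat.card {i : L →+* AlgebraicClosure ℚ // ∃ τ ∈ C, act g i = i.comp (τ : L →+* L)}

theorem cntG_res (C : Set (L ≃ₐ[K] L)) (σ : GQ) : cntG C (res σ) = cnt C σ := by
  unfold cntG cnt
  simp_rw [act_res]

theorem act_comp (g : ncl L ≃ₐ[ℚ] ncl L) (i : L →+* AlgebraicClosure ℚ) (τ : L →+* L) :
    act g (i.comp τ) = (act g i).comp τ := rfl

theorem cntG_conj (C : Set (L ≃ₐ[K] L)) (g x : ncl L ≃ₐ[ℚ] ncl L) :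
    cntG C (x⁻¹ * g * x) = cntG C g := by
  have hb : Function.Bijective (act x : (L →+* AlgebraicClosure ℚ) → _) := by
    constructor
    · intro i j h
      have h1 := congrArg (act x⁻¹) h
      rwa [act_inv_act, act_inv_act] at h1
    · intro j
      refine ⟨act x⁻¹ j, ?_⟩
      have h1 := act_inv_act x⁻¹ j
      rwa [inv_inv] at h1
  refine Nat.card_congr ((Equiv.ofBijective _ hb).subtypeEquiv fun i => ?_)
  refine exists_congr fun τ => and_congr_right fun _ => ?_
  rw [Equiv.ofBijective_apply, act_mul, act_mul, ← act_comp]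
  constructor
  · intro h
    have h1 := congrArg (act x) h
    have h2 := act_inv_act x⁻¹ (act g (act x i))
    rw [inv_inv] at h2
    rw [h2] at h1
    rw [h1]
  · intro h
    rw [h, act_inv_act]

theorem sum_cntG (C : Set (L ≃ₐ[K] L)) :
    ∑ g : ncl L ≃ₐ[ℚ] ncl L, cntG C g = Nat.card C * Nat.card (ncl L ≃ₐ[ℚ] ncl L) := by
  have : Fintype (L →+* AlgebraicClosure ℚ) := Fintype.ofFinite _
  have : Finite (L ≃ₐ[K] L) := by
    obtain ⟨i⟩ : Nonempty (L →+* AlgebraicClosure ℚ) :=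
      ⟨((IsAlgClosed.lift : L →ₐ[ℚ] AlgebraicClosure ℚ) : L →+* AlgebraicClosure ℚ)⟩
    exact Finite.of_injective (fun ρ : L ≃ₐ[K] L => i.comp (ρ : L →+* L))
      fun ρ ρ' h => comp_injective i h
  have : Fintype C := Fintype.ofFinite _
  unfold cntG
  rw [← Nat.card_sigma]
  have hb : Function.Bijective (fun q : (Σ q : (L →+* AlgebraicClosure ℚ) × C,
      {g : ncl L ≃ₐ[ℚ] ncl L // act g q.1 = q.1.comp ((q.2 : L ≃ₐ[K] L) : L →+* L)}) =>
      (⟨q.2.1, q.1.1, q.1.2, q.1.2.2, q.2.2⟩ : (Σ g : ncl L ≃ₐ[ℚ] ncl L,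
        {i : L →+* AlgebraicClosure ℚ // ∃ τ ∈ C, act g i = i.comp (τ : L →+* L)}))) := by
    constructor
    · rintro ⟨⟨i, τ⟩, g, hg⟩ ⟨⟨i', τ'⟩, g', hg'⟩ h
      obtain ⟨h1, h2⟩ := Sigma.mk.inj_iff.mp h
      simp only at h1
      subst h1
      have h3 : i = i' := congrArg Subtype.val (eq_of_heq h2)
      subst h3
      have h4 : τ = τ' := Subtype.ext (comp_injective i (hg.symm.trans hg'))
      subst h4
      rfl
    · rintro ⟨g, i, τ, hτ, h⟩
      exact ⟨⟨⟨i, τ, hτ⟩, g, h⟩, rfl⟩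
  rw [← Nat.card_congr (Equiv.ofBijective _ hb), Nat.card_sigma]
  obtain ⟨i₀⟩ : Nonempty (L →+* AlgebraicClosure ℚ) :=
    ⟨((IsAlgClosed.lift : L →ₐ[ℚ] AlgebraicClosure ℚ) : L →+* AlgebraicClosure ℚ)⟩
  have hX : 0 < Nat.card (L →+* AlgebraicClosure ℚ) := Nat.card_pos
  apply Nat.eq_of_mul_eq_mul_left hX
  rw [Finset.mul_sum, Finset.sum_congr rfl fun q _ => card_fiber_act q.1 _, Finset.sum_const,
    smul_eq_mul, Finset.card_univ, Fintype.card_prod, Nat.card_eq_fintype_card (α := C),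
    Nat.card_eq_fintype_card (α := L →+* AlgebraicClosure ℚ), mul_assoc]

theorem cnt_le (C : Set (L ≃ₐ[K] L)) (σ : GQ) : cnt C σ ≤ Nat.card (L →+* AlgebraicClosure ℚ) :=
  Nat.card_le_card_of_injective _ Subtype.val_injective

theorem abs_cnt_le (C : Set (L ≃ₐ[K] L)) (σ : GQ) :
    |(cnt C σ : ℝ)| ≤ Nat.card (L →+* AlgebraicClosure ℚ) := by
  rw [abs_of_nonneg (Nat.cast_nonneg _)]
  exact_mod_cast cnt_le C σ

/-- **Mean value.** -/
theorem tendsto_PS_cnt (C : Set (L ≃ₐ[K] L)) :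
    Tendsto (fun s : ℝ => PS (fun p => (cnt C (frob p) : ℝ)) s / Real.log (1 / (s - 1)))
      (𝓝[>] 1) (𝓝 (Nat.card C)) := by
  set N : ℕ := Nat.card (ncl L ≃ₐ[ℚ] ncl L) with hN
  have hN0 : (N : ℝ) ≠ 0 := by
    have : 0 < Nat.card (ncl L ≃ₐ[ℚ] ncl L) := Nat.card_pos
    rw [hN]
    exact_mod_cast this.ne'
  -- the value at Frobenius as an average
  have h1 : ∀ p, ∑ g : ncl L ≃ₐ[ℚ] ncl L, (cntG C g : ℝ) * NC res g p = N * cnt C (frob p) := by
    intro p
    unfold NC
    have h2 : ∀ g : ncl L ≃ₐ[ℚ] ncl L, (cntG C g : ℝ) *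
        (Nat.card {x : ncl L ≃ₐ[ℚ] ncl L // x⁻¹ * res (frob p) * x = g} : ℝ) =
        (Nat.card {x : ncl L ≃ₐ[ℚ] ncl L // x⁻¹ * res (frob p) * x = g} : ℝ) *
          cnt C (frob p) := by
      intro g
      rcases isEmpty_or_nonempty {x : ncl L ≃ₐ[ℚ] ncl L // x⁻¹ * res (frob p) * x = g} with h | h
      · rw [Nat.card_of_isEmpty, Nat.cast_zero, mul_zero, zero_mul]
      · obtain ⟨x, rfl⟩ := h
        rw [cntG_conj, cntG_res, mul_comm]
    rw [Finset.sum_congr rfl fun g _ => h2 g, ← Finset.sum_mul]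
    congr 1
    have h3 := sum_NC (res (L := L)) p
    exact h3
  have hlim : Tendsto (fun s : ℝ => ∑ g : ncl L ≃ₐ[ℚ] ncl L,
      (cntG C g : ℝ) * (PS (NC res g) s / Real.log (1 / (s - 1))))
      (𝓝[>] 1) (𝓝 (∑ g : ncl L ≃ₐ[ℚ] ncl L, (cntG C g : ℝ) * 1)) :=
    tendsto_finsetSum _ fun g _ => (tendsto_NC (ncl L) g).const_mul _
  have h4 : ∑ g : ncl L ≃ₐ[ℚ] ncl L, (cntG C g : ℝ) * 1 = Nat.card C * N := by
    simp_rw [mul_one]
    rw [← Nat.cast_sum, sum_cntG, Nat.cast_mul]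
  rw [h4] at hlim
  have h5 := hlim.div_const (N : ℝ)
  rw [mul_div_cancel_right₀ _ hN0] at h5
  refine h5.congr' ?_
  filter_upwards [self_mem_nhdsWithin] with s hs
  have h6 : PS (fun p => ∑ g : ncl L ≃ₐ[ℚ] ncl L, (cntG C g : ℝ) * NC res g p) s =
      ∑ g : ncl L ≃ₐ[ℚ] ncl L, PS (fun p => (cntG C g : ℝ) * NC res g p) s := by
    refine PS_sum Finset.univ (fun g p => (cntG C g : ℝ) * NC res g p)
      (C := Nat.card (L →+* AlgebraicClosure ℚ) * N) (fun g _ n => ?_) hs
    rw [abs_mul]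
    refine mul_le_mul ?_ (abs_NC_le _ _ _) (abs_nonneg _) (Nat.cast_nonneg _)
    rw [abs_of_nonneg (Nat.cast_nonneg _)]
    exact_mod_cast Nat.card_le_card_of_injective _ Subtype.val_injective
  simp only [h1, PS_const_mul] at h6
  simp_rw [← mul_div_assoc]
  rw [← Finset.sum_div, ← h6]
  rw [div_right_comm, mul_div_cancel_left₀ _ hN0]

end Fermat.Agent.Cor.ChebK
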