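import Fermat.Agent.Corollaries.ChebK.NatForms

/-!
# Mean values of class functions at the Frobenius elements

`L / K` a Galois extension of number fields, `F` a class function on `Gal(L/K)`, `φ v` a Frobenius
element of the place `v` of `K` (any choice): the mean value of `F (φ v)` over the places with
`N(v) ≤ x` tends to the mean value of `F` on `Gal(L/K)`.
-/

set_option autoImplicit false

open NumberField Filter Topology IsDedekindDomain

namespace Fermat.Agent.Cor.ChebK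

/-- the places of norm at most `x` -/
noncomputable def placesTo (K : Type*) [Field K] [NumberField K] (x : ℕ) :
    Finset (HeightOneSpectrum (𝓞 K)) := (finite_norm_le (K := K) x).toFinset

theorem mem_placesTo {K : Type*} [Field K] [NumberField K] {x : ℕ} {v : HeightOneSpectrum (𝓞 K)} :
    v ∈ placesTo K x ↔ Ideal.absNorm v.asIdeal ≤ x := by
  rw [placesTo, Set.Finite.mem_toFinset]
  rfl

open Classical in
theorem countQ_eq_placesTo {K : Type*} [Field K] [NumberField K]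
    (P : Set (HeightOneSpectrum (𝓞 K))) (x : ℕ) :
    countQ (· ∈ P) x = ((placesTo K x).filter fun v => v ∈ P).card :=
  countQ_eq_card P x

variable {K L : Type*} [Field K] [NumberField K] [Field L] [NumberField L] [Algebra K L]
  [IsGalois K L]

/-- the places where the chosen Frobenius element is in `C` -/
theorem hasNatDensity_mem {C : Set (L ≃ₐ[K] L)}
    (hC : ∀ g c : L ≃ₐ[K] L, c ∈ C → g * c * g⁻¹ ∈ C) {φ : HeightOneSpectrum (𝓞 K) → (L ≃ₐ[K] L)}
    (hφ : ∀ v, Unr L v → ∃ w : HeightOneSpectrum (𝓞 L), w.under (𝓞 K) = v ∧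
      IsArithFrobAt (𝓞 K) (φ v) w.asIdeal) :
    HasNatDensity {v | φ v ∈ C} ((Nat.card C : ℝ) / Nat.card (L ≃ₐ[K] L)) := by
  refine (chebotarev_nat hC).congr_finite ((finite_not_unr K L).subset ?_)
  intro v hv hu
  rw [Set.mem_symmDiff] at hv
  obtain ⟨w, hw, hF⟩ := hφ v hu
  have hiff : HasFrobIn C v ↔ φ v ∈ C := by
    constructor
    · intro h
      exact (hasFrobIn_iff_forall hu hC).mp h w hw _ hF
    · intro h
      exact ⟨w, hw, φ v, h, hF⟩
  rcases hv with h | h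
  · exact h.2 (hiff.mp h.1.2)
  · exact h.2 ⟨hu, hiff.mpr h.1⟩

open Classical in
/-- **Chebotarev's theorem for class functions**, natural density, for any choice of Frobenius
elements. -/
theorem chebotarev_nat_avg {E : Type*} [NormedAddCommGroup E] [NormedSpace ℝ E]
    {F : (L ≃ₐ[K] L) → E} (hF : ∀ x g : L ≃ₐ[K] L, F (x * g * x⁻¹) = F g)
    {φ : HeightOneSpectrum (𝓞 K) → (L ≃ₐ[K] L)}
    (hφ : ∀ v, Unr L v → ∃ w : HeightOneSpectrum (𝓞 L), w.under (𝓞 K) = v ∧
      IsArithFrobAt (𝓞 K) (φ v) w.asIdeal) :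
    Tendsto (fun x : ℕ => (Real.log x / x) • ∑ v ∈ placesTo K x, F (φ v)) atTop
      (𝓝 ((Nat.card (L ≃ₐ[K] L) : ℝ)⁻¹ • ∑ g : L ≃ₐ[K] L, F g)) := by
  -- the class of `g`
  let cl : (L ≃ₐ[K] L) → Set (L ≃ₐ[K] L) := fun g => {x | IsConj g x}
  have hcl : ∀ g a c : L ≃ₐ[K] L, c ∈ cl g → a * c * a⁻¹ ∈ cl g := fun g a c =>
    conj_mem_carrier g a c
  have hpos : ∀ g, (Nat.card (cl g) : ℝ) ≠ 0 := fun g => by
    have : Nonempty (cl g) := ⟨⟨g, IsConj.refl g⟩⟩
    have : 0 < Nat.card (cl g) := Nat.card_pos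
    exact_mod_cast this.ne'
  have hFc : ∀ g x : L ≃ₐ[K] L, IsConj g x → F x = F g := by
    intro g x h
    obtain ⟨c, rfl⟩ := isConj_iff.mp h
    exact hF c g
  -- decomposition of `F`
  have hdec : ∀ τ : L ≃ₐ[K] L, F τ =
      ∑ g : L ≃ₐ[K] L, (if τ ∈ cl g then (Nat.card (cl g) : ℝ)⁻¹ else 0) • F g := by
    intro τ
    have h1 : ∀ g : L ≃ₐ[K] L, (if τ ∈ cl g then (Nat.card (cl g) : ℝ)⁻¹ else 0) • F g =
        if g ∈ cl τ then (Nat.card (cl τ) : ℝ)⁻¹ • F τ else 0 := by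
      intro g
      have h2 : τ ∈ cl g ↔ g ∈ cl τ := ⟨fun h => IsConj.symm h, fun h => IsConj.symm h⟩
      by_cases h : g ∈ cl τ
      · have h3 : cl g = cl τ := Set.ext fun x =>
          ⟨fun hx => IsConj.trans h hx, fun hx => IsConj.trans (IsConj.symm h) hx⟩
        rw [if_pos (h2.mpr h), if_pos h, h3, hFc τ g h]
      · rw [if_neg (fun h' => h (h2.mp h')), if_neg h, zero_smul]
    rw [Finset.sum_congr rfl fun g _ => h1 g, ← Finset.sum_filter, Finset.sum_const,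
      ← Fintype.card_subtype, ← Nat.card_eq_fintype_card, ← Nat.cast_smul_eq_nsmul ℝ, smul_smul]
    have h3 : (Nat.card {x // x ∈ cl τ} : ℝ) * (Nat.card (cl τ) : ℝ)⁻¹ = 1 :=
      mul_inv_cancel₀ (hpos τ)
    rw [h3, one_smul]
  -- the limit of each part
  have hlim : ∀ g : L ≃ₐ[K] L, Tendsto (fun x : ℕ =>
      ((countQ (· ∈ {v | φ v ∈ cl g}) x : ℝ) * Real.log x / x * (Nat.card (cl g) : ℝ)⁻¹) • F g)
      atTop (𝓝 ((Nat.card (L ≃ₐ[K] L) : ℝ)⁻¹ • F g)) := by
    intro g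
    have h1 := (hasNatDensity_iff.mp (hasNatDensity_mem (hcl g) hφ)).mul_const
      ((Nat.card (cl g) : ℝ)⁻¹)
    have h2 : (Nat.card (cl g) : ℝ) / Nat.card (L ≃ₐ[K] L) * (Nat.card (cl g) : ℝ)⁻¹ =
        (Nat.card (L ≃ₐ[K] L) : ℝ)⁻¹ := by
      have := hpos g
      field_simp
    rw [h2] at h1
    exact h1.smul_const (F g)
  have hsum := tendsto_finsetSum Finset.univ fun g _ => hlim g
  rw [← Finset.smul_sum] at hsum
  refine hsum.congr fun x => ?_
  have h1 : ∀ v, F (φ v) = ∑ g : L ≃ₐ[K] L,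
      (if φ v ∈ cl g then (Nat.card (cl g) : ℝ)⁻¹ else 0) • F g := fun v => hdec (φ v)
  rw [Finset.sum_congr rfl fun v _ => h1 v, Finset.sum_comm, Finset.smul_sum]
  refine Finset.sum_congr rfl fun g _ => ?_
  rw [← Finset.sum_smul, smul_smul, ← Finset.sum_filter, Finset.sum_const, nsmul_eq_mul,
    countQ_eq_placesTo]
  congr 1
  simp only [Set.mem_ofPred_eq]
  ring

/-- The case of a character, or any class function, with sum zero: `∑_{N(v) ≤ x} F (φ v)` is
`o(x / log x)`. -/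
theorem chebotarev_nat_avg_zero {E : Type*} [NormedAddCommGroup E] [NormedSpace ℝ E]
    {F : (L ≃ₐ[K] L) → E} (hF : ∀ x g : L ≃ₐ[K] L, F (x * g * x⁻¹) = F g)
    (h0 : ∑ g : L ≃ₐ[K] L, F g = 0) {φ : HeightOneSpectrum (𝓞 K) → (L ≃ₐ[K] L)}
    (hφ : ∀ v, Unr L v → ∃ w : HeightOneSpectrum (𝓞 L), w.under (𝓞 K) = v ∧
      IsArithFrobAt (𝓞 K) (φ v) w.asIdeal) :
    Tendsto (fun x : ℕ => (Real.log x / x) • ∑ v ∈ placesTo K x, F (φ v)) atTop (𝓝 0) := by
  have h := chebotarev_nat_avg hF hφ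
  rwa [h0, smul_zero] at h

end Fermat.Agent.Cor.ChebK
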