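import Fermat.Agent.Corollaries.ZetaK.FrobCount

/-!
# Counting primes of degree one with a property

`Q` a property of the places of the number field `K`. If the number of places of norm `p` with the
property `Q`, summed over the primes `p ≤ x`, is asymptotic to `l x / log x`, then so is the number
of all places of norm at most `x` with the property `Q`.
-/

set_option autoImplicit false

open NumberField Filter Topology IsDedekindDomain
open Fermat.Agent.Classic.Disc Fermat.Agent.Classic.Emb Fermat.Agent.Frob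

namespace Fermat.Agent.Cor.ChebK

variable {K : Type*} [Field K] [NumberField K]

/-- the number of places of norm `p` with the property `Q` -/
noncomputable def degOneQ (Q : HeightOneSpectrum (𝓞 K) → Prop) (p : ℕ) : ℕ :=
  Nat.card {v : HeightOneSpectrum (𝓞 K) // Ideal.absNorm v.asIdeal = p ∧ Q v}

/-- the number of places of norm at most `x` with the property `Q` -/
noncomputable def countQ (Q : HeightOneSpectrum (𝓞 K) → Prop) (x : ℕ) : ℕ :=
  Nat.card {v : HeightOneSpectrum (𝓞 K) // Ideal.absNorm v.asIdeal ≤ x ∧ Q v}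

variable (Q : HeightOneSpectrum (𝓞 K) → Prop)

theorem mem_above_of_absNorm {v : HeightOneSpectrum (𝓞 K)} {p : ℕ} (hp : p.Prime)
    (h : Ideal.absNorm v.asIdeal = p) : v ∈ above K p := by
  obtain ⟨q, hq, hv⟩ := exists_above v
  have h1 := absNorm_eq hq ((mem_above hq.ne_zero).mp hv)
  rw [h] at h1
  have h2 : p ∣ q := hp.dvd_of_dvd_pow h1.dvd
  rwa [(Nat.prime_dvd_prime_iff_eq hp hq).mp h2]

open Classical in
theorem degOneQ_eq {p : ℕ} (hp : p.Prime) :
    degOneQ Q p = ((above K p).filter fun v => Ideal.absNorm v.asIdeal = p ∧ Q v).card := by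
  rw [degOneQ, ← Nat.subtype_card]
  intro v
  rw [Finset.mem_filter]
  exact ⟨fun h => h.2, fun h => ⟨mem_above_of_absNorm hp h.1, h⟩⟩

theorem degOneQ_le {p : ℕ} (hp : p.Prime) : degOneQ Q p ≤ Module.finrank ℚ K := by
  classical
  rw [degOneQ_eq Q hp]
  exact (Finset.card_filter_le _ _).trans (card_above_le hp)

open Classical in
/-- the number of places of norm at most `x` with the property `Q`, by prime numbers -/
theorem countQ_eq (x : ℕ) : countQ Q x =
    ∑ p ∈ primesTo x, ((above K p).filter fun v => Ideal.absNorm v.asIdeal ≤ x ∧ Q v).card := by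
  rw [← Finset.card_biUnion]
  · rw [countQ, ← Nat.subtype_card]
    intro v
    rw [Finset.mem_biUnion]
    constructor
    · rintro ⟨p, -, h⟩
      exact (Finset.mem_filter.mp h).2
    · intro h
      obtain ⟨p, hp, hv⟩ := exists_above v
      exact ⟨p, mem_primesTo.mpr ⟨(le_absNorm hp hv).trans h.1, hp⟩, Finset.mem_filter.mpr ⟨hv, h⟩⟩
  · intro p hp q hq hpq
    rw [Function.onFun, Finset.disjoint_left]
    intro v h1 h2
    exact hpq (above_unique (mem_primesTo.mp hp).2 (mem_primesTo.mp hq).2
      (Finset.mem_filter.mp h1).1 (Finset.mem_filter.mp h2).1)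

/-- the places of degree one dominate -/
theorem countQ_le (x : ℕ) : ∑ p ∈ primesTo x, degOneQ Q p ≤ countQ Q x ∧
    countQ Q x ≤ ∑ p ∈ primesTo x, degOneQ Q p + Module.finrank ℚ K * Nat.sqrt x := by
  classical
  rw [countQ_eq]
  have key : ∀ p ∈ primesTo x, degOneQ Q p ≤
      ((above K p).filter fun v => Ideal.absNorm v.asIdeal ≤ x ∧ Q v).card ∧
      ((above K p).filter fun v => Ideal.absNorm v.asIdeal ≤ x ∧ Q v).card ≤
        degOneQ Q p + (if p ≤ Nat.sqrt x then Module.finrank ℚ K else 0) := by
    intro p hp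
    obtain ⟨hpx, hp⟩ := mem_primesTo.mp hp
    rw [degOneQ_eq Q hp]
    constructor
    · refine Finset.card_le_card fun v hv => ?_
      rw [Finset.mem_filter] at hv ⊢
      exact ⟨hv.1, hv.2.1.le.trans hpx, hv.2.2⟩
    · split_ifs with h
      · exact (Finset.card_filter_le _ _).trans ((card_above_le hp).trans (Nat.le_add_left _ _))
      · rw [add_zero]
        refine Finset.card_le_card fun v hv => ?_
        rw [Finset.mem_filter] at hv ⊢
        have h0 := absNorm_eq hp ((mem_above hp.ne_zero).mp hv.1)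
        refine ⟨hv.1, ?_, hv.2.2⟩
        rw [h0]
        by_contra h1
        apply h
        have h2 : 2 ≤ fdeg v := by
          rcases Nat.lt_or_ge (fdeg v) 2 with h3 | h3
          · exfalso
            have h4 := fdeg_pos v
            apply h1
            have h5 : fdeg v = 1 := by omega
            rw [h5, pow_one]
          · exact h3
        have h3 := hv.2.1
        rw [h0] at h3
        rw [Nat.le_sqrt']
        exact (Nat.pow_le_pow_right hp.pos h2).trans h3
  refine ⟨Finset.sum_le_sum fun p hp => (key p hp).1, ?_⟩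
  refine (Finset.sum_le_sum fun p hp => (key p hp).2).trans ?_
  rw [Finset.sum_add_distrib]
  refine Nat.add_le_add_left ?_ _
  rw [← Finset.sum_filter, Finset.sum_const, smul_eq_mul, mul_comm]
  refine Nat.mul_le_mul_left _ ?_
  have h1 : (primesTo x).filter (fun p => p ≤ Nat.sqrt x) ⊆ Finset.Icc 1 (Nat.sqrt x) := by
    intro p hp
    rw [Finset.mem_filter, mem_primesTo] at hp
    exact Finset.mem_Icc.mpr ⟨hp.1.2.pos, hp.2⟩
  refine (Finset.card_le_card h1).trans ?_
  rw [Nat.card_Icc, Nat.add_sub_cancel]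

/-- **Only the places of degree one matter.** -/
theorem tendsto_countQ {l : ℝ} (h : Tendsto (fun x : ℕ => (∑ p ∈ primesTo x, (degOneQ Q p : ℝ)) *
      Real.log x / x) atTop (𝓝 l)) :
    Tendsto (fun x : ℕ => (countQ Q x : ℝ) * Real.log x / x) atTop (𝓝 l) := by
  set N : ℕ → ℝ := fun x => (countQ Q x : ℝ) with hN
  set A : ℕ → ℝ := fun x => ∑ p ∈ primesTo x, (degOneQ Q p : ℝ) with hA
  have h1 : ∀ x, A x ≤ N x := fun x => by
    have := (countQ_le Q x).1
    simp only [hA, hN]
    exact_mod_cast this
  have h2 : ∀ x, N x ≤ A x + Module.finrank ℚ K * Nat.sqrt x := fun x => by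
    have := (countQ_le Q x).2
    simp only [hA, hN]
    exact_mod_cast this
  have h3 : Tendsto (fun x : ℕ => (N x - A x) * Real.log x / x) atTop (𝓝 0) := by
    have h4 : Tendsto (fun x : ℕ => (Module.finrank ℚ K : ℝ) * ((Nat.sqrt x : ℝ) * Real.log x / x))
        atTop (𝓝 0) := by
      simpa using tendsto_sqrt_log.const_mul (Module.finrank ℚ K : ℝ)
    refine squeeze_zero (fun x => ?_) (fun x => ?_) h4
    · exact div_nonneg (mul_nonneg (sub_nonneg.mpr (h1 x)) (Real.log_natCast_nonneg x))
        (Nat.cast_nonneg x)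
    · have h5 : N x - A x ≤ Module.finrank ℚ K * Nat.sqrt x := by linarith [h2 x]
      rw [mul_div_assoc, mul_div_assoc, ← mul_assoc]
      exact mul_le_mul_of_nonneg_right h5
        (div_nonneg (Real.log_natCast_nonneg x) (Nat.cast_nonneg x))
  have h4 := h.add h3
  rw [add_zero] at h4
  refine h4.congr fun x => ?_
  simp only [hA, hN]
  ring

/-- Changing the number of places at finitely many primes does not matter. -/
theorem tendsto_countQ_of_eq {l : ℝ} {D : ℕ} (hD : D ≠ 0) {f : ℕ → ℝ}
    (hf : ∀ p : ℕ, p.Prime → ¬ p ∣ D → (degOneQ Q p : ℝ) = f p)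
    (h : Tendsto (fun x : ℕ => (∑ p ∈ primesTo x, f p) * Real.log x / x) atTop (𝓝 l)) :
    Tendsto (fun x : ℕ => (countQ Q x : ℝ) * Real.log x / x) atTop (𝓝 l) := by
  apply tendsto_countQ
  refine tendsto_of_bounded (C := ∑ p ∈ D.primeFactors, |f p - (degOneQ Q p : ℝ)|)
    (fun x => ?_) h
  rw [← Finset.sum_sub_distrib]
  refine (Finset.abs_sum_le_sum_abs _ _).trans ?_
  rw [← Finset.sum_filter_add_sum_filter_not (primesTo x) (· ∈ D.primeFactors)]
  have h1 : ∑ p ∈ (primesTo x).filter (fun p => p ∉ D.primeFactors),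
      |f p - (degOneQ Q p : ℝ)| = 0 := by
    refine Finset.sum_eq_zero fun p hp => ?_
    rw [Finset.mem_filter] at hp
    have hp' := (mem_primesTo.mp hp.1).2
    rw [hf p hp' (fun hd => hp.2 (Nat.mem_primeFactors.mpr ⟨hp', hd, hD⟩)), sub_self, abs_zero]
  rw [h1, add_zero]
  exact Finset.sum_le_sum_of_subset_of_nonneg (fun p hp => (Finset.mem_filter.mp hp).2)
    fun p _ _ => abs_nonneg _

end Fermat.Agent.Cor.ChebK
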