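import Fermat.Agent.Corollaries.ChebK.NatDeg

/-!
# Natural density of sets of places of a number field

`HasNatDensity P δ`: the number of places `v ∈ P` of norm at most `x` is asymptotic to
`δ x / log x`.
-/

set_option autoImplicit false

open NumberField Filter Topology IsDedekindDomain
open Fermat.Agent.Classic.Disc

namespace Fermat.Agent.Cor.ChebK

variable {K : Type*} [Field K] [NumberField K]

/-- The set `P` of places of `K` has natural density `δ`: the number of places in `P` of norm at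
most `x` is asymptotic to `δ x / log x`. -/
def HasNatDensity (P : Set (HeightOneSpectrum (𝓞 K))) (δ : ℝ) : Prop :=
  Tendsto (fun x : ℕ => (Nat.card {v : HeightOneSpectrum (𝓞 K) //
    Ideal.absNorm v.asIdeal ≤ x ∧ v ∈ P} : ℝ) * Real.log x / x) atTop (𝓝 δ)

variable {P Q : Set (HeightOneSpectrum (𝓞 K))} {δ ε : ℝ}

theorem finite_norm_le (x : ℕ) : {v : HeightOneSpectrum (𝓞 K) | Ideal.absNorm v.asIdeal ≤ x}.Finite := by
  classical
  refine ((primesTo x).biUnion fun p => above K p).finite_toSet.subset ?_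
  intro v hv
  obtain ⟨p, hp, h⟩ := Cor.exists_above v
  exact Finset.mem_coe.mpr (Finset.mem_biUnion.mpr
    ⟨p, mem_primesTo.mpr ⟨(le_absNorm hp h).trans hv, hp⟩, h⟩)

instance finite_sub (P : Set (HeightOneSpectrum (𝓞 K))) (x : ℕ) :
    Finite {v : HeightOneSpectrum (𝓞 K) // Ideal.absNorm v.asIdeal ≤ x ∧ v ∈ P} :=
  ((finite_norm_le (K := K) x).subset fun _ h => h.1).to_subtype

theorem hasNatDensity_iff : HasNatDensity P δ ↔
    Tendsto (fun x : ℕ => (countQ (· ∈ P) x : ℝ) * Real.log x / x) atTop (𝓝 δ) := Iff.rfl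

theorem HasNatDensity.unique (h : HasNatDensity P δ) (h' : HasNatDensity P ε) : δ = ε :=
  tendsto_nhds_unique h h'

theorem countQ_eq_card (P : Set (HeightOneSpectrum (𝓞 K))) [DecidablePred (· ∈ P)] (x : ℕ) :
    countQ (· ∈ P) x = ((finite_norm_le (K := K) x).toFinset.filter fun v => v ∈ P).card := by
  rw [countQ, ← Nat.subtype_card]
  intro v
  rw [Finset.mem_filter, Set.Finite.mem_toFinset]
  exact Iff.rfl

theorem countQ_mono (h : P ⊆ Q) (x : ℕ) : countQ (· ∈ P) x ≤ countQ (· ∈ Q) x := by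
  classical
  rw [countQ_eq_card, countQ_eq_card]
  refine Finset.card_le_card fun v hv => ?_
  rw [Finset.mem_filter] at hv ⊢
  exact ⟨hv.1, h hv.2⟩

theorem countQ_union_le (P Q : Set (HeightOneSpectrum (𝓞 K))) (x : ℕ) :
    countQ (· ∈ P ∪ Q) x ≤ countQ (· ∈ P) x + countQ (· ∈ Q) x := by
  classical
  rw [countQ_eq_card, countQ_eq_card, countQ_eq_card]
  refine (Finset.card_le_card fun v hv => ?_).trans (Finset.card_union_le _ _)
  rw [Finset.mem_filter] at hv
  rw [Finset.mem_union, Finset.mem_filter, Finset.mem_filter]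
  rcases hv.2 with h1 | h1
  · exact Or.inl ⟨hv.1, h1⟩
  · exact Or.inr ⟨hv.1, h1⟩

theorem countQ_union (hd : Disjoint P Q) (x : ℕ) :
    countQ (· ∈ P ∪ Q) x = countQ (· ∈ P) x + countQ (· ∈ Q) x := by
  classical
  rw [countQ_eq_card, countQ_eq_card, countQ_eq_card, ← Finset.card_union_of_disjoint]
  · congr 1
    ext v
    simp only [Finset.mem_filter, Finset.mem_union, Set.mem_union]
    tauto
  · rw [Finset.disjoint_left]
    intro v h1 h2
    exact Set.disjoint_left.mp hd (Finset.mem_filter.mp h1).2 (Finset.mem_filter.mp h2).2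

theorem countQ_le_of_finite (hP : P.Finite) (x : ℕ) :
    countQ (· ∈ P) x ≤ hP.toFinset.card := by
  classical
  rw [countQ_eq_card]
  refine Finset.card_le_card fun v hv => ?_
  rw [Finset.mem_filter] at hv
  exact hP.mem_toFinset.mpr hv.2

/-- Finitely many places do not change the density. -/
theorem HasNatDensity.congr_finite (h : (symmDiff P Q).Finite) (hP : HasNatDensity P δ) :
    HasNatDensity Q δ := by
  rw [hasNatDensity_iff] at hP ⊢
  refine tendsto_of_bounded (C := h.toFinset.card) (fun x => ?_) hP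
  have key : ∀ P Q : Set (HeightOneSpectrum (𝓞 K)),
      countQ (· ∈ P) x ≤ countQ (· ∈ Q) x + countQ (· ∈ symmDiff P Q) x := by
    intro P Q
    refine (countQ_mono ?_ x).trans (countQ_union_le _ _ x)
    intro v hv
    by_cases h1 : v ∈ Q
    · exact Or.inl h1
    · exact Or.inr (Or.inl ⟨hv, h1⟩)
  have h1 := key P Q
  have h2 := key Q P
  rw [symmDiff_comm] at h2
  have h3 := countQ_le_of_finite h x
  rw [abs_sub_le_iff]
  constructor
  · rw [sub_le_iff_le_add']
    exact_mod_cast h1.trans (Nat.add_le_add_left h3 _)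
  · rw [sub_le_iff_le_add']
    exact_mod_cast h2.trans (Nat.add_le_add_left h3 _)

theorem hasNatDensity_empty : HasNatDensity (∅ : Set (HeightOneSpectrum (𝓞 K))) 0 := by
  rw [hasNatDensity_iff]
  refine tendsto_const_nhds.congr fun x => ?_
  have h : countQ (· ∈ (∅ : Set (HeightOneSpectrum (𝓞 K)))) x = 0 := by
    rw [countQ, Nat.card_eq_zero]
    exact Or.inl ⟨fun v => v.2.2⟩
  rw [h, Nat.cast_zero, zero_mul, zero_div]

theorem hasNatDensity_of_finite (h : P.Finite) : HasNatDensity P 0 :=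
  hasNatDensity_empty.congr_finite (by
    rw [show symmDiff (∅ : Set (HeightOneSpectrum (𝓞 K))) P = P from bot_symmDiff P]
    exact h)

/-- A set of positive density is infinite. -/
theorem HasNatDensity.infinite (hP : HasNatDensity P δ) (hδ : δ ≠ 0) : P.Infinite :=
  fun h => hδ (hP.unique (hasNatDensity_of_finite h))

theorem HasNatDensity.mono (h : P ⊆ Q) (hP : HasNatDensity P δ) (hQ : HasNatDensity Q ε) :
    δ ≤ ε := by
  refine le_of_tendsto_of_tendsto' (hasNatDensity_iff.mp hP) (hasNatDensity_iff.mp hQ) fun x => ?_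
  have h1 : (countQ (· ∈ P) x : ℝ) ≤ countQ (· ∈ Q) x := by exact_mod_cast countQ_mono h x
  have h2 := Real.log_natCast_nonneg x
  gcongr

theorem HasNatDensity.nonneg (hP : HasNatDensity P δ) : 0 ≤ δ :=
  hasNatDensity_empty.mono (Set.empty_subset P) hP

theorem HasNatDensity.union (hd : Disjoint P Q) (hP : HasNatDensity P δ)
    (hQ : HasNatDensity Q ε) : HasNatDensity (P ∪ Q) (δ + ε) := by
  rw [hasNatDensity_iff] at hP hQ ⊢
  refine (hP.add hQ).congr fun x => ?_
  rw [countQ_union hd, Nat.cast_add]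
  ring

theorem HasNatDensity.diff (h : P ⊆ Q) (hP : HasNatDensity P δ)
    (hQ : HasNatDensity Q ε) : HasNatDensity (Q \ P) (ε - δ) := by
  rw [hasNatDensity_iff] at hP hQ ⊢
  refine (hQ.sub hP).congr fun x => ?_
  have h1 := countQ_union (P := P) (Q := Q \ P) Set.disjoint_sdiff_right x
  rw [Set.union_sdiff_cancel h] at h1
  rw [h1, Nat.cast_add]
  ring

/-- Only the places of prime norm matter. -/
theorem hasNatDensity_iff_degOneQ : HasNatDensity P δ ↔
    Tendsto (fun x : ℕ => (∑ p ∈ primesTo x, (degOneQ (· ∈ P) p : ℝ)) * Real.log x / x) atTop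
      (𝓝 δ) := by
  refine ⟨fun h => ?_, fun h => tendsto_countQ _ h⟩
  rw [hasNatDensity_iff] at h
  have h3 : Tendsto (fun x : ℕ => ((countQ (· ∈ P) x : ℝ) -
      ∑ p ∈ primesTo x, (degOneQ (· ∈ P) p : ℝ)) * Real.log x / x) atTop (𝓝 0) := by
    have h4 : Tendsto (fun x : ℕ => (Module.finrank ℚ K : ℝ) * ((Nat.sqrt x : ℝ) * Real.log x / x))
        atTop (𝓝 0) := by
      simpa using tendsto_sqrt_log.const_mul (Module.finrank ℚ K : ℝ)
    have h5 : ∀ x : ℕ, (∑ p ∈ primesTo x, (degOneQ (· ∈ P) p : ℝ)) ≤ countQ (· ∈ P) x ∧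
        (countQ (· ∈ P) x : ℝ) ≤ (∑ p ∈ primesTo x, (degOneQ (· ∈ P) p : ℝ)) +
          Module.finrank ℚ K * Nat.sqrt x := fun x => by
      have := countQ_le (· ∈ P) x
      exact_mod_cast this
    refine squeeze_zero (fun x => ?_) (fun x => ?_) h4
    · exact div_nonneg (mul_nonneg (sub_nonneg.mpr (h5 x).1) (Real.log_natCast_nonneg x))
        (Nat.cast_nonneg x)
    · rw [mul_div_assoc, mul_div_assoc, ← mul_assoc]
      refine mul_le_mul_of_nonneg_right ?_
        (div_nonneg (Real.log_natCast_nonneg x) (Nat.cast_nonneg x))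
      linarith [(h5 x).2]
  have h4 := h.sub h3
  rw [sub_zero] at h4
  refine h4.congr fun x => ?_
  ring

/-- The places of prime norm in a set have the same density. -/
theorem HasNatDensity.deg_one (hP : HasNatDensity P δ) :
    HasNatDensity {v | v ∈ P ∧ (Ideal.absNorm v.asIdeal).Prime} δ := by
  rw [hasNatDensity_iff_degOneQ] at hP ⊢
  refine hP.congr fun x => ?_
  congr 2
  refine Finset.sum_congr rfl fun p hp => ?_
  congr 1
  refine Nat.card_congr (Equiv.subtypeEquivRight fun v => ?_)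
  constructor
  · rintro ⟨h1, h2⟩
    exact ⟨h1, h2, h1 ▸ (mem_primesTo.mp hp).2⟩
  · rintro ⟨h1, h2, -⟩
    exact ⟨h1, h2⟩

end Fermat.Agent.Cor.ChebK
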