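import Fermat.Agent.Corollaries.ChebK.NatK

/-!
# Forms of Chebotarev's density theorem with natural density

Calculus of natural densities of sets of places of a number field `K` (complement, quotient by the
number of all places, real variable), and the forms of Chebotarev's theorem: for Mathlib's
`arithFrobAt`, for one conjugacy class, for the places which split completely.
-/

set_option autoImplicit false

open NumberField Filter Topology IsDedekindDomain

namespace Fermat.Agent.Cor.ChebK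

section Density

variable {K : Type*} [Field K] [NumberField K] {P Q : Set (HeightOneSpectrum (𝓞 K))} {δ ε : ℝ}

variable (K) in
/-- The prime ideal theorem: all places together have natural density one. -/
theorem hasNatDensity_univ : HasNatDensity (Set.univ : Set (HeightOneSpectrum (𝓞 K))) 1 := by
  refine (prime_ideal_theorem_places K).congr fun x => ?_
  congr 3
  refine Nat.card_congr (Equiv.subtypeEquivRight fun v => ?_)
  exact ⟨fun h => ⟨h, Set.mem_univ _⟩, fun h => h.1⟩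

theorem HasNatDensity.compl (hP : HasNatDensity P δ) : HasNatDensity Pᶜ (1 - δ) := by
  have h := hP.diff (Set.subset_univ P) (hasNatDensity_univ K)
  rwa [← Set.compl_eq_univ_sdiff] at h

theorem HasNatDensity.le_one (hP : HasNatDensity P δ) : δ ≤ 1 :=
  hP.mono (Set.subset_univ P) (hasNatDensity_univ K)

/-- The natural density as the limit of the proportion among all places of norm at most `x`. -/
theorem HasNatDensity.tendsto_div (hP : HasNatDensity P δ) :
    Tendsto (fun x : ℕ => (Nat.card {v : HeightOneSpectrum (𝓞 K) //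
      Ideal.absNorm v.asIdeal ≤ x ∧ v ∈ P} : ℝ) /
        Nat.card {v : HeightOneSpectrum (𝓞 K) // Ideal.absNorm v.asIdeal ≤ x}) atTop (𝓝 δ) := by
  have h := Tendsto.div hP (prime_ideal_theorem_places K) one_ne_zero
  rw [div_one] at h
  refine h.congr' ?_
  filter_upwards [eventually_gt_atTop 1] with x hx
  have h1 : (0 : ℝ) < x := by exact_mod_cast zero_lt_one.trans hx
  have h2 : 0 < Real.log (x : ℝ) := Real.log_pos (by exact_mod_cast hx)
  rw [Pi.div_apply, div_div_div_cancel_right₀ h1.ne', mul_div_mul_right _ _ h2.ne']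

/-- The natural density with a real variable. -/
theorem HasNatDensity.tendsto_real (hP : HasNatDensity P δ) :
    Tendsto (fun x : ℝ => (Nat.card {v : HeightOneSpectrum (𝓞 K) //
      (Ideal.absNorm v.asIdeal : ℝ) ≤ x ∧ v ∈ P} : ℝ) * Real.log x / x) atTop (𝓝 δ) := by
  have h1 : Tendsto (fun x : ℝ => (Nat.card {v : HeightOneSpectrum (𝓞 K) //
      Ideal.absNorm v.asIdeal ≤ ⌊x⌋₊ ∧ v ∈ P} : ℝ) * Real.log ⌊x⌋₊ / ⌊x⌋₊) atTop (𝓝 δ) :=
    Tendsto.comp hP tendsto_nat_floor_atTop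
  have h2 : Tendsto (fun x : ℝ => (⌊x⌋₊ : ℝ) / x) atTop (𝓝 1) := tendsto_nat_floor_div_atTop
  have h3 : Tendsto (fun x : ℝ => Real.log x / Real.log ⌊x⌋₊) atTop (𝓝 1) := by
    have h4 : Tendsto (fun x : ℝ => Real.log ((⌊x⌋₊ : ℝ) / x)) atTop (𝓝 0) := by
      rw [← Real.log_one]
      exact (Real.continuousAt_log one_ne_zero).tendsto.comp h2
    have h5 : Tendsto (fun x : ℝ => Real.log (⌊x⌋₊ : ℝ)) atTop atTop :=
      Real.tendsto_log_atTop.comp (tendsto_natCast_atTop_atTop.comp tendsto_nat_floor_atTop)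
    have h6 : Tendsto (fun x : ℝ => 1 - Real.log ((⌊x⌋₊ : ℝ) / x) / Real.log (⌊x⌋₊ : ℝ)) atTop
        (𝓝 1) := by
      have h7 := h4.div_atTop h5
      simpa using h7.const_sub 1
    refine h6.congr' ?_
    filter_upwards [eventually_ge_atTop 2, h5.eventually_gt_atTop 0] with x hx h0
    have hx0 : (0 : ℝ) < x := by linarith
    have hn : (0 : ℝ) < ⌊x⌋₊ := by
      have : 0 < ⌊x⌋₊ := Nat.floor_pos.mpr (by linarith)
      exact_mod_cast this
    rw [Real.log_div hn.ne' hx0.ne', eq_div_iff h0.ne', sub_mul, div_mul_cancel₀ _ h0.ne']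
    ring
  have h4 := (h1.mul h3).mul h2
  rw [mul_one, mul_one] at h4
  refine h4.congr' ?_
  have h5 : Tendsto (fun x : ℝ => Real.log (⌊x⌋₊ : ℝ)) atTop atTop :=
    Real.tendsto_log_atTop.comp (tendsto_natCast_atTop_atTop.comp tendsto_nat_floor_atTop)
  filter_upwards [eventually_ge_atTop 2, h5.eventually_gt_atTop 0] with x hx h0
  have hx0 : (0 : ℝ) < x := by linarith
  have hn : (0 : ℝ) < ⌊x⌋₊ := by
    have : 0 < ⌊x⌋₊ := Nat.floor_pos.mpr (by linarith)
    exact_mod_cast this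
  have h6 : Nat.card {v : HeightOneSpectrum (𝓞 K) //
      (Ideal.absNorm v.asIdeal : ℝ) ≤ x ∧ v ∈ P} = Nat.card {v : HeightOneSpectrum (𝓞 K) //
      Ideal.absNorm v.asIdeal ≤ ⌊x⌋₊ ∧ v ∈ P} :=
    Nat.card_congr (Equiv.subtypeEquivRight fun v => by rw [Nat.le_floor_iff hx0.le])
  rw [h6]
  field_simp

end Density

/-! ### Forms of Chebotarev's theorem -/

variable {K L : Type*} [Field K] [NumberField K] [Field L] [NumberField L] [Algebra K L]
  [IsGalois K L]

/-- **Chebotarev's density theorem with natural density** written out. -/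
theorem chebotarev_nat_tendsto {C : Set (L ≃ₐ[K] L)}
    (hC : ∀ g c : L ≃ₐ[K] L, c ∈ C → g * c * g⁻¹ ∈ C) :
    Tendsto (fun x : ℕ => (Nat.card {v : HeightOneSpectrum (𝓞 K) //
      Ideal.absNorm v.asIdeal ≤ x ∧ Unr L v ∧ HasFrobIn C v} : ℝ) /
        Nat.card {v : HeightOneSpectrum (𝓞 K) // Ideal.absNorm v.asIdeal ≤ x}) atTop
      (𝓝 ((Nat.card C : ℝ) / Nat.card (L ≃ₐ[K] L))) :=
  (chebotarev_nat hC).tendsto_div

/-- **Chebotarev's density theorem** with natural density, in terms of `arithFrobAt`. -/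
theorem chebotarev_nat_arithFrobAt {C : Set (L ≃ₐ[K] L)}
    (hC : ∀ g c : L ≃ₐ[K] L, c ∈ C → g * c * g⁻¹ ∈ C) :
    HasNatDensity {v : HeightOneSpectrum (𝓞 K) | Unr L v ∧
      ∀ w : HeightOneSpectrum (𝓞 L), w.under (𝓞 K) = v →
        arithFrobAt (𝓞 K) (L ≃ₐ[K] L) w.asIdeal ∈ C}
      ((Nat.card C : ℝ) / Nat.card (L ≃ₐ[K] L)) := by
  have h : {v : HeightOneSpectrum (𝓞 K) | Unr L v ∧
      ∀ w : HeightOneSpectrum (𝓞 L), w.under (𝓞 K) = v →
        arithFrobAt (𝓞 K) (L ≃ₐ[K] L) w.asIdeal ∈ C} =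
      {v : HeightOneSpectrum (𝓞 K) | Unr L v ∧ HasFrobIn C v} := by
    ext v
    refine and_congr_right fun hv => ?_
    rw [hasFrobIn_iff_forall hv hC]
    constructor
    · intro h w hw τ hτ
      rw [isArithFrobAt_unique (hv w hw) hτ (IsArithFrobAt.arithFrobAt (𝓞 K) (L ≃ₐ[K] L) w.asIdeal)]
      exact h w hw
    · intro h w hw
      exact h w hw _ (IsArithFrobAt.arithFrobAt (𝓞 K) (L ≃ₐ[K] L) w.asIdeal)
  rw [h]
  exact chebotarev_nat hC

/-- The places with Frobenius class the class of `τ`. -/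
theorem chebotarev_nat_class (τ : L ≃ₐ[K] L) :
    HasNatDensity {v : HeightOneSpectrum (𝓞 K) | Unr L v ∧
      HasFrobIn {x : L ≃ₐ[K] L | IsConj τ x} v}
      ((Nat.card {x : L ≃ₐ[K] L // IsConj τ x} : ℝ) / Nat.card (L ≃ₐ[K] L)) :=
  chebotarev_nat (conj_mem_carrier τ)

/-- The places of prime norm with Frobenius class the class of `τ`. -/
theorem chebotarev_nat_class_deg_one (τ : L ≃ₐ[K] L) :
    HasNatDensity {v : HeightOneSpectrum (𝓞 K) | Unr L v ∧ (Ideal.absNorm v.asIdeal).Prime ∧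
      ∃ w : HeightOneSpectrum (𝓞 L), w.under (𝓞 K) = v ∧ IsArithFrobAt (𝓞 K) τ w.asIdeal}
      ((Nat.card {x : L ≃ₐ[K] L // IsConj τ x} : ℝ) / Nat.card (L ≃ₐ[K] L)) := by
  have h : {v : HeightOneSpectrum (𝓞 K) | Unr L v ∧ (Ideal.absNorm v.asIdeal).Prime ∧
      ∃ w : HeightOneSpectrum (𝓞 L), w.under (𝓞 K) = v ∧ IsArithFrobAt (𝓞 K) τ w.asIdeal} =
      {v : HeightOneSpectrum (𝓞 K) | v ∈ {v : HeightOneSpectrum (𝓞 K) | Unr L v ∧
        HasFrobIn {x : L ≃ₐ[K] L | IsConj τ x} v} ∧ (Ideal.absNorm v.asIdeal).Prime} := by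
    ext v
    constructor
    · rintro ⟨h1, h2, w, hw, h3⟩
      exact ⟨⟨h1, w, hw, τ, IsConj.refl τ, h3⟩, h2⟩
    · rintro ⟨⟨h1, h2⟩, h3⟩
      exact ⟨h1, h3, h2.exists_eq⟩
  rw [h]
  exact (chebotarev_nat_class τ).deg_one

end Fermat.Agent.Cor.ChebK
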