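import Fermat.Agent.Corollaries.Cheb.NatMain
import Fermat.Agent.Corollaries.ChebK.Main
import Fermat.Agent.Corollaries.ChebK.NatDens

/-!
# Chebotarev's density theorem with natural density for Galois extensions of number fields

`L / K` a Galois extension of number fields, `C ⊆ Gal(L/K)` stable under conjugation. The number of
places `v` of `K` of norm at most `x`, unramified in `L` and with Frobenius class in `C`, is
asymptotic to `(|C| / |Gal(L/K)|) x / log x`.
-/

set_option autoImplicit false
set_option linter.unusedSectionVars false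

open NumberField Filter Topology IsDedekindDomain
open Fermat.Agent.Frob Fermat.Agent.FrobDensity Fermat.Agent.LT.Tower.Fr

namespace Fermat.Agent.Cor.ChebK

variable {K L : Type*} [Field K] [NumberField K] [Field L] [NumberField L] [Algebra K L]

/-- **Mean value** of the number of embeddings on which Frobenius acts through `C`. -/
theorem tendsto_sum_cnt (C : Set (L ≃ₐ[K] L)) :
    Tendsto (fun x : ℕ => (∑ p ∈ primesTo x, (cnt C (frob p) : ℝ)) * Real.log x / x) atTop
      (𝓝 (Nat.card C)) := by
  have h0 : (Nat.card (ncl L ≃ₐ[ℚ] ncl L) : ℝ) ≠ 0 := by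
    exact_mod_cast (Nat.card_pos (α := ncl L ≃ₐ[ℚ] ncl L)).ne'
  have h1 := Cheb.chebotarev_avg (r := res (L := L)) res_surjective
    ⟨ncl L, inferInstance, fun σ hσ => by
      rw [← map_one (res (L := L))]
      exact (restrict_eq_iff (ncl L)).mpr hσ⟩
    (φ := frob) (fun p hp => exists_frob_place hp)
    (f := fun g => (cntG C g : ℝ)) (fun x g => by rw [cntG_conj])
  have h2 : (∑ g : ncl L ≃ₐ[ℚ] ncl L, (cntG C g : ℝ)) / Nat.card (ncl L ≃ₐ[ℚ] ncl L) =
      Nat.card C := by
    rw [← Nat.cast_sum, sum_cntG, Nat.cast_mul, mul_div_cancel_right₀ _ h0]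
  rw [Frob.HasAvg, h2] at h1
  refine h1.congr fun x => ?_
  rw [Frob.avg]
  simp only [cntG_res]
  rfl

variable [IsGalois K L]

/-- **Chebotarev's density theorem** with natural density, without the condition "unramified". -/
theorem hasNatDensity_hasFrobIn {C : Set (L ≃ₐ[K] L)}
    (hC : ∀ g c : L ≃ₐ[K] L, c ∈ C → g * c * g⁻¹ ∈ C) :
    HasNatDensity {v : HeightOneSpectrum (𝓞 K) | HasFrobIn C v}
      ((Nat.card C : ℝ) / Nat.card (L ≃ₐ[K] L)) := by
  obtain ⟨D, hD, hK⟩ := exists_good K
  obtain ⟨D', hD', hL⟩ := exists_good L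
  have hN0 : (Nat.card (L ≃ₐ[K] L) : ℝ) ≠ 0 := by
    have : 0 < Nat.card (L ≃ₐ[K] L) := Nat.card_pos
    exact_mod_cast this.ne'
  rw [hasNatDensity_iff]
  refine tendsto_countQ_of_eq (D := D * D') _ (mul_ne_zero hD hD')
    (f := fun p => (cnt C (frob p) : ℝ) / Nat.card (L ≃ₐ[K] L)) ?_ ?_
  · intro p hp hpD
    have hp1 : Good K p := hK p hp fun h => hpD (dvd_mul_of_dvd_left h D')
    have hp2 : Good L p := hL p hp fun h => hpD (dvd_mul_of_dvd_right h D)
    obtain ⟨A, hA, hσ⟩ := exists_frob_place hp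
    have h1 := natCard_eq hp hp1 hp2 hA hσ hC
    rw [eq_div_iff hN0, cnt, h1, Nat.cast_mul]
    rfl
  · refine ((tendsto_sum_cnt C).div_const _).congr fun x => ?_
    rw [← Finset.sum_div]
    ring

/-- **Chebotarev's density theorem with natural density** for a Galois extension `L / K` of number
fields: the number of places of `K` of norm at most `x` which are unramified in `L` and whose
Frobenius class lies in `C` is asymptotic to `(|C| / |Gal(L/K)|) x / log x`. -/
theorem chebotarev_nat {C : Set (L ≃ₐ[K] L)} (hC : ∀ g c : L ≃ₐ[K] L, c ∈ C → g * c * g⁻¹ ∈ C) :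
    HasNatDensity {v : HeightOneSpectrum (𝓞 K) | Unr L v ∧ HasFrobIn C v}
      ((Nat.card C : ℝ) / Nat.card (L ≃ₐ[K] L)) := by
  refine (hasNatDensity_hasFrobIn hC).congr_finite ((finite_not_unr K L).subset ?_)
  intro v hv
  rw [Set.mem_symmDiff] at hv
  rcases hv with h | h
  · exact fun hu => h.2 ⟨hu, h.1⟩
  · exact absurd h.1.2 h.2

end Fermat.Agent.Cor.ChebK
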