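import Fermat.Agent.Corollaries.ChebK.NatPoly
import Fermat.Agent.Corollaries.ChebK.NatAvg

/-!
# Kronecker's theorem: the mean number of roots modulo the places

`f ∈ 𝓞_K[X]` monic without multiple roots. The mean value over the places `v` of `K` (natural
density) of the number of roots of `f` in `𝓞_K / v` is the number of irreducible factors of `f` over
`K`.
-/

set_option autoImplicit false
set_option linter.unusedSectionVars false

namespace Fermat.Agent.Cor.ChebK

open NumberField IsDedekindDomain Polynomial Filter Topology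

namespace KronAux

variable {k κ : Type*} [Field k] [Finite k] [Field κ] (j : k →+* κ)

/-- the elements of `κ` with `y ^ q = y` are those of `k` -/
theorem exists_eq_of_pow {y : κ} (h : y ^ Nat.card k = y) : ∃ x : k, j x = y := by
  classical
  have := Fintype.ofFinite k
  have hq : 1 < Nat.card k := Finite.one_lt_card
  have h0 : (X ^ Nat.card k - X : κ[X]) ≠ 0 := FiniteField.X_pow_card_sub_X_ne_zero κ hq
  have hdeg : (X ^ Nat.card k - X : κ[X]).natDegree = Nat.card k :=
    FiniteField.X_pow_card_sub_X_natDegree_eq κ hq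
  have hsub : (Finset.univ.image j : Finset κ) ⊆ (X ^ Nat.card k - X : κ[X]).roots.toFinset := by
    intro z hz
    obtain ⟨x, -, rfl⟩ := Finset.mem_image.mp hz
    rw [Multiset.mem_toFinset, mem_roots h0, IsRoot.def, eval_sub, eval_pow, eval_X, ← map_pow,
      Nat.card_eq_fintype_card, FiniteField.pow_card, sub_self]
  have hcard : (X ^ Nat.card k - X : κ[X]).roots.toFinset.card ≤
      (Finset.univ.image j : Finset κ).card := by
    rw [Finset.card_image_of_injective _ j.injective, Finset.card_univ,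
      ← Nat.card_eq_fintype_card]
    exact (Multiset.toFinset_card_le _).trans ((card_roots' _).trans hdeg.le)
  have heq := Finset.eq_of_subset_of_card_le hsub hcard
  have hy : y ∈ (Finset.univ.image j : Finset κ) := by
    rw [heq, Multiset.mem_toFinset, mem_roots h0, IsRoot.def, eval_sub, eval_pow, eval_X, h,
      sub_self]
  obtain ⟨x, -, hx⟩ := Finset.mem_image.mp hy
  exact ⟨x, hx⟩

/-- roots in `k` and roots in `κ` fixed by the Frobenius of `k` -/
theorem card_eval_eq {F : k[X]} : Nat.card {x : k // F.eval x = 0} =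
    Nat.card {y : κ // (F.map j).eval y = 0 ∧ y ^ Nat.card k = y} := by
  have hpow : ∀ x : k, x ^ Nat.card k = x := fun x => by
    have := Fintype.ofFinite k
    rw [Nat.card_eq_fintype_card, FiniteField.pow_card]
  refine Nat.card_congr (Equiv.ofBijective (fun x => ⟨j x.1, ?_, ?_⟩) ⟨?_, ?_⟩)
  · rw [eval_map_apply, x.2, map_zero]
  · rw [← map_pow, hpow]
  · intro x x' h
    exact Subtype.ext (j.injective (congrArg Subtype.val h))
  · rintro ⟨y, hy, hy'⟩
    obtain ⟨x, rfl⟩ := exists_eq_of_pow j hy'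
    refine ⟨⟨x, ?_⟩, rfl⟩
    rw [eval_map_apply] at hy
    exact (map_eq_zero j).mp hy

end KronAux

variable {K N : Type*} [Field K] [NumberField K] [Field N] [NumberField N] [Algebra K N]
  [IsGalois K N]

/-- the number of roots of `f` in the residue field of `v` -/
noncomputable def rootsMod {K : Type*} [Field K] [NumberField K] (f : (𝓞 K)[X])
    (v : HeightOneSpectrum (𝓞 K)) : ℕ :=
  Nat.card {z : 𝓞 K ⧸ v.asIdeal // (f.map (Ideal.Quotient.mk v.asIdeal)).eval z = 0}

/-- the number of roots modulo `v` is at most the degree -/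
theorem rootsMod_le {f : (𝓞 K)[X]} (hf : f.Monic) (v : HeightOneSpectrum (𝓞 K)) :
    rootsMod f v ≤ f.natDegree := by
  classical
  let _ : Field (𝓞 K ⧸ v.asIdeal) := LT.Tower.Fr.fieldQuot v
  have h0 : f.map (Ideal.Quotient.mk v.asIdeal) ≠ 0 := (hf.map _).ne_zero
  have h1 : rootsMod f v = (f.map (Ideal.Quotient.mk v.asIdeal)).roots.toFinset.card := by
    refine Nat.subtype_card _ fun z => ?_
    rw [Multiset.mem_toFinset, mem_roots h0, IsRoot.def]
  rw [h1]
  exact (Multiset.toFinset_card_le _).trans ((card_roots' _).trans (hf.natDegree_map _).le)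

open Classical in
/-- **Roots modulo `v` and roots fixed by Frobenius.** -/
theorem rootsMod_eq {f : (𝓞 K)[X]} (hf : f.Monic) (hs : (f.map (algebraMap (𝓞 K) N)).Splits)
    (hnd : (f.map (algebraMap (𝓞 K) N)).roots.Nodup) {v : HeightOneSpectrum (𝓞 K)}
    {w : HeightOneSpectrum (𝓞 N)} (hw : w.under (𝓞 K) = v) {σ : N ≃ₐ[K] N}
    (hσ : IsArithFrobAt (𝓞 K) σ w.asIdeal)
    (hdist : ∀ x y : 𝓞 N, aeval x f = 0 → aeval y f = 0 → x - y ∈ w.asIdeal → x = y) :
    rootsMod f v = Nat.card {x : f.rootSet N // permRoots f σ x = x} := by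
  have hsum := sum_facType hf hs hnd hw hσ hdist 1
  rw [pow_one] at hsum
  rw [← hsum]
  subst hw
  obtain ⟨s, hs1, hs2⟩ := exists_roots (N := N) hf hs
  let _ : Field (𝓞 K ⧸ (w.under (𝓞 K)).asIdeal) := LT.Tower.Fr.fieldQuot (w.under (𝓞 K))
  let _ : Field (𝓞 N ⧸ w.asIdeal) := LT.Tower.Fr.fieldQuot w
  have hfin : Finite (𝓞 K ⧸ (w.under (𝓞 K)).asIdeal) := by
    have h1 : Ideal.absNorm (w.under (𝓞 K)).asIdeal ≠ 0 := fun h =>
      (w.under (𝓞 K)).ne_bot (Ideal.absNorm_eq_zero_iff.mp h)
    exact Nat.finite_of_card_ne_zero h1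
  let j : (𝓞 K ⧸ (w.under (𝓞 K)).asIdeal) →+* (𝓞 N ⧸ w.asIdeal) :=
    Ideal.quotientMap w.asIdeal (algebraMap (𝓞 K) (𝓞 N)) le_rfl
  have hmap : (f.map (Ideal.Quotient.mk (w.under (𝓞 K)).asIdeal)).map j =
      ((s.map (Ideal.Quotient.mk w.asIdeal)).map fun a => X - C a).prod := by
    have h1 : j.comp (Ideal.Quotient.mk (w.under (𝓞 K)).asIdeal) =
        (Ideal.Quotient.mk w.asIdeal).comp (algebraMap (𝓞 K) (𝓞 N)) := by
      ext x
      rfl
    rw [Polynomial.map_map, h1, ← Polynomial.map_map, hs2, Polynomial.map_multiset_prod,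
      Multiset.map_map, Multiset.map_map]
    congr 1
    refine Multiset.map_congr rfl fun x _ => ?_
    simp only [Function.comp_apply, Polynomial.map_sub, map_X, map_C]
  have hroots : ((f.map (Ideal.Quotient.mk (w.under (𝓞 K)).asIdeal)).map j).roots =
      s.map (Ideal.Quotient.mk w.asIdeal) := by
    rw [hmap, roots_multiset_prod_X_sub_C]
  have hcard : s.card = f.natDegree := by
    have h1 := congrArg Multiset.card hs1
    rw [Multiset.card_map, splits_iff_card_roots.mp hs, hf.natDegree_map] at h1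
    exact h1
  have hF0 : f.map (Ideal.Quotient.mk (w.under (𝓞 K)).asIdeal) ≠ 0 := (hf.map _).ne_zero
  have hF0' : (f.map (Ideal.Quotient.mk (w.under (𝓞 K)).asIdeal)).map j ≠ 0 := by
    rwa [Ne, Polynomial.map_eq_zero]
  have key := FacFin.countP_roots j hF0 (by
    rw [hroots, Multiset.card_map, hcard, hf.natDegree_map]) 1
  rw [pow_one] at key
  refine Eq.trans ?_ key
  -- the roots are different modulo `w`
  have hnd' : s.Nodup := Multiset.Nodup.of_map (algebraMap (𝓞 N) N) (hs1 ▸ hnd)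
  have hmem : ∀ y : 𝓞 N, y ∈ s → aeval y f = 0 := by
    intro y hy
    have h1 : aeval y f = (f.map (algebraMap (𝓞 K) (𝓞 N))).eval y := by
      rw [eval_map, aeval_def]
    rw [h1, hs2, eval_multiset_prod, Multiset.map_map, Multiset.prod_eq_zero_iff, Multiset.mem_map]
    exact ⟨y, hy, by simp⟩
  have hnd2 : (s.map (Ideal.Quotient.mk w.asIdeal)).Nodup := by
    refine Multiset.Nodup.map_on (fun x hx y hy h => ?_) hnd'
    refine hdist x y (hmem x hx) (hmem y hy) ?_
    rw [← Ideal.Quotient.eq_zero_iff_mem, map_sub, h, sub_self]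
  rw [rootsMod, KronAux.card_eval_eq j, Multiset.countP_eq_card_filter,
    ← Multiset.toFinset_card_of_nodup ((hroots ▸ hnd2).filter _)]
  refine Nat.subtype_card _ fun y => ?_
  rw [Multiset.mem_toFinset, Multiset.mem_filter, mem_roots hF0', IsRoot.def]

/-! ### Burnside -/

/-- the number of roots fixed by `σ` -/
noncomputable def fixRoots (f : (𝓞 K)[X]) (σ : N ≃ₐ[K] N) : ℕ :=
  Nat.card {x : f.rootSet N // permRoots f σ x = x}

theorem fixRoots_conj (f : (𝓞 K)[X]) (g σ : N ≃ₐ[K] N) :
    fixRoots f (g * σ * g⁻¹) = fixRoots f σ := by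
  refine Nat.card_congr ((permRoots f g⁻¹).subtypeEquiv fun x => ?_)
  rw [map_mul, map_mul, map_inv, Equiv.Perm.mul_apply, Equiv.Perm.mul_apply]
  constructor
  · intro h
    have h1 := congrArg ((permRoots f g)⁻¹ : Equiv.Perm (f.rootSet N)) h
    rwa [← Equiv.Perm.mul_apply, inv_mul_cancel, Equiv.Perm.one_apply] at h1
  · intro h
    rw [h, ← Equiv.Perm.mul_apply, mul_inv_cancel, Equiv.Perm.one_apply]

open Classical in
/-- **Burnside**: the mean number of fixed roots is the number of irreducible factors. -/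
theorem sum_fixRoots {f : (𝓞 K)[X]} (hf : f.Monic) (hs : (f.map (algebraMap (𝓞 K) N)).Splits) :
    ∑ σ : N ≃ₐ[K] N, fixRoots f σ =
      (UniqueFactorizationMonoid.normalizedFactors (f.map (algebraMap (𝓞 K) K))).toFinset.card *
        Nat.card (N ≃ₐ[K] N) := by
  let _ : MulAction (N ≃ₐ[K] N) (f.rootSet N) := MulAction.compHom _ (permRoots f)
  have hsmul : ∀ (σ : N ≃ₐ[K] N) (x : f.rootSet N), σ • x = permRoots f σ x := fun _ _ => rfl
  have h1 := MulAction.sum_card_fixedBy_eq_card_orbits_mul_card_group (N ≃ₐ[K] N) (f.rootSet N)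
  have h2 : ∀ σ : N ≃ₐ[K] N, fixRoots f σ =
      Fintype.card (MulAction.fixedBy (f.rootSet N) σ) := by
    intro σ
    rw [fixRoots, Nat.card_eq_fintype_card]
    exact Fintype.card_congr (Equiv.refl _)
  rw [Finset.sum_congr rfl fun σ _ => h2 σ, h1, Nat.card_eq_fintype_card]
  congr 1
  have hK0 : f.map (algebraMap (𝓞 K) K) ≠ 0 := (hf.map _).ne_zero
  have hmapN : (f.map (algebraMap (𝓞 K) K)).map (algebraMap K N) =
      f.map (algebraMap (𝓞 K) N) := by
    rw [Polynomial.map_map]
    rfl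
  -- the roots of `f` in `N`
  have hroot : ∀ x : N, x ∈ f.rootSet N ↔ aeval x (f.map (algebraMap (𝓞 K) K)) = 0 := by
    intro x
    rw [mem_rootSet', aeval_map_algebraMap]
    exact ⟨fun h => h.2, fun h => ⟨(hf.map _).ne_zero, h⟩⟩
  have hmem : ∀ x : f.rootSet N, minpoly K (x : N) ∈
      (UniqueFactorizationMonoid.normalizedFactors (f.map (algebraMap (𝓞 K) K))).toFinset := by
    intro x
    have hint : IsIntegral K (x : N) := Algebra.IsIntegral.isIntegral _
    rw [Multiset.mem_toFinset, Polynomial.mem_normalizedFactors_iff hK0]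
    exact ⟨minpoly.irreducible hint, minpoly.monic hint, minpoly.dvd K _ ((hroot _).mp x.2)⟩
  have hrel : ∀ x y : f.rootSet N, (MulAction.orbitRel (N ≃ₐ[K] N) (f.rootSet N)).r x y ↔
      minpoly K (x : N) = minpoly K (y : N) := by
    intro x y
    change x ∈ MulAction.orbit _ y ↔ IsConjRoot K (x : N) (y : N)
    rw [isConjRoot_iff_exists_algEquiv, MulAction.mem_orbit_iff]
    constructor
    · rintro ⟨σ, hσ⟩
      exact ⟨σ, congrArg Subtype.val hσ⟩
    · rintro ⟨σ, hσ⟩
      exact ⟨σ, Subtype.ext hσ⟩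
  rw [← Nat.card_eq_fintype_card, ← Fintype.card_coe, ← Nat.card_eq_fintype_card]
  refine Nat.card_congr (Equiv.ofBijective (Quotient.lift (fun x : f.rootSet N =>
    (⟨minpoly K (x : N), hmem x⟩ : {g // g ∈ (UniqueFactorizationMonoid.normalizedFactors
      (f.map (algebraMap (𝓞 K) K))).toFinset})) fun x y h => Subtype.ext ((hrel x y).mp h))
    ⟨?_, ?_⟩)
  · rintro ⟨x⟩ ⟨y⟩ h
    exact Quotient.sound ((hrel x y).mpr (congrArg Subtype.val h))
  · rintro ⟨g, hg⟩
    rw [Multiset.mem_toFinset, Polynomial.mem_normalizedFactors_iff hK0] at hg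
    obtain ⟨h3, h4, h5⟩ := hg
    have h6 : (g.map (algebraMap K N)).Splits :=
      (hmapN ▸ hs : ((f.map (algebraMap (𝓞 K) K)).map (algebraMap K N)).Splits).of_dvd
        (by rw [hmapN]; exact (hf.map _).ne_zero) (Polynomial.map_dvd _ h5)
    obtain ⟨x, hx⟩ := h6.exists_eval_eq_zero (by
      rw [degree_map]
      exact h3.degree_pos.ne')
    have hx' : aeval x g = 0 := by rw [aeval_def, ← eval_map]; exact hx
    have hxr : x ∈ f.rootSet N := by
      rw [hroot]
      obtain ⟨q, hq⟩ := h5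
      rw [hq, map_mul, hx', zero_mul]
    refine ⟨Quotient.mk _ ⟨x, hxr⟩, Subtype.ext ?_⟩
    exact (minpoly.eq_of_irreducible_of_monic h3 hx' h4).symm

/-! ### Kronecker's theorem -/

/-- The mean number of roots modulo the places, `f` with different roots in `N`. -/
theorem tendsto_sum_rootsMod {f : (𝓞 K)[X]} (hf : f.Monic)
    (hs : (f.map (algebraMap (𝓞 K) N)).Splits)
    (hnd : (f.map (algebraMap (𝓞 K) N)).roots.Nodup) :
    Tendsto (fun x : ℕ => (∑ v ∈ placesTo K x, (rootsMod f v : ℝ)) * Real.log x / x) atTop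
      (𝓝 (Nat.card {g : K[X] // Irreducible g ∧ g.Monic ∧ g ∣ f.map (algebraMap (𝓞 K) K)})) := by
  classical
  have hK0 : f.map (algebraMap (𝓞 K) K) ≠ 0 := (hf.map _).ne_zero
  have hcard : Nat.card {g : K[X] // Irreducible g ∧ g.Monic ∧ g ∣ f.map (algebraMap (𝓞 K) K)} =
      (UniqueFactorizationMonoid.normalizedFactors
        (f.map (algebraMap (𝓞 K) K))).toFinset.card :=
    Nat.subtype_card _ fun g => by
      rw [Multiset.mem_toFinset, Polynomial.mem_normalizedFactors_iff hK0]
  have hex : ∀ v : HeightOneSpectrum (𝓞 K), ∃ (τ : N ≃ₐ[K] N) (w : HeightOneSpectrum (𝓞 N)),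
      w.under (𝓞 K) = v ∧ IsArithFrobAt (𝓞 K) τ w.asIdeal := by
    intro v
    obtain ⟨w, hw⟩ := exists_above (L := N) v
    obtain ⟨τ, hτ⟩ := exists_isArithFrobAt (K := K) w
    exact ⟨τ, w, hw, hτ⟩
  choose φ w hw hF using hex
  have h1 := chebotarev_nat_avg (F := fun σ : N ≃ₐ[K] N => (fixRoots f σ : ℝ))
    (fun x g => by rw [fixRoots_conj]) (φ := φ) fun v _ => ⟨w v, hw v, hF v⟩
  have hG : (Nat.card (N ≃ₐ[K] N) : ℝ) ≠ 0 := by
    have : 0 < Nat.card (N ≃ₐ[K] N) := Nat.card_pos
    exact_mod_cast this.ne'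
  have h2 : (Nat.card (N ≃ₐ[K] N) : ℝ)⁻¹ • ∑ σ : N ≃ₐ[K] N, (fixRoots f σ : ℝ) =
      (UniqueFactorizationMonoid.normalizedFactors
        (f.map (algebraMap (𝓞 K) K))).toFinset.card := by
    rw [← Nat.cast_sum, sum_fixRoots hf hs, Nat.cast_mul, smul_eq_mul, mul_comm, mul_assoc,
      mul_inv_cancel₀ hG, mul_one]
  rw [hcard, ← h2]
  have h3 : Tendsto (fun x : ℕ => (∑ v ∈ placesTo K x, (fixRoots f (φ v) : ℝ)) * Real.log x / x)
      atTop (𝓝 ((Nat.card (N ≃ₐ[K] N) : ℝ)⁻¹ • ∑ σ : N ≃ₐ[K] N, (fixRoots f σ : ℝ))) := by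
    refine h1.congr fun x => ?_
    rw [smul_eq_mul]
    ring
  have hfin := finite_not_distinct (N := N) hf hs
  refine tendsto_of_bounded
    (C := ∑ v ∈ hfin.toFinset, |(fixRoots f (φ v) : ℝ) - rootsMod f v|) (fun x => ?_) h3
  rw [← Finset.sum_sub_distrib]
  refine (Finset.abs_sum_le_sum_abs _ _).trans ?_
  rw [← Finset.sum_filter_add_sum_filter_not (placesTo K x) (· ∈ hfin.toFinset)]
  have h4 : ∑ v ∈ (placesTo K x).filter (fun v => v ∉ hfin.toFinset),
      |(fixRoots f (φ v) : ℝ) - rootsMod f v| = 0 := by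
    refine Finset.sum_eq_zero fun v hv => ?_
    have h5 := (Finset.mem_filter.mp hv).2
    rw [Set.Finite.mem_toFinset, Set.mem_ofPred_eq, not_not] at h5
    rw [rootsMod_eq hf hs hnd (hw v) (hF v) (h5 (w v) (hw v)), fixRoots, sub_self, abs_zero]
  rw [h4, add_zero]
  exact Finset.sum_le_sum_of_subset_of_nonneg (fun v hv => (Finset.mem_filter.mp hv).2)
    fun v _ _ => abs_nonneg _

/-- **Kronecker's theorem** (1880; natural density, any number field): `f ∈ 𝓞_K[X]` monic and
separable. The mean value over the places of `K` of the number of roots of `f` modulo `v` is the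
number of irreducible factors of `f` over `K`. -/
theorem kronecker_mean {K : Type*} [Field K] [NumberField K] {f : (𝓞 K)[X]} (hf : f.Monic)
    (hsep : (f.map (algebraMap (𝓞 K) K)).Separable) :
    Tendsto (fun x : ℕ => (∑ v ∈ placesTo K x, (rootsMod f v : ℝ)) * Real.log x / x) atTop
      (𝓝 (Nat.card {g : K[X] // Irreducible g ∧ g.Monic ∧ g ∣ f.map (algebraMap (𝓞 K) K)})) := by
  let N := (f.map (algebraMap (𝓞 K) K)).SplittingField
  have : CharZero N := charZero_of_injective_algebraMap (algebraMap K N).injective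
  have : FiniteDimensional ℚ N := Module.Finite.trans K N
  have : NumberField N := ⟨⟩
  have : IsGalois K N := IsGalois.of_separable_splitting_field hsep
  have hmapN : (f.map (algebraMap (𝓞 K) K)).map (algebraMap K N) =
      f.map (algebraMap (𝓞 K) N) := by
    rw [Polynomial.map_map]
    rfl
  have hs : (f.map (algebraMap (𝓞 K) N)).Splits := by
    rw [← hmapN]
    exact SplittingField.splits _
  have hnd : (f.map (algebraMap (𝓞 K) N)).roots.Nodup := by
    rw [← hmapN]
    exact nodup_roots hsep.map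
  exact tendsto_sum_rootsMod (N := N) hf hs hnd

/-- **Kronecker's theorem** for an irreducible polynomial: on average it has one root. -/
theorem kronecker_mean_irreducible {K : Type*} [Field K] [NumberField K] {f : (𝓞 K)[X]}
    (hf : f.Monic) (hirr : Irreducible (f.map (algebraMap (𝓞 K) K))) :
    Tendsto (fun x : ℕ => (∑ v ∈ placesTo K x, (rootsMod f v : ℝ)) * Real.log x / x) atTop
      (𝓝 1) := by
  have h := kronecker_mean hf hirr.separable
  have h1 : Nat.card {g : K[X] // Irreducible g ∧ g.Monic ∧ g ∣ f.map (algebraMap (𝓞 K) K)} =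
      1 := by
    rw [Nat.card_eq_one_iff_unique]
    refine ⟨⟨fun a b => Subtype.ext ?_⟩, ⟨⟨f.map (algebraMap (𝓞 K) K), hirr, hf.map _, dvd_rfl⟩⟩⟩
    have key : ∀ g : K[X], Irreducible g ∧ g.Monic ∧ g ∣ f.map (algebraMap (𝓞 K) K) →
        g = f.map (algebraMap (𝓞 K) K) := fun g hg =>
      eq_of_monic_of_associated hg.2.1 (hf.map _) (hg.1.associated_of_dvd hirr hg.2.2)
    rw [key a.1 a.2, key b.1 b.2]
  rwa [h1, Nat.cast_one] at h

end Fermat.Agent.Cor.ChebK
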