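import Fermat.Agent.Corollaries.ChebK.NatType
import Fermat.Agent.Corollaries.ChebK.FacFin

/-!
# Factorization of polynomials modulo the places of a number field

`N / K` a Galois extension of number fields, `f ∈ 𝓞_K[X]` monic with `deg f` different roots in `N`.

* `facType_eq`: at every place `v` at which the roots of `f` stay different, the degrees of the
  irreducible factors of `f mod v` are the lengths of the cycles of a Frobenius element of `v` on
  the roots of `f`.
* `hasNatDensity_facType`: for every multiset `m` the places `v` such that the irreducible factors of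
  `f mod v` have the degrees `m` have natural density
  `#{σ ∈ Gal(N/K) : the cycle type of σ on the roots is m} / |Gal(N/K)|`.
-/

set_option autoImplicit false
set_option linter.unusedSectionVars false

namespace Fermat.Agent.Cor.ChebK

open NumberField IsDedekindDomain Polynomial Filter Topology

section Defs

variable {K : Type*} [Field K] [NumberField K]

/-- the degrees of the irreducible factors of `f` modulo `v` -/
noncomputable def facType (f : (𝓞 K)[X]) (v : HeightOneSpectrum (𝓞 K)) : Multiset ℕ :=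
  letI : Field (𝓞 K ⧸ v.asIdeal) := LT.Tower.Fr.fieldQuot v
  (UniqueFactorizationMonoid.factors (f.map (Ideal.Quotient.mk v.asIdeal))).map natDegree

variable {N : Type*} [Field N] [NumberField N] [Algebra K N]

theorem aeval_gal (f : (𝓞 K)[X]) (σ : N ≃ₐ[K] N) (x : N) : aeval (σ x) f = σ (aeval x f) := by
  have h := hom_eval₂ f (algebraMap (𝓞 K) N) (σ : N →+* N) x
  rw [aeval_def, aeval_def]
  have h1 : (σ : N →+* N).comp (algebraMap (𝓞 K) N) = algebraMap (𝓞 K) N := by
    ext a
    change σ (algebraMap (𝓞 K) N a) = _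
    rw [IsScalarTower.algebraMap_apply (𝓞 K) K N, σ.commutes]
  rw [h1] at h
  exact h.symm

theorem gal_mem_rootSet (f : (𝓞 K)[X]) (σ : N ≃ₐ[K] N) {x : N} (hx : x ∈ f.rootSet N) :
    σ x ∈ f.rootSet N := by
  rw [mem_rootSet'] at hx ⊢
  exact ⟨hx.1, by rw [aeval_gal, hx.2, map_zero]⟩

/-- the action of `Gal(N/K)` on the roots of `f` in `N` -/
noncomputable def permRoots (f : (𝓞 K)[X]) : (N ≃ₐ[K] N) →* Equiv.Perm (f.rootSet N) where
  toFun σ :=
    { toFun := fun x => ⟨σ x, gal_mem_rootSet f σ x.2⟩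
      invFun := fun x => ⟨σ⁻¹ x, gal_mem_rootSet f σ⁻¹ x.2⟩
      left_inv := fun x => Subtype.ext (σ.symm_apply_apply x)
      right_inv := fun x => Subtype.ext (σ.apply_symm_apply x) }
  map_one' := rfl
  map_mul' _ _ := rfl

theorem coe_permRoots (f : (𝓞 K)[X]) (σ : N ≃ₐ[K] N) (x : f.rootSet N) :
    ((permRoots f σ x : f.rootSet N) : N) = σ x := rfl

open Classical in
/-- the lengths of the cycles of a permutation of the roots of `f` in `N` -/
noncomputable def cycRoots (f : (𝓞 K)[X]) (s : Equiv.Perm (f.rootSet N)) : Multiset ℕ :=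
  s.partition.parts

end Defs

variable {K N : Type*} [Field K] [NumberField K] [Field N] [NumberField N] [Algebra K N]

/-- the roots are integral -/
theorem exists_roots {f : (𝓞 K)[X]} (hf : f.Monic)
    (hs : (f.map (algebraMap (𝓞 K) N)).Splits) :
    ∃ s : Multiset (𝓞 N), s.map (algebraMap (𝓞 N) N) = (f.map (algebraMap (𝓞 K) N)).roots ∧
      f.map (algebraMap (𝓞 K) (𝓞 N)) = (s.map fun a => X - C a).prod := by
  have hint : ∀ x ∈ (f.map (algebraMap (𝓞 K) N)).roots, ∃ y : 𝓞 N, algebraMap (𝓞 N) N y = x := by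
    intro x hx
    have hx1 : (f.map (algebraMap (𝓞 K) N)).IsRoot x := isRoot_of_mem_roots hx
    have hx2 : IsIntegral (𝓞 K) x := ⟨f, hf, by rw [← eval_map]; exact hx1⟩
    have hx3 : IsIntegral ℤ x := isIntegral_trans (R := ℤ) (A := 𝓞 K) x hx2
    exact ⟨⟨x, hx3⟩, rfl⟩
  choose! g hg using hint
  refine ⟨(f.map (algebraMap (𝓞 K) N)).roots.map g, ?_, ?_⟩
  · rw [Multiset.map_map]
    exact (Multiset.map_congr rfl hg).trans (Multiset.map_id _)
  · apply Polynomial.map_injective (algebraMap (𝓞 N) N) RingOfIntegers.coe_injective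
    rw [Polynomial.map_map, Polynomial.map_multiset_prod, Multiset.map_map, Multiset.map_map]
    have h1 : (algebraMap (𝓞 N) N).comp (algebraMap (𝓞 K) (𝓞 N)) = algebraMap (𝓞 K) N := rfl
    rw [h1]
    have h2 := hs.eq_prod_roots_of_monic (hf.map _)
    conv_lhs => rw [h2]
    congr 1
    refine Multiset.map_congr rfl fun x hx => ?_
    simp only [Function.comp_apply, Polynomial.map_sub, map_X, map_C, hg x hx]

variable [IsGalois K N]

/-- powers of a Frobenius element modulo `w` -/
theorem mk_pow_smul {w : HeightOneSpectrum (𝓞 N)} {σ : N ≃ₐ[K] N}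
    (hσ : IsArithFrobAt (𝓞 K) σ w.asIdeal) (n : ℕ) (y : 𝓞 N) :
    Ideal.Quotient.mk w.asIdeal ((σ ^ n) • y) = Ideal.Quotient.mk w.asIdeal y ^
      Nat.card (𝓞 K ⧸ (w.under (𝓞 K)).asIdeal) ^ n := by
  induction n generalizing y with
  | zero => rw [pow_zero, pow_zero, pow_one, one_smul]
  | succ n ih =>
    rw [pow_succ, mul_smul, ih, pow_succ', pow_mul]
    congr 1
    have h1 := hσ y
    rw [← Ideal.Quotient.eq_zero_iff_mem, map_sub, map_pow, sub_eq_zero] at h1
    exact h1

open Classical in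
/-- **Factors modulo `v` and roots fixed by the powers of Frobenius.** -/
theorem sum_facType {f : (𝓞 K)[X]} (hf : f.Monic) (hs : (f.map (algebraMap (𝓞 K) N)).Splits)
    (hnd : (f.map (algebraMap (𝓞 K) N)).roots.Nodup) {v : HeightOneSpectrum (𝓞 K)}
    {w : HeightOneSpectrum (𝓞 N)} (hw : w.under (𝓞 K) = v) {σ : N ≃ₐ[K] N}
    (hσ : IsArithFrobAt (𝓞 K) σ w.asIdeal)
    (hdist : ∀ x y : 𝓞 N, aeval x f = 0 → aeval y f = 0 → x - y ∈ w.asIdeal → x = y) (n : ℕ) :
    ((facType f v).filter (· ∣ n)).sum =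
      Nat.card {x : f.rootSet N // (permRoots f σ ^ n) x = x} := by
  subst hw
  obtain ⟨s, hs1, hs2⟩ := exists_roots (N := N) hf hs
  let _ : Field (𝓞 K ⧸ (w.under (𝓞 K)).asIdeal) := LT.Tower.Fr.fieldQuot (w.under (𝓞 K))
  let _ : Field (𝓞 N ⧸ w.asIdeal) := LT.Tower.Fr.fieldQuot w
  have hfin : Finite (𝓞 K ⧸ (w.under (𝓞 K)).asIdeal) := by
    have h1 : Ideal.absNorm (w.under (𝓞 K)).asIdeal ≠ 0 := fun h =>
      (w.under (𝓞 K)).ne_bot (Ideal.absNorm_eq_zero_iff.mp h)
    exact Nat.finite_of_card_ne_zero h1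
  let j : (𝓞 K ⧸ (w.under (𝓞 K)).asIdeal) →+* (𝓞 N ⧸ w.asIdeal) :=
    Ideal.quotientMap w.asIdeal (algebraMap (𝓞 K) (𝓞 N)) le_rfl
  -- the roots modulo `w`
  have hmap : (f.map (Ideal.Quotient.mk (w.under (𝓞 K)).asIdeal)).map j =
      ((s.map (Ideal.Quotient.mk w.asIdeal)).map fun a => X - C a).prod := by
    have h1 : j.comp (Ideal.Quotient.mk (w.under (𝓞 K)).asIdeal) =
        (Ideal.Quotient.mk w.asIdeal).comp (algebraMap (𝓞 K) (𝓞 N)) := by
      ext x
      rfl
    rw [Polynomial.map_map, h1, ← Polynomial.map_map, hs2, Polynomial.map_multiset_prod,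
      Multiset.map_map, Multiset.map_map]
    congr 1
    refine Multiset.map_congr rfl fun x _ => ?_
    simp only [Function.comp_apply, Polynomial.map_sub, map_X, map_C]
  have hroots : ((f.map (Ideal.Quotient.mk (w.under (𝓞 K)).asIdeal)).map j).roots =
      s.map (Ideal.Quotient.mk w.asIdeal) := by
    rw [hmap, roots_multiset_prod_X_sub_C]
  have hcard : s.card = f.natDegree := by
    have h1 := congrArg Multiset.card hs1
    rw [Multiset.card_map, splits_iff_card_roots.mp hs, hf.natDegree_map] at h1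
    exact h1
  have hF0 : f.map (Ideal.Quotient.mk (w.under (𝓞 K)).asIdeal) ≠ 0 := (hf.map _).ne_zero
  have key := FacFin.countP_roots j hF0 (by
    rw [hroots, Multiset.card_map, hcard, hf.natDegree_map]) n
  rw [hroots, Multiset.countP_map] at key
  have hnd' : s.Nodup := Multiset.Nodup.of_map (algebraMap (𝓞 N) N) (hs1 ▸ hnd)
  have hmem : ∀ y : 𝓞 N, y ∈ s ↔ aeval y f = 0 := by
    intro y
    have h1 : aeval y f = (f.map (algebraMap (𝓞 K) (𝓞 N))).eval y := by
      rw [eval_map, aeval_def]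
    rw [h1, hs2, eval_multiset_prod, Multiset.map_map, Multiset.prod_eq_zero_iff, Multiset.mem_map]
    constructor
    · intro h
      exact ⟨y, h, by simp⟩
    · rintro ⟨z, hz, h⟩
      simp only [Function.comp_apply, eval_sub, eval_X, eval_C, sub_eq_zero] at h
      rwa [h]
  refine Eq.trans key.symm ?_
  have hc1 := Nat.subtype_card (p := fun y : 𝓞 N => y ∈ s ∧ Ideal.Quotient.mk w.asIdeal y ^
    Nat.card (𝓞 K ⧸ (w.under (𝓞 K)).asIdeal) ^ n = Ideal.Quotient.mk w.asIdeal y)
    (s.filter fun y : 𝓞 N => Ideal.Quotient.mk w.asIdeal y ^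
      Nat.card (𝓞 K ⧸ (w.under (𝓞 K)).asIdeal) ^ n = Ideal.Quotient.mk w.asIdeal y).toFinset
    (fun y => by rw [Multiset.mem_toFinset, Multiset.mem_filter])
  rw [Multiset.toFinset_card_of_nodup (hnd'.filter _)] at hc1
  rw [← hc1]
  -- the bijection
  have hcoe : ∀ y : 𝓞 N, algebraMap (𝓞 N) N (aeval y f) = aeval (algebraMap (𝓞 N) N y) f :=
    fun y => (aeval_algebraMap_apply N y f).symm
  have hrt : ∀ y : 𝓞 N, y ∈ s → algebraMap (𝓞 N) N y ∈ f.rootSet N := by
    intro y hy
    rw [mem_rootSet']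
    exact ⟨(hf.map _).ne_zero, by rw [← hcoe, (hmem y).mp hy, map_zero]⟩
  have hfix : ∀ x : f.rootSet N, (permRoots f σ ^ n) x = x ↔ (σ ^ n) (x : N) = x := by
    intro x
    rw [← map_pow, Subtype.ext_iff]
    rfl
  have hsm : ∀ y : 𝓞 N, y ∈ s → ((σ ^ n) • y) ∈ s := by
    intro y hy
    rw [hmem]
    apply RingOfIntegers.coe_injective
    rw [map_zero, hcoe]
    change aeval ((σ ^ n) (algebraMap (𝓞 N) N y)) f = 0
    rw [aeval_gal, ← hcoe, (hmem y).mp hy, map_zero, map_zero]
  have hiff : ∀ y : 𝓞 N, y ∈ s → (Ideal.Quotient.mk w.asIdeal y ^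
      Nat.card (𝓞 K ⧸ (w.under (𝓞 K)).asIdeal) ^ n = Ideal.Quotient.mk w.asIdeal y ↔
      (σ ^ n) • y = y) := by
    intro y hy
    rw [← mk_pow_smul hσ n y]
    constructor
    · intro h
      refine hdist _ _ ((hmem _).mp (hsm y hy)) ((hmem y).mp hy) ?_
      rw [← Ideal.Quotient.eq_zero_iff_mem, map_sub, h, sub_self]
    · intro h
      rw [h]
  refine Nat.card_congr (Equiv.ofBijective (fun y => ⟨⟨algebraMap (𝓞 N) N y.1, hrt y.1 y.2.1⟩,
    ?_⟩) ⟨?_, ?_⟩)
  · rw [hfix]
    exact congrArg (algebraMap (𝓞 N) N) ((hiff y.1 y.2.1).mp y.2.2)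
  · intro y y' h
    have h1 : algebraMap (𝓞 N) N y.1 = algebraMap (𝓞 N) N y'.1 :=
      congrArg (fun x : {x : f.rootSet N // (permRoots f σ ^ n) x = x} => ((x.1 : f.rootSet N) : N)) h
    exact Subtype.ext (RingOfIntegers.coe_injective h1)
  · rintro ⟨⟨x, hx⟩, hx'⟩
    have h1 : x ∈ (f.map (algebraMap (𝓞 K) N)).roots := by
      rw [mem_roots (hf.map _).ne_zero, IsRoot.def, eval_map, ← aeval_def]
      exact (mem_rootSet'.mp hx).2
    rw [← hs1, Multiset.mem_map] at h1
    obtain ⟨y, hy, rfl⟩ := h1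
    refine ⟨⟨y, hy, (hiff y hy).mpr (RingOfIntegers.coe_injective ?_)⟩, rfl⟩
    exact (hfix _).mp hx'

/-- **Factors modulo `v` and cycles of Frobenius** (Dedekind): at every place `v` at which the roots
of `f` stay different, the degrees of the irreducible factors of `f mod v` are the lengths of the
cycles of a Frobenius element of `v` on the roots of `f`. -/
theorem facType_eq {f : (𝓞 K)[X]} (hf : f.Monic) (hs : (f.map (algebraMap (𝓞 K) N)).Splits)
    (hnd : (f.map (algebraMap (𝓞 K) N)).roots.Nodup) {v : HeightOneSpectrum (𝓞 K)}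
    {w : HeightOneSpectrum (𝓞 N)} (hw : w.under (𝓞 K) = v) {σ : N ≃ₐ[K] N}
    (hσ : IsArithFrobAt (𝓞 K) σ w.asIdeal)
    (hdist : ∀ x y : 𝓞 N, aeval x f = 0 → aeval y f = 0 → x - y ∈ w.asIdeal → x = y) :
    facType f v = cycRoots f (permRoots f σ) := by
  classical
  rw [cycRoots]
  convert Frob.parts_eq (s := permRoots f σ) (m := facType f v) (fun x hx => ?_) fun n =>
    sum_facType hf hs hnd hw hσ hdist n
  let _ : Field (𝓞 K ⧸ v.asIdeal) := LT.Tower.Fr.fieldQuot v
  obtain ⟨g, hg, rfl⟩ := Multiset.mem_map.mp hx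
  exact (UniqueFactorizationMonoid.irreducible_of_factor g hg).natDegree_pos

/-- the roots stay different at almost all places -/
theorem finite_not_distinct {f : (𝓞 K)[X]} (hf : f.Monic)
    (hs : (f.map (algebraMap (𝓞 K) N)).Splits) :
    {v : HeightOneSpectrum (𝓞 K) | ¬ ∀ w : HeightOneSpectrum (𝓞 N), w.under (𝓞 K) = v →
      ∀ x y : 𝓞 N, aeval x f = 0 → aeval y f = 0 → x - y ∈ w.asIdeal → x = y}.Finite := by
  classical
  obtain ⟨s, hs1, hs2⟩ := exists_roots (N := N) hf hs
  have hmem : ∀ y : 𝓞 N, aeval y f = 0 → y ∈ s := by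
    intro y h
    have h1 : aeval y f = (f.map (algebraMap (𝓞 K) (𝓞 N))).eval y := by
      rw [eval_map, aeval_def]
    rw [h1, hs2, eval_multiset_prod, Multiset.map_map, Multiset.prod_eq_zero_iff,
      Multiset.mem_map] at h
    obtain ⟨z, hz, h⟩ := h
    simp only [Function.comp_apply, eval_sub, eval_X, eval_C, sub_eq_zero] at h
    rwa [h]
  let δ : 𝓞 N := ∏ q ∈ (s.toFinset ×ˢ s.toFinset).filter fun q => q.1 ≠ q.2, (q.1 - q.2)
  have hδ : δ ≠ 0 := Finset.prod_ne_zero_iff.mpr fun q hq =>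
    sub_ne_zero.mpr (Finset.mem_filter.mp hq).2
  have hfin := Ideal.finite_factors (R := 𝓞 N) (I := Ideal.span {δ})
    (by rwa [Ne, Ideal.zero_eq_bot, Ideal.span_singleton_eq_bot])
  refine (hfin.image (fun w => w.under (𝓞 K))).subset ?_
  intro v hv
  rw [Set.mem_ofPred_eq] at hv
  push Not at hv
  obtain ⟨w, hw, x, y, hx, hy, hxy, hne⟩ := hv
  refine ⟨w, ?_, hw⟩
  rw [Set.mem_ofPred_eq, Ideal.dvd_span_singleton]
  have h1 : (x, y) ∈ (s.toFinset ×ˢ s.toFinset).filter fun q => q.1 ≠ q.2 := by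
    rw [Finset.mem_filter, Finset.mem_product, Multiset.mem_toFinset, Multiset.mem_toFinset]
    exact ⟨⟨hmem x hx, hmem y hy⟩, hne⟩
  exact Ideal.mem_of_dvd _ (Finset.dvd_prod_of_mem (fun q : 𝓞 N × 𝓞 N => q.1 - q.2) h1) hxy

/-- **Chebotarev's theorem for polynomials**, for a property `P` of multisets. -/
theorem hasNatDensity_of_facType {f : (𝓞 K)[X]} (hf : f.Monic)
    (hs : (f.map (algebraMap (𝓞 K) N)).Splits)
    (hnd : (f.map (algebraMap (𝓞 K) N)).roots.Nodup) (P : Multiset ℕ → Prop) :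
    HasNatDensity {v : HeightOneSpectrum (𝓞 K) | P (facType f v)}
      ((Nat.card {σ : N ≃ₐ[K] N // P (cycRoots f (permRoots f σ))} : ℝ) /
        Nat.card (N ≃ₐ[K] N)) := by
  classical
  have hC : ∀ g c : N ≃ₐ[K] N, c ∈ {σ : N ≃ₐ[K] N | P (cycRoots f (permRoots f σ))} →
      g * c * g⁻¹ ∈ {σ : N ≃ₐ[K] N | P (cycRoots f (permRoots f σ))} := by
    intro g c hc
    have h2 : cycRoots f (permRoots f (g * c * g⁻¹)) = cycRoots f (permRoots f c) := by
      rw [cycRoots, cycRoots]
      congr 1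
      refine (Equiv.Perm.partition_eq_of_isConj.mp ?_).symm
      rw [isConj_iff]
      exact ⟨permRoots f g, by rw [map_mul, map_mul, map_inv]⟩
    rw [Set.mem_ofPred_eq, h2]
    exact hc
  refine (hasNatDensity_hasFrobIn hC).congr_finite ((finite_not_distinct hf hs).subset ?_)
  intro v hv hd
  rw [Set.mem_symmDiff] at hv
  have hiff : v ∈ {v : HeightOneSpectrum (𝓞 K) | HasFrobIn
      {σ : N ≃ₐ[K] N | P (cycRoots f (permRoots f σ))} v} ↔
      v ∈ {v : HeightOneSpectrum (𝓞 K) | P (facType f v)} := by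
    constructor
    · rintro ⟨w, hw, σ, hσ, hF⟩
      rw [Set.mem_ofPred_eq, facType_eq hf hs hnd hw hF (hd w hw)]
      exact hσ
    · intro h
      obtain ⟨w, hw⟩ := exists_above (L := N) v
      obtain ⟨σ, hF⟩ := exists_isArithFrobAt (K := K) w
      refine ⟨w, hw, σ, ?_, hF⟩
      rw [Set.mem_ofPred_eq, facType_eq hf hs hnd hw hF (hd w hw)] at h
      exact h
  rcases hv with h | h
  · exact h.2 (hiff.mp h.1)
  · exact h.2 (hiff.mpr h.1)

/-- **Chebotarev's theorem for polynomials**: the places `v` of `K` such that the irreducible factors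
of `f mod v` have the degrees `m` have natural density
`#{σ ∈ Gal(N/K) : the cycle type of σ on the roots of f is m} / |Gal(N/K)|`. -/
theorem hasNatDensity_facType {f : (𝓞 K)[X]} (hf : f.Monic)
    (hs : (f.map (algebraMap (𝓞 K) N)).Splits)
    (hnd : (f.map (algebraMap (𝓞 K) N)).roots.Nodup) (m : Multiset ℕ) :
    HasNatDensity {v : HeightOneSpectrum (𝓞 K) | facType f v = m}
      ((Nat.card {σ : N ≃ₐ[K] N // cycRoots f (permRoots f σ) = m} : ℝ) /
        Nat.card (N ≃ₐ[K] N)) :=
  hasNatDensity_of_facType hf hs hnd fun m' => m' = m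

/-! ### Irreducibility modulo `v` -/

theorem irreducible_map_iff {f : (𝓞 K)[X]} (hf : f.Monic) (v : HeightOneSpectrum (𝓞 K)) :
    Irreducible (f.map (Ideal.Quotient.mk v.asIdeal)) ↔ facType f v = {f.natDegree} := by
  let _ : Field (𝓞 K ⧸ v.asIdeal) := LT.Tower.Fr.fieldQuot v
  have h0 : f.map (Ideal.Quotient.mk v.asIdeal) ≠ 0 := (hf.map _).ne_zero
  constructor
  · intro h
    obtain ⟨g, hg⟩ := Multiset.card_eq_one.mp
      (UniqueFactorizationMonoid.card_factors_of_irreducible h)
    have h2 := UniqueFactorizationMonoid.factors_prod h0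
    rw [hg, Multiset.prod_singleton] at h2
    have h1 : facType f v = (({g} : Multiset _).map natDegree) := by
      rw [facType, hg]
    have h3 := natDegree_eq_of_degree_eq (degree_eq_degree_of_associated h2)
    rw [h1, Multiset.map_singleton, h3, hf.natDegree_map]
  · intro h
    have h1 : (UniqueFactorizationMonoid.factors
        (f.map (Ideal.Quotient.mk v.asIdeal))).map natDegree = {f.natDegree} := h
    obtain ⟨g, hg, -⟩ := Multiset.map_eq_singleton.mp h1
    have h2 := UniqueFactorizationMonoid.factors_prod h0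
    rw [hg, Multiset.prod_singleton] at h2
    have h4 : g ∈ UniqueFactorizationMonoid.factors (f.map (Ideal.Quotient.mk v.asIdeal)) := by
      rw [hg]
      exact Multiset.mem_singleton_self g
    exact h2.irreducible (UniqueFactorizationMonoid.irreducible_of_factor g h4)

/-- **Irreducibility modulo `v`**: the places `v` such that `f mod v` is irreducible have natural
density `#{σ ∈ Gal(N/K) : σ permutes the roots of f in one cycle} / |Gal(N/K)|`. -/
theorem hasNatDensity_irreducible_map {f : (𝓞 K)[X]} (hf : f.Monic)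
    (hs : (f.map (algebraMap (𝓞 K) N)).Splits)
    (hnd : (f.map (algebraMap (𝓞 K) N)).roots.Nodup) :
    HasNatDensity {v : HeightOneSpectrum (𝓞 K) |
        Irreducible (f.map (Ideal.Quotient.mk v.asIdeal))}
      ((Nat.card {σ : N ≃ₐ[K] N // cycRoots f (permRoots f σ) = {f.natDegree}} : ℝ) /
        Nat.card (N ≃ₐ[K] N)) := by
  simp only [irreducible_map_iff hf]
  exact hasNatDensity_facType hf hs hnd {f.natDegree}

end Fermat.Agent.Cor.ChebK
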