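import Fermat.Agent.Corollaries.ChebK.Main

/-!
# Complete splitting

`L / K` an extension of number fields, `v` a place of `K`.

* `splitsCompletely_iff`: `v` splits completely in `L` (the number of primes above `v` is `[L : K]`)
  if and only if `v` is unramified and all the residue degrees are `1`.
* `splitsCompletely_iff_frob`: for a Galois extension, if and only if `v` is unramified with trivial
  Frobenius.
* `hasDensity_splitsCompletely`: for a Galois extension these `v` have density `1 / [L : K]`.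
-/

set_option autoImplicit false
set_option linter.unusedSectionVars false

namespace Fermat.Agent.Cor.ChebK

open NumberField IsDedekindDomain Fermat.Agent.Frob Fermat.Agent.FrobDensity
open Fermat.Agent.LT.Tower.Fr Filter Topology

open scoped Classical Pointwise

variable {K L : Type*} [Field K] [NumberField K] [Field L] [NumberField L] [Algebra K L]

variable (L) in
/-- `v` splits completely in `L` -/
def SplitsCompletely (v : HeightOneSpectrum (𝓞 K)) : Prop :=
  (v.asIdeal.primesOver (𝓞 L)).ncard = Module.finrank K L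

theorem one_lt_absNorm (v : HeightOneSpectrum (𝓞 K)) : 1 < Ideal.absNorm v.asIdeal := by
  have h0 : Ideal.absNorm v.asIdeal ≠ 0 := fun h => v.ne_bot (Ideal.absNorm_eq_zero_iff.mp h)
  have h1 : Ideal.absNorm v.asIdeal ≠ 1 := fun h => v.isPrime.ne_top (Ideal.absNorm_eq_one_iff.mp h)
  omega

theorem liesOver_iff_under {v : HeightOneSpectrum (𝓞 K)} {w : HeightOneSpectrum (𝓞 L)} :
    w.asIdeal.LiesOver v.asIdeal ↔ w.under (𝓞 K) = v := by
  constructor
  · intro h
    exact HeightOneSpectrum.ext h.over.symm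
  · rintro rfl
    exact ⟨rfl⟩

/-- The norm in terms of the residue degree. -/
theorem absNorm_eq_pow (w : HeightOneSpectrum (𝓞 L)) :
    Ideal.absNorm w.asIdeal =
      Ideal.absNorm (w.under (𝓞 K)).asIdeal ^ (w.asIdeal.inertiaDeg (𝓞 K)) := by
  have h1 : w.asIdeal.LiesOver (w.under (𝓞 K)).asIdeal := liesOver_iff_under.mpr rfl
  have h2 := (w.under (𝓞 K)).isPrime
  have h3 : (w.under (𝓞 K)).asIdeal.IsMaximal := (w.under (𝓞 K)).isMaximal
  have h4 : w.asIdeal.IsMaximal := w.isMaximal
  rw [Ideal.absNorm_eq_pow_inertiaDeg'_of_liesOver w.asIdeal (w.under (𝓞 K)).asIdeal h2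
    (w.under (𝓞 K)).ne_bot, Ideal.inertiaDeg'_eq_inertiaDeg]

theorem absNorm_eq_iff (w : HeightOneSpectrum (𝓞 L)) :
    Ideal.absNorm w.asIdeal = Ideal.absNorm (w.under (𝓞 K)).asIdeal ↔
      w.asIdeal.inertiaDeg (𝓞 K) = 1 := by
  rw [absNorm_eq_pow (K := K) w]
  have h := one_lt_absNorm (w.under (𝓞 K))
  constructor
  · intro h1
    exact Nat.pow_right_injective h (h1.trans (pow_one _).symm)
  · intro h1
    rw [h1, pow_one]

theorem absNorm_le (w : HeightOneSpectrum (𝓞 L)) :
    Ideal.absNorm (w.under (𝓞 K)).asIdeal ≤ Ideal.absNorm w.asIdeal := by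
  rw [absNorm_eq_pow (K := K) w]
  have h3 := w.isPrime
  exact Nat.le_self_pow (w.asIdeal.inertiaDeg_pos (𝓞 K)).ne' _

/-- **Complete splitting**, in terms of ramification and residue degrees. -/
theorem splitsCompletely_iff {v : HeightOneSpectrum (𝓞 K)} : SplitsCompletely L v ↔
    Unr L v ∧ ∀ w : HeightOneSpectrum (𝓞 L), w.under (𝓞 K) = v →
      Ideal.absNorm w.asIdeal = Ideal.absNorm v.asIdeal := by
  have hv := v.isPrime
  have : Fintype (v.asIdeal.primesOver (𝓞 L)) :=
    (Algebra.QuasiFinite.finite_primesOver v.asIdeal).fintype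
  have hfr : Module.finrank (𝓞 K) (𝓞 L) = Module.finrank K L := by
    exact (IsFractionRing.finrank_eq (𝓞 K) K (𝓞 L) L).symm
  have hsum := Ideal.sum_ramification_inertia_eq_finrank v.asIdeal (𝓞 L)
  have hpos : ∀ q : v.asIdeal.primesOver (𝓞 L),
      1 ≤ q.1.ramificationIdx (𝓞 K) * q.1.inertiaDeg (𝓞 K) := by
    intro q
    have := q.2.1
    exact Nat.mul_pos (q.1.ramificationIdx_pos (𝓞 K)) (q.1.inertiaDeg_pos (𝓞 K))
  have hcard : (v.asIdeal.primesOver (𝓞 L)).ncard = ∑ _q : v.asIdeal.primesOver (𝓞 L), 1 := by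
    rw [Finset.sum_const, Finset.card_univ, smul_eq_mul, mul_one, Set.fintypeCard_eq_ncard]
  have hkey : SplitsCompletely L v ↔ ∀ q : v.asIdeal.primesOver (𝓞 L),
      q.1.ramificationIdx (𝓞 K) * q.1.inertiaDeg (𝓞 K) = 1 := by
    unfold SplitsCompletely
    rw [hcard, ← hfr, ← hsum, Finset.sum_eq_sum_iff_of_le fun q _ => hpos q]
    exact ⟨fun h q => (h q (Finset.mem_univ q)).symm, fun h q _ => (h q).symm⟩
  rw [hkey]
  constructor
  · intro h
    refine ⟨fun w hw => ?_, fun w hw => ?_⟩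
    · have h1 := h ⟨w.asIdeal, w.isPrime, liesOver_iff_under.mpr hw⟩
      have h2 := w.isPrime
      exact Ideal.ramificationIdx_eq_one_iff.mp (Nat.eq_one_of_mul_eq_one_right h1)
    · have h1 := h ⟨w.asIdeal, w.isPrime, liesOver_iff_under.mpr hw⟩
      rw [← hw]
      exact (absNorm_eq_iff w).mpr (Nat.eq_one_of_mul_eq_one_left h1)
  · rintro ⟨h1, h2⟩ ⟨q, hq, hover⟩
    let w : HeightOneSpectrum (𝓞 L) := ⟨q, hq, Ideal.ne_bot_of_liesOver_of_ne_bot v.ne_bot q⟩
    have hw : w.under (𝓞 K) = v := liesOver_iff_under.mp hover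
    have h3 : q.ramificationIdx (𝓞 K) = 1 := Ideal.ramificationIdx_eq_one_iff.mpr (h1 w hw)
    have h4 : q.inertiaDeg (𝓞 K) = 1 := by
      have h5 := h2 w hw
      rw [← hw] at h5
      exact (absNorm_eq_iff w).mp h5
    change q.ramificationIdx (𝓞 K) * q.inertiaDeg (𝓞 K) = 1
    rw [h3, h4]

/-! ### Residue fields -/

theorem natCard_quot' (w : HeightOneSpectrum (𝓞 L)) :
    Nat.card (𝓞 L ⧸ w.asIdeal) = Ideal.absNorm w.asIdeal := rfl

theorem sub_pow_absNorm_mem (w : HeightOneSpectrum (𝓞 L)) (x : 𝓞 L) :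
    x - x ^ Ideal.absNorm w.asIdeal ∈ w.asIdeal := by
  have := w.isMaximal
  let _ : Field (𝓞 L ⧸ w.asIdeal) := Ideal.Quotient.field w.asIdeal
  have hfin : Finite (𝓞 L ⧸ w.asIdeal) :=
    Nat.finite_of_card_ne_zero (by rw [natCard_quot']; have := one_lt_absNorm w; omega)
  have : Fintype (𝓞 L ⧸ w.asIdeal) := Fintype.ofFinite _
  rw [← Ideal.Quotient.eq_zero_iff_mem, map_sub, map_pow, ← natCard_quot', Nat.card_eq_fintype_card,
    FiniteField.pow_card, sub_self]

/-- A place with all residues fixed by the Frobenius of the base has degree one. -/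
theorem absNorm_eq_of_forall (w : HeightOneSpectrum (𝓞 L))
    (h : ∀ x : 𝓞 L, x - x ^ Ideal.absNorm (w.under (𝓞 K)).asIdeal ∈ w.asIdeal) :
    Ideal.absNorm w.asIdeal = Ideal.absNorm (w.under (𝓞 K)).asIdeal := by
  refine le_antisymm ?_ (absNorm_le w)
  have := w.isMaximal
  let _ : Field (𝓞 L ⧸ w.asIdeal) := Ideal.Quotient.field w.asIdeal
  have hfin : Finite (𝓞 L ⧸ w.asIdeal) :=
    Nat.finite_of_card_ne_zero (by rw [natCard_quot']; have := one_lt_absNorm w; omega)
  have : Fintype (𝓞 L ⧸ w.asIdeal) := Fintype.ofFinite _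
  set q := Ideal.absNorm (w.under (𝓞 K)).asIdeal with hq
  have hq1 : 1 < q := one_lt_absNorm _
  have h1 : ∀ x : (𝓞 L ⧸ w.asIdeal)ˣ, x ^ (q - 1) = 1 := by
    intro x
    obtain ⟨y, hy⟩ := Ideal.Quotient.mk_surjective (x : 𝓞 L ⧸ w.asIdeal)
    have h2 := h y
    rw [← Ideal.Quotient.eq_zero_iff_mem, map_sub, map_pow, hy, sub_eq_zero] at h2
    have h3 : (x : 𝓞 L ⧸ w.asIdeal) * x ^ (q - 1) = x * 1 := by
      rw [mul_one, ← pow_succ', Nat.sub_add_cancel hq1.le]
      exact h2.symm
    ext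
    rw [Units.val_pow_eq_pow_val, Units.val_one]
    exact mul_left_cancel₀ x.ne_zero h3
  have h2 := (FiniteField.forall_pow_eq_one_iff (𝓞 L ⧸ w.asIdeal) (q - 1)).mp h1
  rw [← Nat.card_eq_fintype_card, natCard_quot'] at h2
  have h3 := Nat.le_of_dvd (by omega) h2
  omega

variable [IsGalois K L]

theorem isArithFrobAt_one_iff (w : HeightOneSpectrum (𝓞 L)) :
    IsArithFrobAt (𝓞 K) (1 : L ≃ₐ[K] L) w.asIdeal ↔
      Ideal.absNorm w.asIdeal = Ideal.absNorm (w.under (𝓞 K)).asIdeal := by
  constructor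
  · intro h
    refine absNorm_eq_of_forall w fun x => ?_
    have h1 := h x
    rw [card_under] at h1
    exact h1
  · intro h x
    have h1 := sub_pow_absNorm_mem w x
    rw [h] at h1
    rw [card_under]
    exact h1

/-- **Complete splitting and Frobenius**: for a Galois extension, `v` splits completely if and only
if it is unramified with trivial Frobenius. -/
theorem splitsCompletely_iff_frob {v : HeightOneSpectrum (𝓞 K)} :
    SplitsCompletely L v ↔ Unr L v ∧ HasFrobIn ({1} : Set (L ≃ₐ[K] L)) v := by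
  rw [splitsCompletely_iff]
  refine and_congr_right fun hv => ?_
  have hC : ∀ g c : L ≃ₐ[K] L, c ∈ ({1} : Set (L ≃ₐ[K] L)) → g * c * g⁻¹ ∈
      ({1} : Set (L ≃ₐ[K] L)) := by
    rintro g c rfl
    rw [mul_one, mul_inv_cancel]
    rfl
  constructor
  · intro h
    obtain ⟨w, hw⟩ := exists_above (L := L) v
    refine ⟨w, hw, 1, rfl, (isArithFrobAt_one_iff w).mpr ?_⟩
    rw [hw]
    exact h w hw
  · intro h w hw
    obtain ⟨τ, hτ⟩ := exists_isArithFrobAt (K := K) w
    have h1 : τ = 1 := (hasFrobIn_iff_forall hv hC).mp h w hw τ hτ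
    rw [h1] at hτ
    rw [(isArithFrobAt_one_iff w).mp hτ, hw]

/-- One place above `v` decides. -/
theorem splitsCompletely_iff_exists {v : HeightOneSpectrum (𝓞 K)} (hv : Unr L v) :
    SplitsCompletely L v ↔ ∃ w : HeightOneSpectrum (𝓞 L), w.under (𝓞 K) = v ∧
      Ideal.absNorm w.asIdeal = Ideal.absNorm v.asIdeal := by
  rw [splitsCompletely_iff_frob, and_iff_right hv]
  constructor
  · rintro ⟨w, rfl, τ, rfl, hτ⟩
    exact ⟨w, rfl, (isArithFrobAt_one_iff w).mp hτ⟩
  · rintro ⟨w, rfl, h⟩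
    exact ⟨w, rfl, 1, rfl, (isArithFrobAt_one_iff w).mpr h⟩

variable (K L) in
/-- **The places which split completely have density `1 / [L : K]`.** -/
theorem hasDensity_splitsCompletely :
    HasDensity {v : HeightOneSpectrum (𝓞 K) | SplitsCompletely L v}
      (1 / (Module.finrank K L : ℝ)) := by
  have h := chebotarev (K := K) (L := L) (C := {1}) (by
    rintro g c rfl
    rw [mul_one, mul_inv_cancel]
    rfl)
  have h1 : {v : HeightOneSpectrum (𝓞 K) | SplitsCompletely L v} =
      {v | Unr L v ∧ HasFrobIn ({1} : Set (L ≃ₐ[K] L)) v} :=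
    Set.ext fun v => splitsCompletely_iff_frob
  rw [h1]
  rw [Nat.card_unique, Nat.cast_one, IsGalois.card_aut_eq_finrank] at h
  exact h

variable (K L) in
theorem infinite_splitsCompletely :
    {v : HeightOneSpectrum (𝓞 K) | SplitsCompletely L v}.Infinite := by
  refine (hasDensity_splitsCompletely K L).infinite ?_
  have : 0 < Module.finrank K L := Module.finrank_pos
  positivity

end Fermat.Agent.Cor.ChebK
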