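import Fermat.Agent.Corollaries.ChebK.NatForms
import Fermat.Agent.Corollaries.ChebK.Split

/-!
# Complete splitting and natural density

The places of `K` which split completely in the Galois extension `L` have natural density
`1 / [L : K]`.
-/

set_option autoImplicit false

open NumberField Filter Topology IsDedekindDomain

namespace Fermat.Agent.Cor.ChebK

variable (K L : Type*) [Field K] [NumberField K] [Field L] [NumberField L] [Algebra K L]
  [IsGalois K L]

/-- **The places which split completely have natural density `1 / [L : K]`.** -/
theorem hasNatDensity_splitsCompletely :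
    HasNatDensity {v : HeightOneSpectrum (𝓞 K) | SplitsCompletely L v}
      (1 / (Module.finrank K L : ℝ)) := by
  have h := chebotarev_nat (K := K) (L := L) (C := {1}) (by
    rintro g c rfl
    rw [mul_one, mul_inv_cancel]
    rfl)
  have h1 : {v : HeightOneSpectrum (𝓞 K) | SplitsCompletely L v} =
      {v | Unr L v ∧ HasFrobIn ({1} : Set (L ≃ₐ[K] L)) v} :=
    Set.ext fun v => splitsCompletely_iff_frob
  rw [h1]
  rw [Nat.card_unique, Nat.cast_one, IsGalois.card_aut_eq_finrank] at h
  exact h

/-- The places which do not split completely have natural density `1 - 1 / [L : K]`. -/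
theorem hasNatDensity_not_splitsCompletely :
    HasNatDensity {v : HeightOneSpectrum (𝓞 K) | ¬ SplitsCompletely L v}
      (1 - 1 / (Module.finrank K L : ℝ)) :=
  (hasNatDensity_splitsCompletely K L).compl

/-- If all places outside a set of natural density zero split completely, then `L = K`. -/
theorem finrank_eq_one_of_splitsCompletely
    (h : HasNatDensity {v : HeightOneSpectrum (𝓞 K) | ¬ SplitsCompletely L v} 0) :
    Module.finrank K L = 1 := by
  have h1 := (hasNatDensity_not_splitsCompletely K L).unique h
  have h2 : (Module.finrank K L : ℝ) ≠ 0 := by
    have : 0 < Module.finrank K L := Module.finrank_pos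
    exact_mod_cast this.ne'
  rw [sub_eq_zero, eq_div_iff h2, one_mul] at h1
  exact_mod_cast h1

end Fermat.Agent.Cor.ChebK
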