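import Fermat.Agent.Corollaries.ChebK.NatForms
import Fermat.Agent.Corollaries.ChebK.Split
import Fermat.Agent.Corollaries.ZetaK.CycleType

/-!
# Decomposition types in an extension of number fields, with natural density

`M / K` an extension of number fields contained in the Galois extension `N / K`. For all places `v`
of `K` of prime norm outside a finite set, the residue degrees of the places of `M` above `v` are the
lengths of the cycles of the Frobenius elements of `v` on the set of `K`-embeddings `M → N`; so, for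
every multiset `m`, the places `v` such that the residue degrees above `v` are `m` have natural
density `#{σ ∈ Gal(N/K) : the cycle type of σ is m} / |Gal(N/K)|`.
-/

set_option autoImplicit false
set_option linter.unusedSectionVars false

namespace Fermat.Agent.Cor.ChebK

open NumberField IsDedekindDomain Fermat.Agent.Frob Fermat.Agent.FrobDensity
open Fermat.Agent.LT.Tower.Fr Filter Topology

/-! ### Only the places of prime norm matter -/

section Congr

variable {K : Type*} [Field K] [NumberField K] {P Q : Set (HeightOneSpectrum (𝓞 K))} {δ : ℝ}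

/-- Sets which agree on the places of prime norm `p`, `p ∤ D`, have the same natural density. -/
theorem HasNatDensity.congr_prime {D : ℕ} (hD : D ≠ 0)
    (h : ∀ v : HeightOneSpectrum (𝓞 K), (Ideal.absNorm v.asIdeal).Prime →
      ¬ Ideal.absNorm v.asIdeal ∣ D → (v ∈ P ↔ v ∈ Q)) (hP : HasNatDensity P δ) :
    HasNatDensity Q δ := by
  rw [hasNatDensity_iff]
  refine tendsto_countQ_of_eq _ hD (f := fun p => (degOneQ (· ∈ P) p : ℝ)) ?_
    (hasNatDensity_iff_degOneQ.mp hP)
  intro p hp hpD
  congr 1
  refine Nat.card_congr (Equiv.subtypeEquivRight fun v => ?_)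
  refine and_congr_right fun hv => ?_
  exact (h v (by rw [hv]; exact hp) (by rw [hv]; exact hpD)).symm

end Congr

/-! ### Decomposition types -/

section Defs

variable (K M N : Type*) [Field K] [NumberField K] [Field M] [NumberField M]
  [Field N] [NumberField N] [Algebra K M] [Algebra K N]

variable {K} in
theorem finite_placesOver (v : HeightOneSpectrum (𝓞 K)) :
    {u : HeightOneSpectrum (𝓞 M) | u.under (𝓞 K) = v}.Finite := by
  have hv := v.isPrime
  have h1 : (v.asIdeal.primesOver (𝓞 M)).Finite := Algebra.QuasiFinite.finite_primesOver v.asIdeal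
  refine Set.Finite.of_finite_image (f := HeightOneSpectrum.asIdeal) (h1.subset ?_)
    fun u _ u' _ h => HeightOneSpectrum.ext h
  rintro _ ⟨u, hu, rfl⟩
  exact ⟨u.isPrime, liesOver_iff_under.mpr hu⟩

variable {K} in
/-- the places of `M` above `v` -/
noncomputable def placesOver (v : HeightOneSpectrum (𝓞 K)) : Finset (HeightOneSpectrum (𝓞 M)) :=
  (finite_placesOver M v).toFinset

variable {K} in
/-- the residue degrees of the places of `M` above `v` -/
noncomputable def decTypeK (v : HeightOneSpectrum (𝓞 K)) : Multiset ℕ :=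
  (placesOver M v).val.map fun u => u.asIdeal.inertiaDeg (𝓞 K)

/-- the action of `Gal(N/K)` on the `K`-embeddings of `M` in `N` -/
noncomputable def permEmb : (N ≃ₐ[K] N) →* Equiv.Perm (M →ₐ[K] N) where
  toFun σ :=
    { toFun := fun j => (σ : N →ₐ[K] N).comp j
      invFun := fun j => ((σ⁻¹ : N ≃ₐ[K] N) : N →ₐ[K] N).comp j
      left_inv := fun j => by
        ext x
        exact σ.symm_apply_apply (j x)
      right_inv := fun j => by
        ext x
        exact σ.apply_symm_apply (j x) }
  map_one' := by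
    ext j x
    rfl
  map_mul' g h := by
    ext j x
    rfl

open Classical in
/-- the lengths of the cycles of a permutation of the `K`-embeddings of `M` in `N` -/
noncomputable def cycTypeK (s : Equiv.Perm (M →ₐ[K] N)) : Multiset ℕ := s.partition.parts

end Defs

variable {K M N : Type*} [Field K] [NumberField K] [Field M] [NumberField M]
  [Field N] [NumberField N] [Algebra K M] [Algebra K N]

theorem mem_placesOver {v : HeightOneSpectrum (𝓞 K)} {u : HeightOneSpectrum (𝓞 M)} :
    u ∈ placesOver M v ↔ u.under (𝓞 K) = v := by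
  rw [placesOver, Set.Finite.mem_toFinset]
  rfl

theorem permEmb_apply (σ : N ≃ₐ[K] N) (j : M →ₐ[K] N) (x : M) : permEmb K M N σ j x = σ (j x) := rfl

variable [Algebra M N] [IsScalarTower K M N] [IsGalois K N]

/-- an embedding of `M` in `ℚ̄` which agrees with `i : N → ℚ̄` on `K` has its image in `i(N)` -/
theorem exists_algHom (i : N →+* AlgebraicClosure ℚ) (t : M →+* AlgebraicClosure ℚ)
    (h : t.comp (algebraMap K M) = i.comp (algebraMap K N)) :
    ∃ j : M →ₐ[K] N, i.comp (j : M →+* N) = t := by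
  let _ : Algebra M (AlgebraicClosure ℚ) := t.toAlgebra
  have : Algebra.IsAlgebraic M N := Algebra.IsAlgebraic.tower_top (K := ℚ) M
  let t' : N →ₐ[M] AlgebraicClosure ℚ := IsAlgClosed.lift
  have ht' : (t' : N →+* AlgebraicClosure ℚ).comp (algebraMap M N) = t := RingHom.ext t'.commutes
  have h1 : (t' : N →+* AlgebraicClosure ℚ).comp (algebraMap K N) = i.comp (algebraMap K N) := by
    rw [IsScalarTower.algebraMap_eq K M N, ← RingHom.comp_assoc, ht', h,
      ← IsScalarTower.algebraMap_eq K M N]
  obtain ⟨τ, hτ⟩ := exists_comp_eq i _ h1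
  refine ⟨(τ : N →ₐ[K] N).comp (IsScalarTower.toAlgHom K M N), ?_⟩
  rw [← ht', hτ]
  rfl

/-- **Residue degrees and fixed embeddings.** -/
theorem sum_inertiaDeg {p : ℕ} (hp : p.Prime) (hK : Good K p) (hM : Good M p) (hN : Good N p)
    {v : HeightOneSpectrum (𝓞 K)} (hv : Ideal.absNorm v.asIdeal = p)
    {w : HeightOneSpectrum (𝓞 N)} (hw : w.under (𝓞 K) = v) {σ : N ≃ₐ[K] N}
    (hσ : IsArithFrobAt (𝓞 K) σ w.asIdeal) (k : ℕ) :
    ∑ u ∈ placesOver M v with u.asIdeal.inertiaDeg (𝓞 K) ∣ k, u.asIdeal.inertiaDeg (𝓞 K) =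
      Nat.card {j : M →ₐ[K] N // (permEmb K M N σ ^ k) j = j} := by
  obtain ⟨A, hA, φ, hφ⟩ := Frob.exists_frobenius p hp
  have hpv : (p : 𝓞 K) ∈ v.asIdeal := by
    rw [← hv]
    exact Ideal.absNorm_mem _
  have hpw : (p : 𝓞 N) ∈ w.asIdeal := by
    have h1 : algebraMap (𝓞 K) (𝓞 N) (p : 𝓞 K) ∈ w.asIdeal := by
      have h2 : (p : 𝓞 K) ∈ (w.under (𝓞 K)).asIdeal := by rw [hw]; exact hpv
      exact h2
    rwa [map_natCast] at h1
  obtain ⟨i, hi⟩ := exists_redτ hp hA hpw
  have hi' : Over i A w := hi
  have hcomp : (gh φ).comp i = i.comp (σ : N →+* N) :=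
    comp_eq_of_isArithFrobAt hN hA hφ hi' (by rw [hw]; exact hv) hσ
  have hpow : ∀ (k : ℕ) (x : N), (φ ^ k) (i x) = i ((σ ^ k) x) := by
    intro k
    induction k with
    | zero => exact fun x => rfl
    | succ k ih =>
      intro x
      have h1 : φ (i x) = i (σ x) := RingHom.congr_fun hcomp x
      rw [pow_succ, pow_succ, AlgEquiv.mul_apply, AlgEquiv.mul_apply, h1, ih]
  have hiK : Over (i.comp (algebraMap K N)) A v := hw ▸ hi'.under
  -- the unique embedding of `K` over `v`
  have hone : ∀ t : K →+* AlgebraicClosure ℚ, Over t A v → t = i.comp (algebraMap K N) := by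
    intro t ht
    have huniq := Classic.Emb.natCard_over (v := v) hp hK hA hφ hpv (f := 1)
      (by rw [pow_one]; exact hv)
    have hsub := (Nat.card_eq_one_iff_unique.mp huniq).1
    exact congrArg Subtype.val (hsub.allEq (⟨t, ht⟩ : {τ : K →+* AlgebraicClosure ℚ // Over τ A v})
      ⟨_, hiK⟩)
  -- step 1: embeddings in `ℚ̄`
  have e1 : Nat.card {j : M →ₐ[K] N // (permEmb K M N σ ^ k) j = j} =
      Nat.card {t : M →+* AlgebraicClosure ℚ // t.comp (algebraMap K M) =
        i.comp (algebraMap K N) ∧ (gh (φ ^ k)).comp t = t} := by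
    have hpk : ∀ j : M →ₐ[K] N, (permEmb K M N σ ^ k) j = j ↔
        (gh (φ ^ k)).comp (i.comp (j : M →+* N)) = i.comp (j : M →+* N) := by
      intro j
      rw [← map_pow]
      constructor
      · intro h
        ext x
        change (φ ^ k) (i (j x)) = i (j x)
        rw [hpow, ← permEmb_apply, h]
      · intro h
        ext x
        have h1 : (φ ^ k) (i (j x)) = i (j x) := RingHom.congr_fun h x
        rw [hpow] at h1
        exact i.injective h1
    refine Nat.card_congr (Equiv.ofBijective (fun j => ⟨i.comp (j.1 : M →+* N), ?_,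
      (hpk j.1).mp j.2⟩) ⟨?_, ?_⟩)
    · ext x
      change i (j.1 (algebraMap K M x)) = i (algebraMap K N x)
      rw [AlgHom.commutes]
    · intro j j' h
      have h1 : i.comp (j.1 : M →+* N) = i.comp (j'.1 : M →+* N) := congrArg Subtype.val h
      apply Subtype.ext
      ext x
      exact i.injective (RingHom.congr_fun h1 x)
    · rintro ⟨t, ht, ht'⟩
      obtain ⟨j, hj⟩ := exists_algHom i t ht
      exact ⟨⟨j, (hpk j).mpr (by rw [hj]; exact ht')⟩, Subtype.ext hj⟩
  -- step 2: by places of `M`
  have e2 : Nat.card {t : M →+* AlgebraicClosure ℚ // t.comp (algebraMap K M) =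
        i.comp (algebraMap K N) ∧ (gh (φ ^ k)).comp t = t} =
      ∑ u ∈ placesOver M v, Nat.card {t : M →+* AlgebraicClosure ℚ //
        Over t A u ∧ (gh (φ ^ k)).comp t = t} := by
    rw [← Finset.sum_coe_sort (placesOver M v), ← Nat.card_sigma]
    refine Nat.card_congr (Equiv.symm (Equiv.ofBijective (fun q => ⟨q.2.1, ?_, q.2.2.2⟩)
      ⟨?_, ?_⟩))
    · apply hone
      have h1 := q.2.2.1.under (F := K)
      rwa [mem_placesOver.mp q.1.2] at h1
    · rintro ⟨u, t, h1, h2⟩ ⟨u', t', h1', h2'⟩ h
      have h3 : t = t' := congrArg Subtype.val h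
      subst h3
      have h4 : u = u' := Subtype.ext (h1.unique h1')
      subst h4
      rfl
    · rintro ⟨t, h1, h2⟩
      obtain ⟨u, hu⟩ := exists_over_of_liesOver t hp hA
      have h3 : u.under (𝓞 K) = v := by
        have h4 := hu.under (F := K)
        rw [h1] at h4
        exact h4.unique hiK
      exact ⟨⟨⟨u, mem_placesOver.mpr h3⟩, t, hu, h2⟩, rfl⟩
  rw [e1, e2, Finset.sum_filter]
  refine Finset.sum_congr rfl fun u hu => ?_
  have hu' := mem_placesOver.mp hu
  have hpu : (p : 𝓞 M) ∈ u.asIdeal := by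
    have h2 : (p : 𝓞 K) ∈ (u.under (𝓞 K)).asIdeal := by rw [hu']; exact hpv
    have h1 : algebraMap (𝓞 K) (𝓞 M) (p : 𝓞 K) ∈ u.asIdeal := h2
    rwa [map_natCast] at h1
  have hnorm : Ideal.absNorm u.asIdeal = p ^ (u.asIdeal.inertiaDeg (𝓞 K)) := by
    rw [absNorm_eq_pow (K := K) u, hu', hv]
  split_ifs with hk
  · rw [← Classic.Emb.natCard_over hp hM hA hφ hpu hnorm]
    exact Nat.card_congr (Equiv.subtypeEquivRight fun t => ⟨fun h => ⟨h,
      (h.frob_pow_comp_iff hp hM hA hφ hnorm k).mpr hk⟩, fun h => h.1⟩)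
  · symm
    rw [Nat.card_eq_zero]
    exact Or.inl ⟨fun t => hk ((t.2.1.frob_pow_comp_iff hp hM hA hφ hnorm k).mp t.2.2)⟩

/-- **Decomposition types and Frobenius elements**: the residue degrees of the places of `M` above
`v` are the lengths of the cycles of a Frobenius element of `v` on the `K`-embeddings `M → N`. -/
theorem decTypeK_eq {p : ℕ} (hp : p.Prime) (hK : Good K p) (hM : Good M p) (hN : Good N p)
    {v : HeightOneSpectrum (𝓞 K)} (hv : Ideal.absNorm v.asIdeal = p)
    {w : HeightOneSpectrum (𝓞 N)} (hw : w.under (𝓞 K) = v) {σ : N ≃ₐ[K] N}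
    (hσ : IsArithFrobAt (𝓞 K) σ w.asIdeal) :
    decTypeK M v = cycTypeK K M N (permEmb K M N σ) := by
  classical
  rw [cycTypeK]
  convert Frob.parts_eq (s := permEmb K M N σ) (m := decTypeK M v) (fun x hx => ?_) fun k => ?_
  · obtain ⟨u, -, rfl⟩ := Multiset.mem_map.mp hx
    have := u.isPrime
    exact u.asIdeal.inertiaDeg_pos (𝓞 K)
  · have h1 := sum_inertiaDeg (M := M) hp hK hM hN hv hw hσ k
    rw [decTypeK, Multiset.filter_map, ← h1]
    rfl

variable (K M N) in
/-- **Chebotarev's theorem for decomposition types**, for a property `P` of multisets: the places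
`v` of `K` such that the residue degrees above `v` in `M` have the property `P` have natural density
`#{σ ∈ Gal(N/K) : the cycle type of σ has the property P} / |Gal(N/K)|`. -/
theorem hasNatDensity_of_decTypeK (P : Multiset ℕ → Prop) :
    HasNatDensity {v : HeightOneSpectrum (𝓞 K) | P (decTypeK M v)}
      ((Nat.card {σ : N ≃ₐ[K] N // P (cycTypeK K M N (permEmb K M N σ))} : ℝ) /
        Nat.card (N ≃ₐ[K] N)) := by
  classical
  obtain ⟨D₁, hD₁, h₁⟩ := exists_good K
  obtain ⟨D₂, hD₂, h₂⟩ := exists_good M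
  obtain ⟨D₃, hD₃, h₃⟩ := exists_good N
  have hC : ∀ g c : N ≃ₐ[K] N, c ∈ {σ : N ≃ₐ[K] N | P (cycTypeK K M N (permEmb K M N σ))} →
      g * c * g⁻¹ ∈ {σ : N ≃ₐ[K] N | P (cycTypeK K M N (permEmb K M N σ))} := by
    intro g c hc
    have h2 : cycTypeK K M N (permEmb K M N (g * c * g⁻¹)) =
        cycTypeK K M N (permEmb K M N c) := by
      rw [cycTypeK, cycTypeK]
      congr 1
      refine (Equiv.Perm.partition_eq_of_isConj.mp ?_).symm
      rw [isConj_iff]
      exact ⟨permEmb K M N g, by rw [map_mul, map_mul, map_inv]⟩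
    rw [Set.mem_ofPred_eq, h2]
    exact hc
  refine (hasNatDensity_hasFrobIn hC).congr_prime (D := D₁ * D₂ * D₃)
    (mul_ne_zero (mul_ne_zero hD₁ hD₂) hD₃) fun v hv hvD => ?_
  have hg₁ := h₁ _ hv fun h => hvD (Dvd.dvd.mul_right (Dvd.dvd.mul_right h D₂) D₃)
  have hg₂ := h₂ _ hv fun h => hvD (Dvd.dvd.mul_right (Dvd.dvd.mul_left h D₁) D₃)
  have hg₃ := h₃ _ hv fun h => hvD (Dvd.dvd.mul_left h (D₁ * D₂))
  constructor
  · rintro ⟨w, hw, σ, hσ, hF⟩
    rw [Set.mem_ofPred_eq, decTypeK_eq hv hg₁ hg₂ hg₃ rfl hw hF]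
    exact hσ
  · intro h
    obtain ⟨w, hw⟩ := exists_above (L := N) v
    obtain ⟨σ, hF⟩ := exists_isArithFrobAt (K := K) w
    refine ⟨w, hw, σ, ?_, hF⟩
    rw [Set.mem_ofPred_eq, decTypeK_eq hv hg₁ hg₂ hg₃ rfl hw hF] at h
    exact h

variable (K M N) in
/-- **Decomposition types in `M / K`**: the places `v` of `K` such that the residue degrees of the
places of `M` above `v` form the multiset `m` have natural density
`#{σ ∈ Gal(N/K) : the cycle type of σ on the K-embeddings of M is m} / |Gal(N/K)|`. -/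
theorem hasNatDensity_decTypeK (m : Multiset ℕ) :
    HasNatDensity {v : HeightOneSpectrum (𝓞 K) | decTypeK M v = m}
      ((Nat.card {σ : N ≃ₐ[K] N // cycTypeK K M N (permEmb K M N σ) = m} : ℝ) /
        Nat.card (N ≃ₐ[K] N)) :=
  hasNatDensity_of_decTypeK K M N fun m' => m' = m

/-! ### Special types -/

theorem card_decTypeK (v : HeightOneSpectrum (𝓞 K)) :
    (decTypeK M v).card = (placesOver M v).card := by
  rw [decTypeK, Multiset.card_map]
  rfl

variable (K M N) in
/-- **The number of places above `v`**: the places `v` of `K` with exactly `r` places of `M` above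
have natural density `#{σ ∈ Gal(N/K) : σ has r cycles} / |Gal(N/K)|`. -/
theorem hasNatDensity_card_placesOver (r : ℕ) :
    HasNatDensity {v : HeightOneSpectrum (𝓞 K) | (placesOver M v).card = r}
      ((Nat.card {σ : N ≃ₐ[K] N // (cycTypeK K M N (permEmb K M N σ)).card = r} : ℝ) /
        Nat.card (N ≃ₐ[K] N)) := by
  have h := hasNatDensity_of_decTypeK K M N fun m => m.card = r
  simp only [card_decTypeK] at h
  exact h

/-- the places of `M` of relative degree one above `v` -/
theorem count_decTypeK (v : HeightOneSpectrum (𝓞 K)) (f : ℕ) :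
    (decTypeK M v).count f =
      Nat.card {u : HeightOneSpectrum (𝓞 M) // u.under (𝓞 K) = v ∧
        u.asIdeal.inertiaDeg (𝓞 K) = f} := by
  classical
  rw [decTypeK, Multiset.count_map]
  have h1 : Nat.card {u : HeightOneSpectrum (𝓞 M) // u.under (𝓞 K) = v ∧
      u.asIdeal.inertiaDeg (𝓞 K) = f} =
      ((placesOver M v).filter fun u => f = u.asIdeal.inertiaDeg (𝓞 K)).card := by
    rw [← Nat.subtype_card]
    intro u
    rw [Finset.mem_filter, mem_placesOver, eq_comm (a := f)]
  rw [h1]
  rfl

variable (K M N) in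
/-- **Places of degree `f`**: the places `v` of `K` with exactly `r` places of `M` of relative degree
`f` above have natural density `#{σ ∈ Gal(N/K) : σ has r cycles of length f} / |Gal(N/K)|`. -/
theorem hasNatDensity_card_deg (f r : ℕ) :
    HasNatDensity {v : HeightOneSpectrum (𝓞 K) |
        Nat.card {u : HeightOneSpectrum (𝓞 M) // u.under (𝓞 K) = v ∧
          u.asIdeal.inertiaDeg (𝓞 K) = f} = r}
      ((Nat.card {σ : N ≃ₐ[K] N // (cycTypeK K M N (permEmb K M N σ)).count f = r} : ℝ) /
        Nat.card (N ≃ₐ[K] N)) := by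
  have h := hasNatDensity_of_decTypeK K M N fun m => m.count f = r
  simp only [count_decTypeK] at h
  exact h

end Fermat.Agent.Cor.ChebK
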