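import Fermat.Agent.Corollaries.ChebK.DegOne

/-!
# Roots of polynomials modulo primes

`K` a number field, `f` a monic polynomial with coefficients in `𝓞 K`, `N / K` a finite Galois
extension in which `f` splits.

* `hasDensity_root`: the places `v` of `K` such that `f` has a root modulo `v` have a density, the
  proportion of the elements of `Gal(N/K)` which fix a root of `f`.
* `exists_fixed_root`: if `f` has a root modulo `v` for all `v` outside a set of density `0`, then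
  every element of `Gal(N/K)` fixes a root of `f`.
* `hasDensity_not_root`: if `f` is irreducible over `K` of degree `n ≥ 2`, then the `v` such that
  `f` has no root modulo `v` have a density `≥ 1 / n` (Jordan, Serre).
* `natDegree_eq_one_of_root`: if `f` is irreducible over `K` and has a root modulo `v` for all `v`
  outside a set of density `0`, then `f` is linear.
-/

set_option autoImplicit false
set_option linter.unusedSectionVars false

namespace Fermat.Agent.Cor.ChebK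

open NumberField IsDedekindDomain Fermat.Agent.Frob Fermat.Agent.FrobDensity
open Fermat.Agent.LT.Tower.Fr Filter Topology Polynomial

open scoped Classical Pointwise

section Residue

variable {K N : Type*} [Field K] [NumberField K] [Field N] [NumberField N] [Algebra K N]

/-- A residue class fixed by the Frobenius of the base comes from the base. -/
theorem exists_sub_mem {w : HeightOneSpectrum (𝓞 N)} {y : 𝓞 N}
    (h : y - y ^ Ideal.absNorm (w.under (𝓞 K)).asIdeal ∈ w.asIdeal) :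
    ∃ a : 𝓞 K, y - algebraMap (𝓞 K) (𝓞 N) a ∈ w.asIdeal := by
  have := w.isMaximal
  let _ : Field (𝓞 N ⧸ w.asIdeal) := Ideal.Quotient.field w.asIdeal
  have := (w.under (𝓞 K)).isMaximal
  let _ : Field (𝓞 K ⧸ (w.under (𝓞 K)).asIdeal) := Ideal.Quotient.field (w.under (𝓞 K)).asIdeal
  have hfin : Finite (𝓞 K ⧸ (w.under (𝓞 K)).asIdeal) :=
    Nat.finite_of_card_ne_zero (by
      rw [natCard_quot']
      have := one_lt_absNorm (w.under (𝓞 K))
      omega)
  have : Fintype (𝓞 K ⧸ (w.under (𝓞 K)).asIdeal) := Fintype.ofFinite _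
  set q := Ideal.absNorm (w.under (𝓞 K)).asIdeal with hq
  have hq1 : 1 < q := one_lt_absNorm _
  have hcard : Fintype.card (𝓞 K ⧸ (w.under (𝓞 K)).asIdeal) = q := by
    rw [← Nat.card_eq_fintype_card, natCard_quot']
  let ι : 𝓞 K ⧸ (w.under (𝓞 K)).asIdeal →+* 𝓞 N ⧸ w.asIdeal :=
    Ideal.quotientMap w.asIdeal (algebraMap (𝓞 K) (𝓞 N)) le_rfl
  let P : (𝓞 N ⧸ w.asIdeal)[X] := X ^ q - X
  have hP0 : P ≠ 0 := FiniteField.X_pow_card_sub_X_ne_zero _ hq1
  have hPd : P.natDegree = q := FiniteField.X_pow_card_sub_X_natDegree_eq _ hq1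
  have hroot : ∀ z : 𝓞 N ⧸ w.asIdeal, z ^ q = z → z ∈ P.roots.toFinset := by
    intro z hz
    rw [Multiset.mem_toFinset, mem_roots hP0, IsRoot.def, eval_sub, eval_pow, eval_X, hz, sub_self]
  set z : 𝓞 N ⧸ w.asIdeal := Ideal.Quotient.mk _ y with hz
  have hzq : z ^ q = z := by
    rw [← Ideal.Quotient.eq_zero_iff_mem, map_sub, map_pow, sub_eq_zero] at h
    exact h.symm
  have hmem : z ∈ (Finset.univ : Finset (𝓞 K ⧸ (w.under (𝓞 K)).asIdeal)).image ι := by
    by_contra hcon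
    have h1 : insert z ((Finset.univ : Finset (𝓞 K ⧸ (w.under (𝓞 K)).asIdeal)).image ι) ⊆
        P.roots.toFinset := by
      intro x hx
      rw [Finset.mem_insert, Finset.mem_image] at hx
      rcases hx with rfl | ⟨c, -, rfl⟩
      · exact hroot _ hzq
      · refine hroot _ ?_
        rw [← map_pow, ← hcard, FiniteField.pow_card]
    have h2 := Finset.card_le_card h1
    rw [Finset.card_insert_of_notMem hcon, Finset.card_image_of_injective _ ι.injective,
      Finset.card_univ, hcard] at h2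
    have h3 := (Multiset.toFinset_card_le P.roots).trans (P.card_roots' )
    omega
  rw [Finset.mem_image] at hmem
  obtain ⟨c, -, hc⟩ := hmem
  obtain ⟨a, rfl⟩ := Ideal.Quotient.mk_surjective c
  refine ⟨a, ?_⟩
  rw [← Ideal.Quotient.eq_zero_iff_mem, map_sub, sub_eq_zero]
  exact hc.symm

/-- A nonzero integer lies in only finitely many primes. -/
theorem finite_mem {x : 𝓞 N} (hx : x ≠ 0) :
    {w : HeightOneSpectrum (𝓞 N) | x ∈ w.asIdeal}.Finite := by
  have h0 : Ideal.span {x} ≠ 0 := by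
    rw [Ideal.zero_eq_bot, Ne, Ideal.span_singleton_eq_bot]
    exact hx
  refine (Ideal.finite_factors h0).subset fun w hw => ?_
  rw [Set.mem_ofPred_eq, Ideal.dvd_span_singleton]
  exact hw

end Residue

section Root

variable {K N : Type*} [Field K] [NumberField K] [Field N] [NumberField N] [Algebra K N]
  [IsGalois K N] {f : (𝓞 K)[X]}

variable (K N) in
/-- the elements of the Galois group which fix a root of `f` -/
def fixRoot (f : (𝓞 K)[X]) : Set (N ≃ₐ[K] N) := {σ | ∃ y : N, aeval y f = 0 ∧ σ y = y}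

theorem aeval_apply (g : N ≃ₐ[K] N) (y : N) : aeval (g y) f = g (aeval y f) :=
  aeval_algHom_apply (g.toAlgHom.restrictScalars (𝓞 K)) y f

theorem fixRoot_conj {g σ : N ≃ₐ[K] N} (h : σ ∈ fixRoot K N f) : g * σ * g⁻¹ ∈ fixRoot K N f := by
  obtain ⟨y, hy, hσ⟩ := h
  refine ⟨g y, ?_, ?_⟩
  · rw [aeval_apply, hy, map_zero]
  · rw [AlgEquiv.mul_apply, AlgEquiv.mul_apply, ← AlgEquiv.mul_apply g⁻¹ g, inv_mul_cancel,
      AlgEquiv.one_apply, hσ]

/-- the polynomial over the integers of `N` -/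
noncomputable abbrev fN (N : Type*) [Field N] [NumberField N] [Algebra K N] (f : (𝓞 K)[X]) :
    (𝓞 N)[X] := f.map (algebraMap (𝓞 K) (𝓞 N))

theorem fN_map : (fN N f).map (algebraMap (𝓞 N) N) = f.map (algebraMap (𝓞 K) N) := by
  rw [fN, Polynomial.map_map, ← IsScalarTower.algebraMap_eq]

theorem fN_splits (hf : f.Monic) (hs : (f.map (algebraMap (𝓞 K) N)).Splits) :
    (fN N f).Splits := by
  refine Splits.of_splits_map_of_injective (i := algebraMap (𝓞 N) N)
    (FaithfulSMul.algebraMap_injective _ _) ?_ fun a ha => ?_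
  · rwa [fN_map]
  · rw [fN_map] at ha
    have h1 := (mem_roots'.mp ha).2
    rw [IsRoot.def, eval_map] at h1
    have h2 : IsIntegral (𝓞 K) a := ⟨f, hf, h1⟩
    have h3 : IsIntegral ℤ a := isIntegral_trans a h2
    exact ⟨⟨a, h3⟩, rfl⟩

theorem mem_roots_fN (hf : f.Monic) {y : 𝓞 N} :
    y ∈ (fN N f).roots ↔ aeval (y : N) f = 0 := by
  have h1 : aeval (y : N) f = algebraMap (𝓞 N) N (aeval y f) :=
    aeval_algebraMap_apply N y f
  have h2 : (fN N f).eval y = aeval y f := by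
    rw [fN, eval_map, aeval_def]
  rw [mem_roots (hf.map _).ne_zero, IsRoot.def, h2, h1, map_eq_zero_iff _
    (FaithfulSMul.algebraMap_injective (𝓞 N) N)]

/-- the finite set of the places above which two different roots coincide -/
def bad (N : Type*) [Field N] [NumberField N] [Algebra K N] (f : (𝓞 K)[X]) :
    Set (HeightOneSpectrum (𝓞 K)) :=
  (fun w : HeightOneSpectrum (𝓞 N) => w.under (𝓞 K)) ''
    {w | ∃ y ∈ (fN N f).roots, ∃ y' ∈ (fN N f).roots, y ≠ y' ∧ y - y' ∈ w.asIdeal}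

theorem finite_bad (N : Type*) [Field N] [NumberField N] [Algebra K N] (f : (𝓞 K)[X]) :
    (bad N f).Finite := by
  refine Set.Finite.image _ ?_
  have h1 : {w : HeightOneSpectrum (𝓞 N) | ∃ y ∈ (fN N f).roots, ∃ y' ∈ (fN N f).roots,
      y ≠ y' ∧ y - y' ∈ w.asIdeal} ⊆
      ⋃ p ∈ ((fN N f).roots.toFinset ×ˢ (fN N f).roots.toFinset).filter
        (fun p => p.1 ≠ p.2), {w : HeightOneSpectrum (𝓞 N) | p.1 - p.2 ∈ w.asIdeal} := by
    rintro w ⟨y, hy, y', hy', hne, hw⟩
    rw [Set.mem_iUnion₂]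
    refine ⟨(y, y'), ?_, hw⟩
    rw [Finset.mem_filter, Finset.mem_product, Multiset.mem_toFinset, Multiset.mem_toFinset]
    exact ⟨⟨hy, hy'⟩, hne⟩
  refine Set.Finite.subset ?_ h1
  refine Set.Finite.biUnion (Finset.finite_toSet _) fun p hp => ?_
  have h2 := (Finset.mem_filter.mp hp).2
  exact finite_mem (sub_ne_zero.mpr h2)

/-- A root modulo `v` gives a root fixed by each Frobenius element above `v`. -/
theorem exists_root_of_frob (hf : f.Monic) (hs : (f.map (algebraMap (𝓞 K) N)).Splits)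
    {w : HeightOneSpectrum (𝓞 N)} (hw : w.under (𝓞 K) ∉ bad N f) {σ : N ≃ₐ[K] N}
    (hF : IsArithFrobAt (𝓞 K) σ w.asIdeal) {a : 𝓞 K} (ha : f.eval a ∈ (w.under (𝓞 K)).asIdeal) :
    σ ∈ fixRoot K N f := by
  have hg := fN_splits hf hs
  have hgm : (fN N f).Monic := hf.map _
  set q := Ideal.absNorm (w.under (𝓞 K)).asIdeal with hq
  have h1 : algebraMap (𝓞 K) (𝓞 N) (f.eval a) ∈ w.asIdeal := ha
  have h2 : algebraMap (𝓞 K) (𝓞 N) (f.eval a) =
      ((fN N f).roots.map fun y => algebraMap (𝓞 K) (𝓞 N) a - y).prod := by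
    rw [← hg.eval_eq_prod_roots_of_monic hgm, fN, eval_map, eval₂_at_apply]
  rw [h2, w.isPrime.multiset_prod_mem_iff_exists_mem] at h1
  obtain ⟨z, hz, hzw⟩ := h1
  obtain ⟨y, hy, rfl⟩ := Multiset.mem_map.mp hz
  have hy0 : (fN N f).eval y = 0 := (mem_roots'.mp hy).2
  -- the Frobenius moves `y` to a congruent root
  have h3 : σ • y - y ^ q ∈ w.asIdeal := by
    have := hF y
    rw [card_under] at this
    exact this
  have h4 : algebraMap (𝓞 K) (𝓞 N) a - algebraMap (𝓞 K) (𝓞 N) a ^ q ∈ w.asIdeal := by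
    have := sub_pow_absNorm_mem (w.under (𝓞 K)) a
    have h5 : algebraMap (𝓞 K) (𝓞 N) (a - a ^ q) ∈ w.asIdeal := this
    rwa [map_sub, map_pow] at h5
  have h5 : algebraMap (𝓞 K) (𝓞 N) a ^ q - y ^ q ∈ w.asIdeal :=
    Ideal.mem_of_dvd _ (sub_dvd_pow_sub_pow _ _ q) hzw
  have h6 : σ • y - y ∈ w.asIdeal := by
    have h7 := add_mem (sub_mem (sub_mem h3 h5) h4) hzw
    have h8 : σ • y - y ^ q - (algebraMap (𝓞 K) (𝓞 N) a ^ q - y ^ q) -
        (algebraMap (𝓞 K) (𝓞 N) a - algebraMap (𝓞 K) (𝓞 N) a ^ q) +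
        (algebraMap (𝓞 K) (𝓞 N) a - y) = σ • y - y := by
      ring
    rwa [h8] at h7
  have h7 : aeval (y : N) f = 0 := (mem_roots_fN hf).mp hy
  have h8 : σ • y ∈ (fN N f).roots := by
    rw [mem_roots_fN hf]
    change aeval (σ (y : N)) f = 0
    rw [aeval_apply, h7, map_zero]
  refine ⟨(y : N), h7, ?_⟩
  by_contra hne
  refine hw ⟨w, ⟨σ • y, h8, y, hy, fun h => hne ?_, h6⟩, rfl⟩
  exact congrArg (fun z : 𝓞 N => (z : N)) h

/-- Conversely. -/
theorem exists_root_of_mem_fixRoot (hf : f.Monic) {w : HeightOneSpectrum (𝓞 N)} {σ : N ≃ₐ[K] N}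
    (hF : IsArithFrobAt (𝓞 K) σ w.asIdeal) (hσ : σ ∈ fixRoot K N f) :
    ∃ a : 𝓞 K, f.eval a ∈ (w.under (𝓞 K)).asIdeal := by
  obtain ⟨y, hy, hσy⟩ := hσ
  have h2 : IsIntegral (𝓞 K) y := ⟨f, hf, hy⟩
  have h3 : IsIntegral ℤ y := isIntegral_trans y h2
  let y' : 𝓞 N := ⟨y, h3⟩
  have h4 := hF y'
  have h5 : σ • y' = y' := RingOfIntegers.ext hσy
  change σ • y' - _ ∈ _ at h4
  rw [card_under, h5] at h4
  obtain ⟨a, ha⟩ := exists_sub_mem h4
  refine ⟨a, ?_⟩
  change algebraMap (𝓞 K) (𝓞 N) (f.eval a) ∈ w.asIdeal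
  have h6 : algebraMap (𝓞 K) (𝓞 N) (f.eval a) = (fN N f).eval (algebraMap (𝓞 K) (𝓞 N) a) := by
    rw [fN, eval_map, eval₂_at_apply]
  have h7 : (fN N f).eval y' = 0 :=
    (mem_roots'.mp ((mem_roots_fN (y := y') hf).mpr hy)).2
  have h8 : (fN N f).eval y' - (fN N f).eval (algebraMap (𝓞 K) (𝓞 N) a) ∈ w.asIdeal :=
    Ideal.mem_of_dvd _ (sub_dvd_eval_sub _ _ _) ha
  rw [h7, zero_sub, neg_mem_iff] at h8
  rw [h6]
  exact h8

/-- **Roots modulo `v` and Frobenius elements.** -/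
theorem exists_root_iff (hf : f.Monic) (hs : (f.map (algebraMap (𝓞 K) N)).Splits)
    {v : HeightOneSpectrum (𝓞 K)} (hv : v ∉ bad N f) :
    (∃ a : 𝓞 K, f.eval a ∈ v.asIdeal) ↔ HasFrobIn (fixRoot K N f) v := by
  constructor
  · rintro ⟨a, ha⟩
    obtain ⟨w, rfl⟩ := exists_above (L := N) v
    obtain ⟨σ, hσ⟩ := exists_isArithFrobAt (K := K) w
    exact ⟨w, rfl, σ, exists_root_of_frob hf hs hv hσ ha, hσ⟩
  · rintro ⟨w, rfl, σ, hσ, hF⟩
    exact exists_root_of_mem_fixRoot hf hF hσ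

/-- **The density of the places modulo which `f` has a root.** -/
theorem hasDensity_root (hf : f.Monic) (hs : (f.map (algebraMap (𝓞 K) N)).Splits) :
    HasDensity {v : HeightOneSpectrum (𝓞 K) | ∃ a : 𝓞 K, f.eval a ∈ v.asIdeal}
      ((Nat.card {σ : N ≃ₐ[K] N // ∃ y : N, aeval y f = 0 ∧ σ y = y} : ℝ) /
        Nat.card (N ≃ₐ[K] N)) := by
  refine (chebotarev_hasFrobIn (C := fixRoot K N f) fun g c hc => fixRoot_conj hc).congr_finite
    ((finite_bad N f).subset ?_)
  intro v hv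
  by_contra h1
  rw [Set.mem_symmDiff, Set.mem_ofPred_eq, Set.mem_ofPred_eq, exists_root_iff hf hs h1] at hv
  tauto

/-- If `f` has a root modulo almost all `v`, every element of the Galois group fixes a root. -/
theorem exists_fixed_root (hf : f.Monic) (hs : (f.map (algebraMap (𝓞 K) N)).Splits)
    {Q : Set (HeightOneSpectrum (𝓞 K))} (hQ : HasDensity Q 0)
    (h : ∀ v, v ∉ Q → ∃ a : 𝓞 K, f.eval a ∈ v.asIdeal) (σ : N ≃ₐ[K] N) :
    ∃ y : N, aeval y f = 0 ∧ σ y = y := by
  obtain ⟨v, hv, hvQ⟩ := ((chebotarev_class σ).infinite_diff (class_density_pos σ)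
    (hQ.union_zero (hasDensity_of_finite (finite_bad N f)))).nonempty
  rw [Set.mem_union, not_or] at hvQ
  obtain ⟨w, rfl, hF⟩ := hv.2.exists_eq
  obtain ⟨a, ha⟩ := h _ hvQ.1
  exact exists_root_of_frob hf hs hvQ.2 hF ha

/-! ### Jordan's theorem -/

/-- the action of the Galois group on the roots -/
@[reducible] def rootAction (f : (𝓞 K)[X]) : MulAction (N ≃ₐ[K] N) {y : N // aeval y f = 0} where
  smul σ y := ⟨σ y, by rw [aeval_apply, y.2, map_zero]⟩
  one_smul _ := rfl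
  mul_smul _ _ _ := rfl

theorem mem_rootSet_iff (hf : f.Monic) {y : N} :
    y ∈ (f.map (algebraMap (𝓞 K) K)).rootSet N ↔ aeval y f = 0 := by
  rw [mem_rootSet, aeval_map_algebraMap]
  exact and_iff_right (hf.map _).ne_zero

theorem card_roots_eq (hf : f.Monic) (hirr : Irreducible (f.map (algebraMap (𝓞 K) K)))
    (hs : (f.map (algebraMap (𝓞 K) N)).Splits) :
    Finite {y : N // aeval y f = 0} ∧ Nat.card {y : N // aeval y f = 0} = f.natDegree := by
  have h1 : {y : N // aeval y f = 0} ≃ (f.map (algebraMap (𝓞 K) K)).rootSet N :=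
    Equiv.subtypeEquivRight fun y => (mem_rootSet_iff hf).symm
  have hs' : ((f.map (algebraMap (𝓞 K) K)).map (algebraMap K N)).Splits := by
    rwa [Polynomial.map_map, ← IsScalarTower.algebraMap_eq]
  have h2 := card_rootSet_eq_natDegree (K := N) hirr.separable hs'
  refine ⟨Finite.of_equiv _ h1.symm, ?_⟩
  rw [Nat.card_congr h1, Nat.card_eq_fintype_card, h2, hf.natDegree_map]

/-- Many elements of the Galois group of an irreducible polynomial have no fixed root. -/
theorem card_le_not_fixRoot (hf : f.Monic) (hirr : Irreducible (f.map (algebraMap (𝓞 K) K)))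
    (hs : (f.map (algebraMap (𝓞 K) N)).Splits) (h2 : 2 ≤ f.natDegree) :
    Nat.card (N ≃ₐ[K] N) ≤ f.natDegree *
      Nat.card {σ : N ≃ₐ[K] N // ¬ ∃ y : N, aeval y f = 0 ∧ σ y = y} := by
  let _ : MulAction (N ≃ₐ[K] N) {y : N // aeval y f = 0} := rootAction f
  obtain ⟨hfin, hcard⟩ := card_roots_eq hf hirr hs
  have hpre : MulAction.IsPretransitive (N ≃ₐ[K] N) {y : N // aeval y f = 0} := by
    refine ⟨fun x y => ?_⟩
    have h3 : f.map (algebraMap (𝓞 K) K) = minpoly K (y : N) := by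
      refine minpoly.eq_of_irreducible_of_monic hirr ?_ (hf.map _)
      rw [aeval_map_algebraMap]
      exact y.2
    have h4 : aeval (x : N) (minpoly K (y : N)) = 0 := by
      rw [← h3, aeval_map_algebraMap]
      exact x.2
    obtain ⟨σ, hσ⟩ := minpoly.exists_algEquiv_of_root
      (Algebra.IsAlgebraic.isAlgebraic (R := K) (y : N)) h4
    exact ⟨σ, Subtype.ext hσ⟩
  have h3 := Frob.card_le_fixedPointFree (G := N ≃ₐ[K] N) (X := {y : N // aeval y f = 0})
    (hcard.symm ▸ h2)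
  rw [hcard] at h3
  refine h3.trans (Nat.mul_le_mul_left _ (le_of_eq ?_))
  refine Nat.card_congr (Equiv.subtypeEquivRight fun σ => ?_)
  constructor
  · rintro h4 ⟨y, hy, hσ⟩
    exact h4 ⟨y, hy⟩ (Subtype.ext hσ)
  · rintro h4 ⟨y, hy⟩ h5
    exact h4 ⟨y, hy, congrArg Subtype.val h5⟩

end Root

/-- A polynomial splits in a finite Galois extension. -/
theorem exists_galois_splits {K : Type*} [Field K] [NumberField K] (f : (𝓞 K)[X]) :
    ∃ (N : IntermediateField K (AlgebraicClosure K)), FiniteDimensional K N ∧ IsGalois K N ∧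
      (f.map (algebraMap (𝓞 K) N)).Splits := by
  let p : K[X] := f.map (algebraMap (𝓞 K) K)
  let N : IntermediateField K (AlgebraicClosure K) :=
    IntermediateField.adjoin K (p.rootSet (AlgebraicClosure K))
  have hsp : p.IsSplittingField K N :=
    IntermediateField.adjoin_rootSet_isSplittingField (IsAlgClosed.splits _)
  have hfd : FiniteDimensional K N := IsSplittingField.finiteDimensional N p
  have hn : Normal K N := Normal.of_isSplittingField p
  refine ⟨N, hfd, ⟨⟩, ?_⟩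
  have h1 := IsSplittingField.splits N p
  rw [Polynomial.map_map] at h1
  have h2 : (algebraMap K N).comp (algebraMap (𝓞 K) K) = algebraMap (𝓞 K) N :=
    (IsScalarTower.algebraMap_eq (𝓞 K) K N).symm
  rwa [h2] at h1

/-- **Jordan, Serre**: if `f` is irreducible over `K` of degree `n ≥ 2`, then the places `v` such
that `f` has no root modulo `v` have a density `≥ 1 / n`. -/
theorem hasDensity_not_root {K : Type*} [Field K] [NumberField K] {f : (𝓞 K)[X]} (hf : f.Monic)
    (hirr : Irreducible (f.map (algebraMap (𝓞 K) K))) (h2 : 2 ≤ f.natDegree) :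
    ∃ δ : ℝ, 1 / (f.natDegree : ℝ) ≤ δ ∧
      HasDensity {v : HeightOneSpectrum (𝓞 K) | ¬ ∃ a : 𝓞 K, f.eval a ∈ v.asIdeal} δ := by
  obtain ⟨N, hN, hG, hs⟩ := exists_galois_splits f
  have : NumberField N := NumberField.of_module_finite K N
  have hN0 : (0 : ℝ) < Nat.card (N ≃ₐ[K] N) := by
    have : 0 < Nat.card (N ≃ₐ[K] N) := Nat.card_pos
    exact_mod_cast this
  have h := (hasDensity_root (N := N) hf hs).compl
  have h1 : (Nat.card {σ : N ≃ₐ[K] N // ∃ y : N, aeval y f = 0 ∧ σ y = y} : ℝ) +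
      Nat.card {σ : N ≃ₐ[K] N // ¬ ∃ y : N, aeval y f = 0 ∧ σ y = y} = Nat.card (N ≃ₐ[K] N) := by
    rw [← Nat.cast_add, ← Nat.card_sum]
    exact congrArg _ (Nat.card_congr (Equiv.sumCompl _))
  refine ⟨_, ?_, h⟩
  have h3 := card_le_not_fixRoot (N := N) hf hirr hs h2
  have h4 : (0 : ℝ) < f.natDegree := by
    have : 0 < f.natDegree := by omega
    exact_mod_cast this
  have h5 : (Nat.card (N ≃ₐ[K] N) : ℝ) ≤ f.natDegree *
      Nat.card {σ : N ≃ₐ[K] N // ¬ ∃ y : N, aeval y f = 0 ∧ σ y = y} := by exact_mod_cast h3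
  rw [div_le_iff₀ h4, sub_mul, one_mul, div_mul_eq_mul_div, le_sub_iff_add_le,
    ← sub_nonneg]
  rw [← h1] at h5 hN0 ⊢
  have h6 : ((Nat.card {σ : N ≃ₐ[K] N // ∃ y : N, aeval y f = 0 ∧ σ y = y} : ℝ) +
      Nat.card {σ : N ≃ₐ[K] N // ¬ ∃ y : N, aeval y f = 0 ∧ σ y = y}) ≠ 0 := hN0.ne'
  have h7 : 0 ≤ (f.natDegree : ℝ) - (1 +
      Nat.card {σ : N ≃ₐ[K] N // ∃ y : N, aeval y f = 0 ∧ σ y = y} * f.natDegree /
        (Nat.card {σ : N ≃ₐ[K] N // ∃ y : N, aeval y f = 0 ∧ σ y = y} +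
          Nat.card {σ : N ≃ₐ[K] N // ¬ ∃ y : N, aeval y f = 0 ∧ σ y = y})) := by
    rw [sub_nonneg, ← sub_nonneg]
    have h8 : (f.natDegree : ℝ) - (1 +
      Nat.card {σ : N ≃ₐ[K] N // ∃ y : N, aeval y f = 0 ∧ σ y = y} * f.natDegree /
        (Nat.card {σ : N ≃ₐ[K] N // ∃ y : N, aeval y f = 0 ∧ σ y = y} +
          Nat.card {σ : N ≃ₐ[K] N // ¬ ∃ y : N, aeval y f = 0 ∧ σ y = y})) =
      (f.natDegree * Nat.card {σ : N ≃ₐ[K] N // ¬ ∃ y : N, aeval y f = 0 ∧ σ y = y} -
        (Nat.card {σ : N ≃ₐ[K] N // ∃ y : N, aeval y f = 0 ∧ σ y = y} +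
          Nat.card {σ : N ≃ₐ[K] N // ¬ ∃ y : N, aeval y f = 0 ∧ σ y = y})) /
        (Nat.card {σ : N ≃ₐ[K] N // ∃ y : N, aeval y f = 0 ∧ σ y = y} +
          Nat.card {σ : N ≃ₐ[K] N // ¬ ∃ y : N, aeval y f = 0 ∧ σ y = y}) := by
      field_simp
      ring
    rw [h8]
    exact div_nonneg (sub_nonneg.mpr h5) hN0.le
  linarith

/-- **An irreducible polynomial with a root modulo almost all `v` is linear**; the exceptional set
may have density `0`. -/
theorem natDegree_eq_one_of_root {K : Type*} [Field K] [NumberField K] {f : (𝓞 K)[X]}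
    (hf : f.Monic) (hirr : Irreducible (f.map (algebraMap (𝓞 K) K)))
    (h : HasDensity {v : HeightOneSpectrum (𝓞 K) | ¬ ∃ a : 𝓞 K, f.eval a ∈ v.asIdeal} 0) :
    f.natDegree = 1 := by
  have h0 : 0 < f.natDegree := by
    have := hirr.natDegree_pos
    rwa [hf.natDegree_map] at this
  by_contra h1
  obtain ⟨δ, h2, h3⟩ := hasDensity_not_root hf hirr (by omega)
  rw [← h.unique h3] at h2
  have : (0 : ℝ) < 1 / (f.natDegree : ℝ) := by positivity
  linarith

theorem natDegree_eq_one_of_root_of_finite {K : Type*} [Field K] [NumberField K] {f : (𝓞 K)[X]}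
    (hf : f.Monic) (hirr : Irreducible (f.map (algebraMap (𝓞 K) K)))
    (h : {v : HeightOneSpectrum (𝓞 K) | ¬ ∃ a : 𝓞 K, f.eval a ∈ v.asIdeal}.Finite) :
    f.natDegree = 1 :=
  natDegree_eq_one_of_root hf hirr (hasDensity_of_finite h)

end Fermat.Agent.Cor.ChebK
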