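import Fermat.Agent.Corollaries.ChebK.Mean
import Fermat.Agent.Classic.Level.Disc.Defs

/-!
# Sums over the places of a number field

`DS P s = ∑_{v ∈ P} N(v)⁻ˢ`, `HasDensity P δ`: the set of places `P` has Dirichlet density `δ`.

`exists_DS_sub_le`: up to a bounded function only the places of prime norm contribute.
-/

set_option autoImplicit false
set_option linter.unusedSectionVars false

namespace Fermat.Agent.Cor.ChebK

open NumberField IsDedekindDomain Fermat.Agent.Frob Fermat.Agent.FrobDensity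
open Fermat.Agent.LT.Tower.Fr Filter Topology
open Fermat.Agent.Classic.Disc (above mem_above sum_ram_fdeg ram_pos fdeg_pos)

open scoped Classical

variable {K : Type*} [Field K] [NumberField K]

/-- the norm of a place as a real number -/
noncomputable def nv (v : HeightOneSpectrum (𝓞 K)) : ℝ := (Ideal.absNorm v.asIdeal : ℝ)

/-- the Dirichlet series of a set of places -/
noncomputable def DS (P : Set (HeightOneSpectrum (𝓞 K))) (s : ℝ) : ℝ :=
  ∑' v : P, nv (v : HeightOneSpectrum (𝓞 K)) ^ (-s)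

/-- `P` has Dirichlet density `δ`: `∑_{v ∈ P} N(v)⁻ˢ ∼ δ log (1 / (s - 1))` for `s → 1⁺` -/
def HasDensity (P : Set (HeightOneSpectrum (𝓞 K))) (δ : ℝ) : Prop :=
  Tendsto (fun s : ℝ => DS P s / Real.log (1 / (s - 1))) (𝓝[>] 1) (𝓝 δ)

/-- the number of places in `P` of norm `p` -/
noncomputable def cntP (P : Set (HeightOneSpectrum (𝓞 K))) (p : ℕ) : ℕ :=
  Nat.card {v : HeightOneSpectrum (𝓞 K) // Ideal.absNorm v.asIdeal = p ∧ v ∈ P}

/-- the prime number below a place -/
noncomputable def chr (v : HeightOneSpectrum (𝓞 K)) : Nat.Primes :=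
  ⟨(exists_prime_mem v).choose, (exists_prime_mem v).choose_spec.1⟩

theorem chr_mem (v : HeightOneSpectrum (𝓞 K)) : ((chr v : ℕ) : 𝓞 K) ∈ v.asIdeal :=
  (exists_prime_mem v).choose_spec.2

theorem chr_eq_iff (v : HeightOneSpectrum (𝓞 K)) (p : Nat.Primes) :
    chr v = p ↔ v ∈ above K p := by
  rw [mem_above p.2.ne_zero]
  constructor
  · rintro rfl
    exact chr_mem v
  · intro h
    exact Subtype.ext (prime_unique (chr v).2 p.2 (chr_mem v) h)

theorem card_above_le (p : Nat.Primes) : (above K p).card ≤ Module.finrank ℚ K := by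
  rw [← sum_ram_fdeg (F := K) p.2, Finset.card_eq_sum_ones]
  exact Finset.sum_le_sum fun v _ => Nat.mul_pos (ram_pos v) (fdeg_pos v)

theorem one_lt_nv (v : HeightOneSpectrum (𝓞 K)) : 1 < nv v := by
  obtain ⟨f, hf, h⟩ := exists_absNorm_eq_pow (chr v).2 (chr_mem v)
  unfold nv
  rw [h]
  exact_mod_cast Nat.one_lt_pow hf.ne' (chr v).2.one_lt

theorem nv_pos (v : HeightOneSpectrum (𝓞 K)) : 0 < nv v := one_pos.trans (one_lt_nv v)

theorem chr_le_nv (v : HeightOneSpectrum (𝓞 K)) : ((chr v : ℕ) : ℝ) ≤ nv v := by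
  obtain ⟨f, hf, h⟩ := exists_absNorm_eq_pow (chr v).2 (chr_mem v)
  unfold nv
  rw [h]
  exact_mod_cast Nat.le_self_pow hf.ne' _

/-- the term of a set of places -/
noncomputable def tm (P : Set (HeightOneSpectrum (𝓞 K))) (s : ℝ) (v : HeightOneSpectrum (𝓞 K)) :
    ℝ := if v ∈ P then nv v ^ (-s) else 0

theorem tm_nonneg (P : Set (HeightOneSpectrum (𝓞 K))) (s : ℝ) (v : HeightOneSpectrum (𝓞 K)) :
    0 ≤ tm P s v := by
  unfold tm
  split_ifs
  · exact Real.rpow_nonneg (nv_pos v).le _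
  · exact le_rfl

theorem DS_eq (P : Set (HeightOneSpectrum (𝓞 K))) (s : ℝ) : DS P s = ∑' v, tm P s v := by
  unfold DS
  rw [tsum_subtype P fun v => nv v ^ (-s)]
  rfl

theorem tm_le (P : Set (HeightOneSpectrum (𝓞 K))) {s : ℝ} (hs : 0 ≤ s)
    (v : HeightOneSpectrum (𝓞 K)) : tm P s v ≤ ((chr v : ℕ) : ℝ) ^ (-s) := by
  have h0 : (0 : ℝ) < ((chr v : ℕ) : ℝ) := by exact_mod_cast (chr v).2.pos
  unfold tm
  split_ifs
  · exact Real.rpow_le_rpow_of_nonpos h0 (chr_le_nv v) (by linarith)
  · positivity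

theorem tsum_fiber (g : HeightOneSpectrum (𝓞 K) → ℝ) (p : Nat.Primes) :
    ∑' v : {v : HeightOneSpectrum (𝓞 K) // chr v = p}, g v = ∑ v ∈ above K p, g v := by
  rw [← Finset.tsum_subtype]
  exact (Equiv.subtypeEquivRight fun v => chr_eq_iff v p).tsum_eq
    (fun v : {v // v ∈ above K p} => g v)

instance finite_fiber (p : Nat.Primes) :
    Finite {v : HeightOneSpectrum (𝓞 K) // chr v = p} :=
  Finite.of_equiv {v // v ∈ above K p} (Equiv.subtypeEquivRight fun v => chr_eq_iff v p).symm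

theorem summable_tm (P : Set (HeightOneSpectrum (𝓞 K))) {s : ℝ} (hs : 1 < s) :
    Summable (tm P s) := by
  rw [← (Equiv.sigmaFiberEquiv (chr : HeightOneSpectrum (𝓞 K) → Nat.Primes)).summable_iff]
  refine (summable_sigma_of_nonneg fun _ => tm_nonneg _ _ _).mpr
    ⟨fun p => Summable.of_finite, ?_⟩
  refine Summable.of_nonneg_of_le (fun p => tsum_nonneg fun _ => tm_nonneg _ _ _) (fun p => ?_)
    ((summable_primes_rpow hs).mul_left (Module.finrank ℚ K : ℝ))
  have h1 : ∑' v : {v : HeightOneSpectrum (𝓞 K) // chr v = p}, tm P s v ≤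
      (Module.finrank ℚ K : ℝ) * ((p : ℕ) : ℝ) ^ (-s) := by
    rw [tsum_fiber]
    calc ∑ v ∈ above K p, tm P s v ≤ ∑ _v ∈ above K p, ((p : ℕ) : ℝ) ^ (-s) :=
          Finset.sum_le_sum fun v hv => by
            have h2 := tm_le P (s := s) (by linarith) v
            rwa [(chr_eq_iff v p).mpr hv] at h2
      _ = (above K p).card * ((p : ℕ) : ℝ) ^ (-s) := by rw [Finset.sum_const, nsmul_eq_mul]
      _ ≤ _ := by
          refine mul_le_mul_of_nonneg_right ?_ (by positivity)
          exact_mod_cast card_above_le p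
  exact h1

theorem tsum_tm (P : Set (HeightOneSpectrum (𝓞 K))) {s : ℝ} (hs : 1 < s) :
    HasSum (fun p : Nat.Primes => ∑ v ∈ above K p, tm P s v) (DS P s) := by
  have h1 := (summable_tm P hs).hasSum
  rw [← (Equiv.sigmaFiberEquiv (chr : HeightOneSpectrum (𝓞 K) → Nat.Primes)).hasSum_iff] at h1
  rw [DS_eq]
  refine h1.sigma fun p => ?_
  have h2 : HasSum (fun v : {v : HeightOneSpectrum (𝓞 K) // chr v = p} => tm P s v)
      (∑ v ∈ above K p, tm P s v) := by
    rw [← tsum_fiber]
    exact Summable.of_finite.hasSum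
  exact h2

theorem cntP_eq (P : Set (HeightOneSpectrum (𝓞 K))) (p : Nat.Primes) :
    cntP P p = ((above K p).filter fun v => Ideal.absNorm v.asIdeal = p ∧ v ∈ P).card := by
  unfold cntP
  rw [← Fintype.card_coe, ← Nat.card_eq_fintype_card]
  refine Nat.card_congr (Equiv.subtypeEquivRight fun v => ?_)
  rw [Finset.mem_filter]
  refine ⟨fun h => ⟨?_, h⟩, fun h => h.2⟩
  rw [mem_above p.2.ne_zero, ← h.1]
  exact Ideal.absNorm_mem _

theorem cntP_le (P : Set (HeightOneSpectrum (𝓞 K))) (n : ℕ) :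
    cntP P n ≤ Module.finrank ℚ K := by
  by_cases hn : n.Prime
  · have h1 := cntP_eq P ⟨n, hn⟩
    change cntP P n = _ at h1
    rw [h1]
    exact (Finset.card_filter_le _ _).trans (card_above_le ⟨n, hn⟩)
  · by_cases h0 : IsEmpty {v : HeightOneSpectrum (𝓞 K) // Ideal.absNorm v.asIdeal = n ∧ v ∈ P}
    · unfold cntP
      rw [Nat.card_of_isEmpty]
      exact Nat.zero_le _
    · rw [not_isEmpty_iff] at h0
      obtain ⟨v₀, hv₀, -⟩ := h0
      -- all places of norm `n` lie above the same prime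
      have h1 : ∀ v : HeightOneSpectrum (𝓞 K), Ideal.absNorm v.asIdeal = n → chr v = chr v₀ := by
        intro v hv
        obtain ⟨f, hf, h⟩ := exists_absNorm_eq_pow (chr v).2 (chr_mem v)
        obtain ⟨f₀, hf₀, h₀⟩ := exists_absNorm_eq_pow (chr v₀).2 (chr_mem v₀)
        have h2 : (chr v : ℕ) ^ f = (chr v₀ : ℕ) ^ f₀ := by rw [← h, ← h₀, hv, hv₀]
        have h3 : (chr v : ℕ) ∣ (chr v₀ : ℕ) ^ f₀ := by
          rw [← h2]
          exact dvd_pow_self _ hf.ne'
        have h4 := (chr v).2.dvd_of_dvd_pow h3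
        exact Subtype.ext ((Nat.prime_dvd_prime_iff_eq (chr v).2 (chr v₀).2).mp h4)
      unfold cntP
      refine le_trans ?_ (card_above_le (K := K) (chr v₀))
      rw [← Fintype.card_coe, ← Nat.card_eq_fintype_card]
      exact Nat.card_le_card_of_injective
        (fun v => (⟨v.1, (chr_eq_iff _ _).mp (h1 v.1 v.2.1)⟩ : {v // v ∈ above K (chr v₀)}))
        fun v v' h => Subtype.ext (Subtype.mk.inj h)

theorem abs_cntP_le (P : Set (HeightOneSpectrum (𝓞 K))) (n : ℕ) :
    |(cntP P n : ℝ)| ≤ Module.finrank ℚ K := by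
  rw [abs_of_nonneg (Nat.cast_nonneg _)]
  exact_mod_cast cntP_le P n

/-- **Only the places of prime norm matter.** -/
theorem exists_DS_sub_le (P : Set (HeightOneSpectrum (𝓞 K))) :
    ∃ B : ℝ, ∀ s : ℝ, 1 < s → |DS P s - PS (fun p => (cntP P p : ℝ)) s| ≤ B := by
  have hs2 : Summable fun p : Nat.Primes =>
      (Module.finrank ℚ K : ℝ) * ((p : ℕ) : ℝ) ^ (-(2 : ℝ)) :=
    (summable_primes_rpow (by norm_num)).mul_left _
  refine ⟨∑' p : Nat.Primes, (Module.finrank ℚ K : ℝ) * ((p : ℕ) : ℝ) ^ (-(2 : ℝ)),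
    fun s hs => ?_⟩
  have h1 := (tsum_tm P hs).sub (summable_PS (abs_cntP_le P) hs).hasSum
  have hb : ∀ p : Nat.Primes, |∑ v ∈ above K p, tm P s v - (cntP P p : ℝ) * ((p : ℕ) : ℝ) ^ (-s)| ≤
      (Module.finrank ℚ K : ℝ) * ((p : ℕ) : ℝ) ^ (-(2 : ℝ)) := by
    intro p
    have hp0 : (0 : ℝ) < ((p : ℕ) : ℝ) := by exact_mod_cast p.2.pos
    have hp1 : (1 : ℝ) ≤ ((p : ℕ) : ℝ) := by exact_mod_cast p.2.one_lt.le
    rw [cntP_eq, Finset.card_filter, Nat.cast_sum, Finset.sum_mul, ← Finset.sum_sub_distrib]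
    refine (Finset.abs_sum_le_sum_abs _ _).trans ?_
    calc ∑ v ∈ above K p, |tm P s v -
          ((if Ideal.absNorm v.asIdeal = p ∧ v ∈ P then 1 else 0 : ℕ) : ℝ) * ((p : ℕ) : ℝ) ^ (-s)|
        ≤ ∑ _v ∈ above K p, ((p : ℕ) : ℝ) ^ (-(2 : ℝ)) := by
          refine Finset.sum_le_sum fun v hv => ?_
          have hpos : (0 : ℝ) ≤ ((p : ℕ) : ℝ) ^ (-(2 : ℝ)) := by positivity
          unfold tm
          by_cases hvP : v ∈ P
          · obtain ⟨f, hf, hN⟩ := exists_absNorm_eq_pow p.2 ((mem_above p.2.ne_zero).mp hv)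
            by_cases h1 : Ideal.absNorm v.asIdeal = p
            · rw [if_pos hvP, if_pos ⟨h1, hvP⟩, nv, h1, Nat.cast_one, one_mul, sub_self, abs_zero]
              exact hpos
            · rw [if_pos hvP, if_neg (fun h => h1 h.1), Nat.cast_zero, zero_mul, sub_zero,
                abs_of_nonneg (Real.rpow_nonneg (nv_pos v).le _)]
              have hf2 : 2 ≤ f := by
                rcases Nat.lt_or_ge f 2 with h2 | h2
                · exfalso
                  have h3 : f = 1 := by omega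
                  rw [h3, pow_one] at hN
                  exact h1 hN
                · exact h2
              have h4 : ((p : ℕ) : ℝ) ^ 2 ≤ nv v := by
                unfold nv
                rw [hN, Nat.cast_pow]
                exact pow_le_pow_right₀ hp1 hf2
              calc nv v ^ (-s) ≤ nv v ^ (-(1 : ℝ)) :=
                    Real.rpow_le_rpow_of_exponent_le (one_lt_nv v).le (by linarith)
                _ ≤ (((p : ℕ) : ℝ) ^ 2) ^ (-(1 : ℝ)) :=
                    Real.rpow_le_rpow_of_nonpos (by positivity) h4 (by norm_num)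
                _ = ((p : ℕ) : ℝ) ^ (-(2 : ℝ)) := by
                    rw [← Real.rpow_natCast, ← Real.rpow_mul hp0.le]
                    norm_num
          · rw [if_neg hvP, if_neg (fun h => hvP h.2), Nat.cast_zero, zero_mul, sub_zero, abs_zero]
            exact hpos
      _ = (above K p).card * ((p : ℕ) : ℝ) ^ (-(2 : ℝ)) := by
          rw [Finset.sum_const, nsmul_eq_mul]
      _ ≤ _ := by
          refine mul_le_mul_of_nonneg_right ?_ (by positivity)
          exact_mod_cast card_above_le p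
  have h2 : DS P s - PS (fun p => (cntP P p : ℝ)) s = ∑' p : Nat.Primes,
      (∑ v ∈ above K p, tm P s v - (cntP P p : ℝ) * ((p : ℕ) : ℝ) ^ (-s)) := h1.tsum_eq.symm
  rw [h2, ← Real.norm_eq_abs]
  exact tsum_of_norm_bounded hs2.hasSum hb

/-- bounded functions do not matter -/
theorem hasDensity_iff_PS (P : Set (HeightOneSpectrum (𝓞 K))) (δ : ℝ) : HasDensity P δ ↔
    Tendsto (fun s : ℝ => PS (fun p => (cntP P p : ℝ)) s / Real.log (1 / (s - 1)))
      (𝓝[>] 1) (𝓝 δ) := by
  obtain ⟨B, hB⟩ := exists_DS_sub_le P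
  have h0 : Tendsto (fun s : ℝ => (DS P s - PS (fun p => (cntP P p : ℝ)) s) /
      Real.log (1 / (s - 1))) (𝓝[>] 1) (𝓝 0) := by
    refine squeeze_zero_norm' (a := fun s => B / Real.log (1 / (s - 1))) ?_
      (tendsto_log_atTop.const_div_atTop B)
    filter_upwards [self_mem_nhdsWithin, tendsto_log_atTop.eventually_gt_atTop 0] with s h1 h2
    rw [norm_div, Real.norm_eq_abs, Real.norm_eq_abs, abs_of_pos h2]
    exact div_le_div_of_nonneg_right (hB s h1) h2.le
  unfold HasDensity
  constructor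
  · intro h
    have h1 := h.sub h0
    rw [sub_zero] at h1
    refine h1.congr fun s => ?_
    rw [← sub_div]
    congr 1
    ring
  · intro h
    have h1 := h.add h0
    rw [add_zero] at h1
    refine h1.congr fun s => ?_
    rw [← add_div]
    congr 1
    ring

/-- If the numbers of places of norm `p` agree for almost all primes `p`, then so do the
densities. -/
theorem HasDensity.congr_cntP {P Q : Set (HeightOneSpectrum (𝓞 K))} {δ : ℝ} {T : Finset ℕ}
    (h : ∀ p : ℕ, p.Prime → p ∉ T → cntP P p = cntP Q p) (hP : HasDensity P δ) :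
    HasDensity Q δ := by
  rw [hasDensity_iff_PS] at hP ⊢
  obtain ⟨B, hB⟩ := exists_PS_sub_le (a := fun p => (cntP Q p : ℝ)) (b := fun p => (cntP P p : ℝ))
    (abs_cntP_le Q) (abs_cntP_le P) (T := T) fun p hp hpT => by
      simp only [h p hp hpT]
  have h0 : Tendsto (fun s : ℝ => (PS (fun p => (cntP Q p : ℝ)) s -
      PS (fun p => (cntP P p : ℝ)) s) / Real.log (1 / (s - 1))) (𝓝[>] 1) (𝓝 0) := by
    refine squeeze_zero_norm' (a := fun s => B / Real.log (1 / (s - 1))) ?_
      (tendsto_log_atTop.const_div_atTop B)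
    filter_upwards [self_mem_nhdsWithin, tendsto_log_atTop.eventually_gt_atTop 0] with s h1 h2
    rw [norm_div, Real.norm_eq_abs, Real.norm_eq_abs, abs_of_pos h2]
    exact div_le_div_of_nonneg_right (hB s h1) h2.le
  have h1 := hP.add h0
  rw [add_zero] at h1
  refine h1.congr fun s => ?_
  rw [← add_div]
  congr 1
  ring

end Fermat.Agent.Cor.ChebK
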